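import Mathlib

namespace Fermat.Agent.S22

/-- Abstract finiteness lemma: a `ℤ`-submodule `A` of `End_ℂ V` which stabilises (by
precomposition) a finitely generated separating `ℤ`-lattice `Λ` of linear functionals is a
finitely generated `ℤ`-module. -/
theorem fg_of_stabilizes_separating_lattice {V : Type*} [AddCommGroup V] [Module ℂ V]
    (Λ : Submodule ℤ (V →ₗ[ℂ] ℂ)) (hΛ : Λ.FG)
    (hsep : ∀ f : V, (∀ φ ∈ Λ, φ f = 0) → f = 0)
    (A : Submodule ℤ (Module.End ℂ V))
    (hA : ∀ T ∈ A, ∀ φ ∈ Λ, φ.comp T ∈ Λ) : A.FG := by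
  classical
  have : Module.Finite ℤ Λ := Module.Finite.iff_fg.mpr hΛ
  -- generators of Λ
  obtain ⟨s, hs⟩ := hΛ
  -- the evaluation map A → (s → Λ)
  let ev : A →ₗ[ℤ] (s → Λ) :=
    { toFun := fun T i => ⟨(i : V →ₗ[ℂ] ℂ).comp (T : Module.End ℂ V),
        hA T T.2 i (hs ▸ Submodule.subset_span i.2)⟩
      map_add' := by
        intro T T'
        funext i
        apply Subtype.ext
        simp [LinearMap.comp_add]
      map_smul' := by
        intro n T
        funext i
        apply Subtype.ext
        apply LinearMap.ext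
        intro f
        simp }
  have hinj : Function.Injective ev := by
    rw [← LinearMap.ker_eq_bot, Submodule.eq_bot_iff]
    intro T hT
    apply Subtype.ext
    apply LinearMap.ext
    intro f
    apply hsep
    intro φ hφ
    -- φ ∈ span s
    have hT' : ∀ i : s, (i : V →ₗ[ℂ] ℂ).comp (T : Module.End ℂ V) = 0 := by
      intro i
      have := congrFun (LinearMap.mem_ker.mp hT) i
      exact congrArg Subtype.val this
    rw [← hs] at hφ
    refine Submodule.span_induction (p := fun φ _ => φ ((T : Module.End ℂ V) f) = 0)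
      ?_ ?_ ?_ ?_ hφ
    · intro ψ hψ
      have := hT' ⟨ψ, hψ⟩
      exact LinearMap.congr_fun this f
    · simp
    · intro x y _ _ hx hy
      simp [hx, hy]
    · intro n x _ hx
      simp [hx]
  have : Module.Finite ℤ (s → Λ) := inferInstance
  have : IsNoetherian ℤ (s → Λ) := inferInstance
  have : Module.Finite ℤ A := Module.Finite.of_injective ev hinj
  exact Module.Finite.iff_fg.mp this

end Fermat.Agent.S22
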