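import Mathlib
import Fermat.Prelude.Def_CuspForm_HeckeAlgebra
import Fermat.Agent.S22.AbstractFinite

set_option autoImplicit false

namespace Fermat.Agent.S22

open CuspForm

/-- Final assembly: if there is a finitely generated separating `ℤ`-lattice of functionals on
`S_k(Γ₀(N))` stable under precomposition with every Hecke generator (for `S = ∅`), then every
Hecke algebra `heckeAlgebra N k S` is a finite `ℤ`-module. -/
theorem finite_heckeAlgebra_of_lattice (N : ℕ) [NeZero N] (k : ℤ) (S : Set ℕ)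
    (Λ : Submodule ℤ (CuspForm (CongruenceSubgroup.Gamma0 N) k →ₗ[ℂ] ℂ)) (hΛ : Λ.FG)
    (hsep : ∀ f : CuspForm (CongruenceSubgroup.Gamma0 N) k, (∀ φ ∈ Λ, φ f = 0) → f = 0)
    (hgen : ∀ T ∈ CuspForm.heckeGenerators N k (∅ : Set ℕ), ∀ φ ∈ Λ, φ.comp T ∈ Λ) :
    Module.Finite ℤ (CuspForm.heckeAlgebra N k S) := by
  -- stability for the whole algebra with `S = ∅`
  have hA : ∀ T ∈ Subalgebra.toSubmodule (CuspForm.heckeAlgebra N k (∅ : Set ℕ)),
      ∀ φ ∈ Λ, φ.comp T ∈ Λ := by
    intro T hT
    rw [Subalgebra.mem_toSubmodule] at hT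
    unfold CuspForm.heckeAlgebra at hT
    induction hT using Algebra.adjoin_induction with
    | mem x hx => exact hgen x hx
    | algebraMap r =>
      intro φ hφ
      have : φ.comp (algebraMap ℤ (Module.End ℂ (CuspForm (CongruenceSubgroup.Gamma0 N) k)) r)
          = r • φ := by
        apply LinearMap.ext
        intro f
        simp
      rw [this]
      exact Λ.smul_mem r hφ
    | add x y _ _ hx hy =>
      intro φ hφ
      rw [LinearMap.comp_add]
      exact Λ.add_mem (hx φ hφ) (hy φ hφ)
    | mul x y _ _ hx hy =>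
      intro φ hφ
      have : φ.comp (x * y) = (φ.comp x).comp y := rfl
      rw [this]
      exact hy _ (hx φ hφ)
  have hfg : (Subalgebra.toSubmodule (CuspForm.heckeAlgebra N k (∅ : Set ℕ))).FG :=
    fg_of_stabilizes_separating_lattice Λ hΛ hsep _ hA
  have hnoeth : IsNoetherian ℤ (Subalgebra.toSubmodule (CuspForm.heckeAlgebra N k (∅ : Set ℕ))) :=
    isNoetherian_of_fg_of_noetherian _ hfg
  have hle : Subalgebra.toSubmodule (CuspForm.heckeAlgebra N k S)
      ≤ Subalgebra.toSubmodule (CuspForm.heckeAlgebra N k (∅ : Set ℕ)) := by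
    intro T hT
    exact CuspForm.heckeAlgebra_mono (Set.empty_subset S) hT
  have hfgS : (Subalgebra.toSubmodule (CuspForm.heckeAlgebra N k S)).FG := by
    have := (isNoetherian_def.mp hnoeth) (Submodule.comap
      (Subalgebra.toSubmodule (CuspForm.heckeAlgebra N k (∅ : Set ℕ))).subtype
      (Subalgebra.toSubmodule (CuspForm.heckeAlgebra N k S)))
    have h2 := Submodule.FG.map (Subalgebra.toSubmodule (CuspForm.heckeAlgebra N k (∅ : Set ℕ))).subtype this
    rwa [Submodule.map_comap_subtype, inf_eq_right.mpr hle] at h2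
  exact Module.Finite.iff_fg.mpr hfgS

/-- Trivial case: if all cusp forms vanish, the Hecke algebra is finite over `ℤ`. -/
theorem finite_heckeAlgebra_of_forall_eq_zero (N : ℕ) [NeZero N] (k : ℤ) (S : Set ℕ)
    (h0 : ∀ f : CuspForm (CongruenceSubgroup.Gamma0 N) k, f = 0) :
    Module.Finite ℤ (CuspForm.heckeAlgebra N k S) :=
  finite_heckeAlgebra_of_lattice N k S ⊥ Submodule.fg_bot (fun f _ => h0 f)
    (fun _ _ φ hφ => by
      rw [Submodule.mem_bot] at hφ ⊢
      rw [hφ, LinearMap.zero_comp])

end Fermat.Agent.S22
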