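import Mathlib
import Fermat.Prelude.Def_CuspForm_HeckeAlgebra

set_option autoImplicit false

namespace Fermat.Agent.S22

open UpperHalfPlane CongruenceSubgroup
open scoped MatrixGroups ModularForm

/-- `-1` lies in the image of `Γ₀(N)` in `GL₂(ℝ)`. -/
theorem neg_one_mem_Gamma0_map (N : ℕ) :
    (-1 : GL (Fin 2) ℝ) ∈
      ((Gamma0 N : Subgroup SL(2, ℤ)) : Subgroup (GL (Fin 2) ℝ)) := by
  refine ⟨-1, ?_, ?_⟩
  · simp [Gamma0_mem]
  · ext i j
    simp

/-- Every cusp form of weight `k ≤ 1` on `Γ₀(N)` vanishes. -/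
theorem cuspForm_eq_zero_of_weight_le_one (N : ℕ) [NeZero N] {k : ℤ} (hk : k ≤ 1)
    (f : CuspForm (Gamma0 N) k) : f = 0 := by
  apply CuspForm.toModularFormₗ_injective
  rw [_root_.map_zero]
  rcases lt_trichotomy k 0 with hneg | h0 | hpos
  · exact ModularForm.isZero_of_neg_weight hneg _
  · subst h0
    obtain ⟨c, hc⟩ := ModularForm.eq_const_of_weight_zero (CuspForm.toModularFormₗ f)
    have hzero : IsZeroAtImInfty (f : ℍ → ℂ) := CuspFormClass.zero_at_infty f
    have hfc : (f : ℍ → ℂ) = Function.const ℍ c := by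
      rw [← hc]; rfl
    have hc0 : c = 0 := by
      rw [hfc] at hzero
      have : Filter.Tendsto (Function.const ℍ c) atImInfty (nhds 0) := hzero
      have h2 : Filter.Tendsto (Function.const ℍ c) atImInfty (nhds c) := tendsto_const_nhds
      exact tendsto_nhds_unique h2 this
    ext z
    have := congrFun hc z
    simp only [Function.const_apply] at this
    rw [this, hc0]; rfl
  · have hk1 : k = 1 := le_antisymm hk hpos
    subst hk1
    exact ModularForm.eq_zero_of_neg_one_mem (neg_one_mem_Gamma0_map N) odd_one _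

end Fermat.Agent.S22
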