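import Mathlib
import Fermat.Prelude.Def_CuspForm_HeckeAlgebra
import Fermat.Prelude.Def_CuspForm_IntegralStructure
import Fermat.Prelude.Thm_CuspForm_intLattice_fg
import Fermat.Prelude.Thm_ModularFormClass_qCoeff_heckeT
import Fermat.Prelude.Thm_ModularFormClass_qCoeff_heckeU
import Fermat.Prelude.Thm_CongruenceSubgroup_one_mem_strictPeriods_Gamma0
import Fermat.Agent.S22.Assembly
import Fermat.Agent.S22.LowWeight

/-!
# The Hecke algebra is finite over `ℤ` once `S_k(Γ₀(N))` has an integral structure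

The `ℤ`-lattice spanned by the coefficient functionals `f ↦ a_n(f)` is Hecke stable and
separating; it is finitely generated as soon as the forms with integral `q`-expansion span.
-/

set_option autoImplicit false

open CuspForm CongruenceSubgroup ModularFormClass

namespace Fermat.Agent.S22

noncomputable section

variable {N : ℕ} {k : ℤ}

theorem hΓ0 (N : ℕ) :
    (1 : ℝ) ∈ (Subgroup.map (Matrix.SpecialLinearGroup.mapGL ℝ) (Gamma0 N)).strictPeriods :=
  CongruenceSubgroup.one_mem_strictPeriods_Gamma0 N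

theorem qCoeff_smul' (c : ℂ) (f : CuspForm (Gamma0 N) k) (n : ℕ) :
    qCoeff ⇑(c • f) n = c * qCoeff ⇑f n := by
  have h1 : ⇑(c • f) = c • ⇑f := by
    ext z
    simp
  simp only [qCoeff, h1]
  rw [ModularForm.qExpansion_smul one_pos (hΓ0 N) c f]
  simp

/-- The `n`-th coefficient functional on `S_k(Γ₀(N))`. -/
def coeffFunctional (N : ℕ) (k : ℤ) (n : ℕ) : CuspForm (Gamma0 N) k →ₗ[ℂ] ℂ where
  toFun f := qCoeff ⇑f n
  map_add' f g := P2MW.S_CuspForm_intLattice_fg.W3WsD.qCoeff_add f g n
  map_smul' c f := by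
    rw [qCoeff_smul', RingHom.id_apply, smul_eq_mul]

@[simp] theorem coeffFunctional_apply (n : ℕ) (f : CuspForm (Gamma0 N) k) :
    coeffFunctional N k n f = qCoeff ⇑f n := rfl

/-- The lattice of functionals spanned by the coefficient functionals. -/
def coeffLattice (N : ℕ) (k : ℤ) : Submodule ℤ (CuspForm (Gamma0 N) k →ₗ[ℂ] ℂ) :=
  Submodule.span ℤ (Set.range (coeffFunctional N k))

theorem coeffFunctional_mem (n : ℕ) : coeffFunctional N k n ∈ coeffLattice N k :=
  Submodule.subset_span ⟨n, rfl⟩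

theorem coeffLattice_separating [NeZero N] (f : CuspForm (Gamma0 N) k)
    (h : ∀ φ ∈ coeffLattice N k, φ f = 0) : f = 0 := by
  apply P2MW.S_CuspForm_intLattice_fg.W3WsD.trunc_injective N k
  rw [map_zero]
  funext i
  exact h _ (coeffFunctional_mem i)

theorem coeffFunctional_comp_heckeT (hk : 1 ≤ k) {ℓ : ℕ} (hℓ : ℓ.Prime) (hℓN : ¬ ℓ ∣ N) (n : ℕ) :
    (coeffFunctional N k n).comp (heckeTLin k hℓ hℓN) =
      coeffFunctional N k (n * ℓ) +
        (if ℓ ∣ n then ((ℓ ^ (k - 1).toNat : ℕ) : ℤ) • coeffFunctional N k (n / ℓ) else 0) := by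
  apply LinearMap.ext
  intro f
  have hpow : (ℓ : ℂ) ^ (k - 1) = ((ℓ ^ (k - 1).toNat : ℕ) : ℂ) := by
    have h0 : 0 ≤ k - 1 := by omega
    conv_lhs => rw [← Int.toNat_of_nonneg h0]
    rw [zpow_natCast]
    push_cast
    rfl
  rw [LinearMap.comp_apply, coeffFunctional_apply, CuspForm.coe_heckeTLin_apply,
    ModularFormClass.qCoeff_heckeT f (hΓ0 N) hℓ.ne_zero, ModularForm.coeffHeckeT_apply,
    LinearMap.add_apply, coeffFunctional_apply]
  congr 1
  split_ifs with hd
  · rw [LinearMap.smul_apply, coeffFunctional_apply, hpow, zsmul_eq_mul]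
    push_cast
    rfl
  · rfl

theorem coeffFunctional_comp_heckeU [NeZero N] {q : ℕ} (hq : q.Prime) (hqN : q ∣ N) (n : ℕ) :
    (coeffFunctional N k n).comp (heckeULin k hqN) = coeffFunctional N k (n * q) := by
  apply LinearMap.ext
  intro f
  rw [LinearMap.comp_apply, coeffFunctional_apply, CuspForm.coe_heckeULin_apply,
    ModularFormClass.qCoeff_heckeU f (hΓ0 N) hq.ne_zero, ModularForm.coeffHeckeU_apply,
    coeffFunctional_apply]

theorem coeffLattice_stable [NeZero N] (hk : 1 ≤ k)
    (T : Module.End ℂ (CuspForm (Gamma0 N) k)) (hT : T ∈ heckeGenerators N k (∅ : Set ℕ))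
    (φ : CuspForm (Gamma0 N) k →ₗ[ℂ] ℂ) (hφ : φ ∈ coeffLattice N k) :
    φ.comp T ∈ coeffLattice N k := by
  unfold coeffLattice at hφ
  induction hφ using Submodule.span_induction with
  | mem x hx =>
    obtain ⟨n, rfl⟩ := hx
    rcases hT with ⟨ℓ, hℓ, hℓN, -, rfl⟩ | ⟨q, hqN, hq, -, rfl⟩
    · rw [coeffFunctional_comp_heckeT hk hℓ hℓN n]
      refine add_mem (coeffFunctional_mem _) ?_
      split_ifs
      · exact Submodule.smul_mem _ _ (coeffFunctional_mem _)
      · exact zero_mem _
    · rw [coeffFunctional_comp_heckeU hq hqN n]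
      exact coeffFunctional_mem _
  | zero =>
    rw [LinearMap.zero_comp]
    exact zero_mem _
  | add x y _ _ hx hy =>
    rw [LinearMap.add_comp]
    exact add_mem hx hy
  | smul c x _ hx =>
    rw [LinearMap.smul_comp]
    exact Submodule.smul_mem _ _ hx

theorem coeffLattice_fg [NeZero N] (h : CuspForm.HasIntegralStructure N k) :
    (coeffLattice N k).FG := by
  classical
  obtain ⟨s, hs⟩ := CuspForm.intLattice_fg N k
  -- `s` spans over `ℂ`
  have hspan : Submodule.span ℂ (s : Set (CuspForm (Gamma0 N) k)) = ⊤ := by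
    have h1 : Submodule.span ℂ ((Submodule.span ℤ (s : Set (CuspForm (Gamma0 N) k)) :
        Submodule ℤ (CuspForm (Gamma0 N) k)) : Set (CuspForm (Gamma0 N) k)) =
        Submodule.span ℂ (s : Set (CuspForm (Gamma0 N) k)) :=
      Submodule.span_span_of_tower ℤ ℂ _
    rw [← h1, hs]
    exact h
  -- evaluation on `s`
  let ev : (CuspForm (Gamma0 N) k →ₗ[ℂ] ℂ) →ₗ[ℤ] (s → ℂ) :=
    { toFun := fun φ i => φ (i : CuspForm (Gamma0 N) k)
      map_add' := fun φ ψ => by funext i; simp
      map_smul' := fun c φ => by funext i; simp }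
  have hinj : Function.Injective ev := by
    rw [← LinearMap.ker_eq_bot, Submodule.eq_bot_iff]
    intro φ hφ
    apply LinearMap.ext_on_range (v := fun i : s => (i : CuspForm (Gamma0 N) k))
    · rw [Subtype.range_coe_subtype]
      exact hspan
    · intro i
      have := congrFun (LinearMap.mem_ker.mp hφ) i
      simpa [ev] using this
  set M : Submodule ℤ (s → ℂ) :=
    Submodule.span ℤ (Set.range fun i : s => (Pi.single i (1 : ℂ) : s → ℂ)) with hM
  have hMfg : M.FG := Submodule.fg_span (Set.finite_range _)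
  have hle : (coeffLattice N k).map ev ≤ M := by
    rw [coeffLattice, Submodule.map_span, Submodule.span_le]
    rintro _ ⟨_, ⟨n, rfl⟩, rfl⟩
    have hint : ∀ i : s, ∃ m : ℤ, qCoeff ⇑(i : CuspForm (Gamma0 N) k) n = (m : ℂ) := by
      intro i
      have hi : (i : CuspForm (Gamma0 N) k) ∈ CuspForm.intLattice N k := by
        rw [← hs]
        exact Submodule.subset_span i.2
      exact (P2MW.S_CuspForm_intLattice_fg.W3WsD.mem_intLattice_iff _).mp hi n
    choose m hm using hint
    have hv : ev (coeffFunctional N k n) = ∑ i : s, (m i) • (Pi.single i (1 : ℂ) : s → ℂ) := by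
      funext j
      rw [Finset.sum_apply, Finset.sum_eq_single j, Pi.smul_apply, Pi.single_eq_same, zsmul_eq_mul,
        mul_one]
      · exact hm j
      · intro i _ hij
        rw [Pi.smul_apply, Pi.single_eq_of_ne' hij, smul_zero]
      · simp
    rw [SetLike.mem_coe, hv]
    exact Submodule.sum_mem _ fun i _ => Submodule.smul_mem _ _ (Submodule.subset_span ⟨i, rfl⟩)
  exact Submodule.fg_of_fg_map_injective ev hinj (hMfg.of_le hle)

/-- The Hecke algebra is module-finite over `ℤ` if the integral forms span. -/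
theorem finite_heckeAlgebra_of_hasIntegralStructure (N : ℕ) [NeZero N] {k : ℤ} (hk : 1 ≤ k)
    (S : Set ℕ) (h : CuspForm.HasIntegralStructure N k) :
    Module.Finite ℤ (CuspForm.heckeAlgebra N k S) :=
  finite_heckeAlgebra_of_lattice N k S (coeffLattice N k) (coeffLattice_fg h)
    coeffLattice_separating (fun T hT φ hφ => coeffLattice_stable hk T hT φ hφ)

/-- All weights at once: it suffices to have the integral structure in weights `≥ 2`. -/
theorem finite_heckeAlgebra_of_forall_hasIntegralStructure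
    (H : ∀ (N : ℕ) [NeZero N] (k : ℤ), 2 ≤ k → CuspForm.HasIntegralStructure N k)
    (N : ℕ) [NeZero N] (k : ℤ) (S : Set ℕ) :
    Module.Finite ℤ (CuspForm.heckeAlgebra N k S) := by
  rcases le_or_gt k 1 with hk | hk
  · exact finite_heckeAlgebra_of_forall_eq_zero N k S
      (fun f => cuspForm_eq_zero_of_weight_le_one N hk f)
  · exact finite_heckeAlgebra_of_hasIntegralStructure N (by omega) S (H N k (by omega))

end

end Fermat.Agent.S22
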