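import Mathlib
import Fermat.Prelude.Def_ModularForm_HeckeOperator

/-!
# S22 helper: cusp forms on arithmetic subgroups and their `GL(2, ℚ)`-translates are
holomorphic, periodic and zero at `i∞`

Interface between Mathlib's `CuspForm` and the analytic class
("holomorphic on the upper half plane + `h`-periodic + zero at `i∞`") used for iterated primitives.

Main statements (all for `f : CuspForm Γ k`, `Γ` arithmetic):
* `cuspForm_slash_class f α` (`α : GL (Fin 2) ℚ`), `cuspForm_slash_SL_class f γ` (`γ : SL(2, ℤ)`),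
  `cuspForm_slash_heckeMatrix_class f p j`, `cuspForm_slash_heckeDiagMatrix_class f p`:
  the function `(⇑f ∣[k] _) ∘ ofComplex : ℂ → ℂ` is differentiable on `{0 < im}`, periodic with some
  positive real period, and `ZeroAtFilter (comap im atTop)`.
* `exists_cuspForm_slash`: `⇑f ∣[k] ratGL α` is (the coercion of) a cusp form on an arithmetic
  subgroup.
-/

set_option autoImplicit false

open UpperHalfPlane Filter ModularForm
open scoped MatrixGroups Pointwise Manifold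

namespace Fermat.Agent.S22

/-- The real matrix attached to a rational matrix. -/
noncomputable abbrev ratGL (α : GL (Fin 2) ℚ) : GL (Fin 2) ℝ :=
  α.map (Rat.castHom ℝ)

theorem ratGL_mul (α β : GL (Fin 2) ℚ) : ratGL (α * β) = ratGL α * ratGL β :=
  map_mul _ _ _

theorem ratGL_one : ratGL 1 = 1 :=
  map_one _

theorem ratGL_inv (α : GL (Fin 2) ℚ) : ratGL α⁻¹ = (ratGL α)⁻¹ :=
  map_inv _ _

theorem ratGL_mapGL (γ : SL(2, ℤ)) :
    ratGL (Matrix.SpecialLinearGroup.mapGL ℚ γ) = Matrix.SpecialLinearGroup.mapGL ℝ γ := by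
  ext i j
  simp [ratGL]

/-- Rational upper triangular matrix (the rational model of `ModularForm.upperTriangularGL`). -/
noncomputable def upperTriangularGLRat (a b d : ℚ) (had : a * d ≠ 0) : GL (Fin 2) ℚ :=
  Matrix.GeneralLinearGroup.mkOfDetNeZero !![a, b; 0, d]
    (by rwa [Matrix.det_fin_two_of, mul_zero, sub_zero])

theorem ratGL_upperTriangularGLRat (a b d : ℚ) (had : a * d ≠ 0) :
    ratGL (upperTriangularGLRat a b d had) =
      ModularForm.upperTriangularGL a b d (by exact_mod_cast had) := by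
  ext i j
  fin_cases i <;> fin_cases j <;> simp [ratGL, upperTriangularGLRat, ModularForm.upperTriangularGL]

theorem exists_ratGL_eq_heckeMatrix (p j : ℕ) : ∃ α : GL (Fin 2) ℚ, ratGL α = heckeMatrix p j := by
  rcases eq_or_ne p 0 with rfl | hp
  · exact ⟨1, by simp⟩
  · have had : (1 : ℚ) * (p : ℚ) ≠ 0 := by rw [one_mul]; exact_mod_cast hp
    refine ⟨upperTriangularGLRat 1 j p had, ?_⟩
    rw [ratGL_upperTriangularGLRat]
    ext i l
    fin_cases i <;> fin_cases l <;> simp [heckeMatrix, hp, ModularForm.upperTriangularGL]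

theorem exists_ratGL_eq_heckeDiagMatrix (p : ℕ) :
    ∃ α : GL (Fin 2) ℚ, ratGL α = heckeDiagMatrix p := by
  rcases eq_or_ne p 0 with rfl | hp
  · exact ⟨1, by simp⟩
  · have had : (p : ℚ) * (1 : ℚ) ≠ 0 := by rw [mul_one]; exact_mod_cast hp
    refine ⟨upperTriangularGLRat p 0 1 had, ?_⟩
    rw [ratGL_upperTriangularGLRat]
    ext i l
    fin_cases i <;> fin_cases l <;> simp [heckeDiagMatrix, hp, ModularForm.upperTriangularGL]

theorem isArithmetic_conj_inv {Γ : Subgroup (GL (Fin 2) ℝ)} [Γ.IsArithmetic]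
    (α : GL (Fin 2) ℚ) : (ConjAct.toConjAct (ratGL α)⁻¹ • Γ).IsArithmetic := by
  have h := Subgroup.IsArithmetic.conj Γ α⁻¹
  rwa [show (α⁻¹).map (Rat.castHom ℝ) = (ratGL α)⁻¹ from ratGL_inv α] at h

/-- A cusp form on an arithmetic subgroup, slashed by a rational matrix, is a cusp form on an
arithmetic subgroup again: packaged version. -/
theorem exists_cuspForm_slash {Γ : Subgroup (GL (Fin 2) ℝ)} [Γ.IsArithmetic] {k : ℤ}
    (f : CuspForm Γ k) (α : GL (Fin 2) ℚ) :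
    ∃ (Γ' : Subgroup (GL (Fin 2) ℝ)) (_ : Γ'.IsArithmetic) (f' : CuspForm Γ' k),
      (⇑f' : ℍ → ℂ) = ⇑f ∣[k] ratGL α :=
  ⟨ConjAct.toConjAct (ratGL α)⁻¹ • Γ, isArithmetic_conj_inv α,
    CuspForm.translate f (ratGL α), rfl⟩

/-- The analytic class: holomorphic on the upper half plane, periodic with a positive real
period, and zero at `i∞`; stated for functions `ℂ → ℂ` (to be applied to `f ∘ ofComplex`). -/
def IsCuspidalFun (g : ℂ → ℂ) : Prop :=
  DifferentiableOn ℂ g {z : ℂ | 0 < z.im} ∧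
    (∃ h : ℝ, 0 < h ∧ Function.Periodic g h) ∧
    ZeroAtFilter (comap Complex.im atTop) g

/-- A cusp form on an arithmetic subgroup: holomorphic, periodic (some positive real period), and
zero at `i∞`, stated for the function `f ∘ ofComplex : ℂ → ℂ`. -/
theorem cuspForm_class {Γ : Subgroup (GL (Fin 2) ℝ)} [Γ.IsArithmetic] {k : ℤ}
    (f : CuspForm Γ k) : IsCuspidalFun (⇑f ∘ ofComplex) := by
  refine ⟨?_, ?_, ?_⟩
  · exact UpperHalfPlane.mdifferentiable_iff.mp (ModularFormClass.holo f)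
  · have hh : 0 < Γ.strictWidthInfty := Γ.strictWidthInfty_pos_iff.mpr Fact.out
    have hΓ : Γ.strictWidthInfty ∈ Γ.strictPeriods := Γ.strictWidthInfty_mem_strictPeriods
    exact ⟨_, hh, SlashInvariantFormClass.periodic_comp_ofComplex f hΓ⟩
  · exact CuspFormClass.zero_at_infty_comp_ofComplex f

/-- Main interface lemma: `f ∣[k] α` for `f` a cusp form on an arithmetic subgroup and
`α ∈ GL(2, ℚ)` is holomorphic, periodic, and zero at `i∞`. -/
theorem cuspForm_slash_class {Γ : Subgroup (GL (Fin 2) ℝ)} [Γ.IsArithmetic] {k : ℤ}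
    (f : CuspForm Γ k) (α : GL (Fin 2) ℚ) :
    IsCuspidalFun ((⇑f ∣[k] ratGL α) ∘ ofComplex) := by
  obtain ⟨Γ', hΓ', f', hf'⟩ := exists_cuspForm_slash f α
  rw [← hf']
  exact cuspForm_class f'

/-- Version for `γ ∈ SL(2, ℤ)` (with the `GL (Fin 2) ℝ`-slash by the coercion of `γ`). -/
theorem cuspForm_slash_mapGL_class {Γ : Subgroup (GL (Fin 2) ℝ)} [Γ.IsArithmetic] {k : ℤ}
    (f : CuspForm Γ k) (γ : SL(2, ℤ)) :
    IsCuspidalFun ((⇑f ∣[k] (Matrix.SpecialLinearGroup.mapGL ℝ γ)) ∘ ofComplex) := by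
  rw [← ratGL_mapGL]
  exact cuspForm_slash_class f _

/-- Version for `γ ∈ SL(2, ℤ)` (with the `SL(2, ℤ)`-slash). -/
theorem cuspForm_slash_SL_class {Γ : Subgroup (GL (Fin 2) ℝ)} [Γ.IsArithmetic] {k : ℤ}
    (f : CuspForm Γ k) (γ : SL(2, ℤ)) :
    IsCuspidalFun ((⇑f ∣[k] γ) ∘ ofComplex) := by
  rw [ModularForm.SL_slash]
  exact cuspForm_slash_mapGL_class f γ

theorem cuspForm_slash_heckeMatrix_class {Γ : Subgroup (GL (Fin 2) ℝ)} [Γ.IsArithmetic] {k : ℤ}
    (f : CuspForm Γ k) (p j : ℕ) :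
    IsCuspidalFun ((⇑f ∣[k] heckeMatrix p j) ∘ ofComplex) := by
  obtain ⟨α, hα⟩ := exists_ratGL_eq_heckeMatrix p j
  rw [← hα]
  exact cuspForm_slash_class f α

theorem cuspForm_slash_heckeDiagMatrix_class {Γ : Subgroup (GL (Fin 2) ℝ)} [Γ.IsArithmetic]
    {k : ℤ} (f : CuspForm Γ k) (p : ℕ) :
    IsCuspidalFun ((⇑f ∣[k] heckeDiagMatrix p) ∘ ofComplex) := by
  obtain ⟨α, hα⟩ := exists_ratGL_eq_heckeDiagMatrix p
  rw [← hα]
  exact cuspForm_slash_class f α

/-- Closure of the class under slashing twice: `(f ∣[k] α) ∣[k] β`. -/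
theorem cuspForm_slash_slash_class {Γ : Subgroup (GL (Fin 2) ℝ)} [Γ.IsArithmetic] {k : ℤ}
    (f : CuspForm Γ k) (α β : GL (Fin 2) ℚ) :
    IsCuspidalFun (((⇑f ∣[k] ratGL α) ∣[k] ratGL β) ∘ ofComplex) := by
  rw [← SlashAction.slash_mul, ← ratGL_mul]
  exact cuspForm_slash_class f _

/-- Exponential decay of `f ∣[k] α` at `i∞` (uniform in the real part). -/
theorem cuspForm_slash_exp_decay {Γ : Subgroup (GL (Fin 2) ℝ)} [Γ.IsArithmetic] {k : ℤ}
    (f : CuspForm Γ k) (α : GL (Fin 2) ℚ) :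
    ∃ c > 0, (⇑f ∣[k] ratGL α) =O[atImInfty] fun τ ↦ Real.exp (-c * τ.im) := by
  obtain ⟨Γ', hΓ', f', hf'⟩ := exists_cuspForm_slash f α
  rw [← hf']
  exact CuspFormClass.exp_decay_atImInfty' f'

/-- `ℍ`-version of the interface lemma. -/
theorem cuspForm_slash_mdiff_zeroAt {Γ : Subgroup (GL (Fin 2) ℝ)} [Γ.IsArithmetic] {k : ℤ}
    (f : CuspForm Γ k) (α : GL (Fin 2) ℚ) :
    MDifferentiable 𝓘(ℂ) 𝓘(ℂ) (⇑f ∣[k] ratGL α) ∧ IsZeroAtImInfty (⇑f ∣[k] ratGL α) ∧
      ∃ h : ℝ, 0 < h ∧ ∀ τ : ℍ, (⇑f ∣[k] ratGL α) (h +ᵥ τ) = (⇑f ∣[k] ratGL α) τ := by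
  obtain ⟨Γ', hΓ', f', hf'⟩ := exists_cuspForm_slash f α
  rw [← hf']
  refine ⟨ModularFormClass.holo f', CuspFormClass.zero_at_infty f', ?_⟩
  have hh : 0 < Γ'.strictWidthInfty := Γ'.strictWidthInfty_pos_iff.mpr Fact.out
  have hΓ : Γ'.strictWidthInfty ∈ Γ'.strictPeriods := Γ'.strictWidthInfty_mem_strictPeriods
  exact ⟨_, hh, fun τ => SlashInvariantForm.vAdd_apply_of_mem_strictPeriods f' τ hΓ⟩

end Fermat.Agent.S22
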