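-- S22 helper (P3 core, abstract form): behaviour of period constants under the Hecke operators.
-- If `E f v z` is any "Eichler integral" satisfying (i) additivity over the Hecke coset sum,
-- (ii) the upper-triangular substitution rule, (iii) the period rule under `Gamma0 N`,
-- then the period of `T_p f` (resp. `U_p f`) at `g` is a sum of periods of `f` at explicit
-- `g' x` in `Gamma0 N` with integrally transformed weight vectors.  Pure algebra on top of the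
-- coset permutation lemmas of the Prelude.
import Mathlib.Tactic
import Fermat.Prelude.Sol.S_ModularForm_heckeT_slash_eq_self_of_mem_Gamma0

set_option autoImplicit false

open scoped MatrixGroups ModularForm
open UpperHalfPlane Matrix Matrix.SpecialLinearGroup
open P2MW.S_ModularForm_heckeT_slash_eq_self_of_mem_Gamma0.ModularForm.HeckeSlashInvariance

namespace Fermat.Agent.S22

/-- Row vector `v ∈ ℂ²` times a real `2 × 2` matrix. -/
def vmul (v : ℂ × ℂ) (g : Matrix (Fin 2) (Fin 2) ℝ) : ℂ × ℂ :=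
  (v.1 * (g 0 0 : ℂ) + v.2 * (g 1 0 : ℂ), v.1 * (g 0 1 : ℂ) + v.2 * (g 1 1 : ℂ))

theorem vmul_mul (v : ℂ × ℂ) (A B : Matrix (Fin 2) (Fin 2) ℝ) :
    vmul (vmul v A) B = vmul v (A * B) := by
  simp only [vmul, Matrix.mul_apply, Fin.sum_univ_two]
  push_cast
  ext <;> simp <;> ring

/-- From `δ * g = g' * δ'` with `det δ = det δ' ≠ 0`, get `g * adj δ' = adj δ * g'`. -/
theorem mul_adjugate_eq_of_mul_eq {δ δ' g g' : Matrix (Fin 2) (Fin 2) ℝ}
    (h : δ * g = g' * δ') (hdet : δ.det = δ'.det) (h0 : δ.det ≠ 0) :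
    g * δ'.adjugate = δ.adjugate * g' := by
  have h1 : δ.adjugate * (δ * g) * δ'.adjugate = δ.adjugate * (g' * δ') * δ'.adjugate := by
    rw [h]
  rw [← Matrix.mul_assoc, Matrix.adjugate_mul, Matrix.mul_assoc, Matrix.mul_assoc,
    Matrix.mul_assoc, Matrix.mul_adjugate, ← hdet] at h1
  simp only [Matrix.smul_mul, Matrix.one_mul, Matrix.mul_smul, Matrix.mul_one] at h1
  exact smul_right_injective _ h0 h1

theorem det_heckeRep {p : ℕ} (hp : p ≠ 0) (x : OnePoint (ZMod p)) :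
    (heckeRep p x : Matrix (Fin 2) (Fin 2) ℝ).det = p := by
  induction x using OnePoint.rec with
  | infty =>
    have := ModularForm.det_heckeDiagMatrix hp
    rwa [Matrix.GeneralLinearGroup.val_det_apply] at this
  | coe j =>
    have := ModularForm.det_heckeMatrix hp j.val
    rwa [Matrix.GeneralLinearGroup.val_det_apply] at this

theorem period_heckeT_abstract
    {p N : ℕ} [Fact p.Prime] (hpN : ¬ p ∣ N) (k : ℤ)
    (E : (ℍ → ℂ) → ℂ × ℂ → ℍ → ℂ) (f : ℍ → ℂ)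
    (hadd : ∀ v z, E (ModularForm.heckeT k p f) v z =
      ∑ x : OnePoint (ZMod p), E (f ∣[k] heckeRep p x) v z)
    (htri : ∀ (x : OnePoint (ZMod p)) v z, E (f ∣[k] heckeRep p x) v z =
      E f (vmul v (heckeRep p x : Matrix (Fin 2) (Fin 2) ℝ).adjugate) (heckeRep p x • z))
    (φ : SL(2, ℤ) → ℂ × ℂ → ℂ)
    (hφ : ∀ g ∈ CongruenceSubgroup.Gamma0 N, ∀ v z,
      E f v (g • z) = φ g v + E f (vmul v ((mapGL ℝ g : GL (Fin 2) ℝ) : Matrix (Fin 2) (Fin 2) ℝ)) z)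
    (g : SL(2, ℤ)) (hg : g ∈ CongruenceSubgroup.Gamma0 N) :
    ∃ g' : OnePoint (ZMod p) → SL(2, ℤ), (∀ x, g' x ∈ CongruenceSubgroup.Gamma0 N) ∧ ∀ v z,
      E (ModularForm.heckeT k p f) v (g • z)
        - E (ModularForm.heckeT k p f) (vmul v ((mapGL ℝ g : GL (Fin 2) ℝ) : Matrix (Fin 2) (Fin 2) ℝ)) z
        = ∑ x, φ (g' x) (vmul v (heckeRep p x : Matrix (Fin 2) (Fin 2) ℝ).adjugate) := by
  have hp0 : p ≠ 0 := (Fact.out : p.Prime).ne_zero
  have hcN : (N : ℤ) ∣ g 1 0 :=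
    (ZMod.intCast_zmod_eq_zero_iff_dvd _ _).mp (CongruenceSubgroup.Gamma0_mem.mp hg)
  choose g' hg'N hg'mul using heckeRep_mul hpN g hcN
  have hg'mem : ∀ x, g' x ∈ CongruenceSubgroup.Gamma0 N := fun x =>
    CongruenceSubgroup.Gamma0_mem.mpr ((ZMod.intCast_zmod_eq_zero_iff_dvd _ _).mpr (hg'N x))
  refine ⟨g', hg'mem, fun v z => ?_⟩
  set π : Equiv.Perm (OnePoint (ZMod p)) := MulAction.toPerm (redMatrix p g) with hπ
  have hg'mul' : ∀ x, heckeRep p x * mapGL ℝ g = mapGL ℝ (g' x) * heckeRep p (π x) := hg'mul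
  -- matrix identity in `Matrix`
  have hmat : ∀ x, (heckeRep p x : Matrix (Fin 2) (Fin 2) ℝ) * (mapGL ℝ g : GL (Fin 2) ℝ).val
      = (mapGL ℝ (g' x) : GL (Fin 2) ℝ).val * (heckeRep p (π x) : Matrix (Fin 2) (Fin 2) ℝ) := by
    intro x
    have := congrArg (fun A : GL (Fin 2) ℝ => (A : Matrix (Fin 2) (Fin 2) ℝ)) (hg'mul' x)
    simpa using this
  have hadj : ∀ x, (mapGL ℝ g : GL (Fin 2) ℝ).val * (heckeRep p (π x) : Matrix (Fin 2) (Fin 2) ℝ).adjugate
      = (heckeRep p x : Matrix (Fin 2) (Fin 2) ℝ).adjugate * (mapGL ℝ (g' x) : GL (Fin 2) ℝ).val := by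
    intro x
    refine mul_adjugate_eq_of_mul_eq (hmat x) ?_ ?_
    · rw [det_heckeRep hp0, det_heckeRep hp0]
    · rw [det_heckeRep hp0]; exact_mod_cast hp0
  -- the point identity
  have hpt : ∀ x, heckeRep p x • (g • z) = (g' x) • (heckeRep p (π x) • z) := by
    intro x
    have h1 : (g • z) = (mapGL ℝ g) • z := MulAction.compHom_smul_def (mapGL ℝ) g z
    have h2 : (g' x) • (heckeRep p (π x) • z) = (mapGL ℝ (g' x)) • (heckeRep p (π x) • z) :=
      MulAction.compHom_smul_def (mapGL ℝ) (g' x) _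
    rw [h1, h2, ← mul_smul, ← mul_smul, hg'mul' x]
  rw [hadd, hadd, ← Finset.sum_sub_distrib]
  have key : ∀ x, E (f ∣[k] heckeRep p x) v (g • z)
      - E (f ∣[k] heckeRep p x) (vmul v (mapGL ℝ g : GL (Fin 2) ℝ).val) z
      = φ (g' x) (vmul v (heckeRep p x : Matrix (Fin 2) (Fin 2) ℝ).adjugate)
        + (E f (vmul (vmul v (mapGL ℝ g : GL (Fin 2) ℝ).val)
              (heckeRep p (π x) : Matrix (Fin 2) (Fin 2) ℝ).adjugate) (heckeRep p (π x) • z)
          - E f (vmul (vmul v (mapGL ℝ g : GL (Fin 2) ℝ).val)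
              (heckeRep p x : Matrix (Fin 2) (Fin 2) ℝ).adjugate) (heckeRep p x • z)) := by
    intro x
    rw [htri, htri, hpt x, hφ (g' x) (hg'mem x), vmul_mul, vmul_mul, vmul_mul, hadj x]
    ring
  rw [Finset.sum_congr rfl (fun x _ => key x), Finset.sum_add_distrib, Finset.sum_sub_distrib]
  have hperm := Equiv.sum_comp π (fun x => E f (vmul (vmul v (mapGL ℝ g : GL (Fin 2) ℝ).val)
              (heckeRep p x : Matrix (Fin 2) (Fin 2) ℝ).adjugate) (heckeRep p x • z))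
  rw [hperm, sub_self, add_zero]

theorem det_heckeMatrix_val {p : ℕ} (hp : p ≠ 0) (j : ℕ) :
    (ModularForm.heckeMatrix p j : Matrix (Fin 2) (Fin 2) ℝ).det = p := by
  have := ModularForm.det_heckeMatrix hp j
  rwa [Matrix.GeneralLinearGroup.val_det_apply] at this

theorem period_heckeU_abstract
    {p N : ℕ} [NeZero p] (hpN : p ∣ N) (k : ℤ)
    (E : (ℍ → ℂ) → ℂ × ℂ → ℍ → ℂ) (f : ℍ → ℂ)
    (hadd : ∀ v z, E (ModularForm.heckeU k p f) v z =
      ∑ x : ZMod p, E (f ∣[k] ModularForm.heckeMatrix p x.val) v z)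
    (htri : ∀ (x : ZMod p) v z, E (f ∣[k] ModularForm.heckeMatrix p x.val) v z =
      E f (vmul v (ModularForm.heckeMatrix p x.val : Matrix (Fin 2) (Fin 2) ℝ).adjugate)
        (ModularForm.heckeMatrix p x.val • z))
    (φ : SL(2, ℤ) → ℂ × ℂ → ℂ)
    (hφ : ∀ g ∈ CongruenceSubgroup.Gamma0 N, ∀ v z,
      E f v (g • z) = φ g v + E f (vmul v ((mapGL ℝ g : GL (Fin 2) ℝ) : Matrix (Fin 2) (Fin 2) ℝ)) z)
    (g : SL(2, ℤ)) (hg : g ∈ CongruenceSubgroup.Gamma0 N) :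
    ∃ g' : ZMod p → SL(2, ℤ), (∀ x, g' x ∈ CongruenceSubgroup.Gamma0 N) ∧ ∀ v z,
      E (ModularForm.heckeU k p f) v (g • z)
        - E (ModularForm.heckeU k p f) (vmul v ((mapGL ℝ g : GL (Fin 2) ℝ) : Matrix (Fin 2) (Fin 2) ℝ)) z
        = ∑ x : ZMod p, φ (g' x)
            (vmul v (ModularForm.heckeMatrix p x.val : Matrix (Fin 2) (Fin 2) ℝ).adjugate) := by
  have hp0 : p ≠ 0 := NeZero.ne p
  have hcN : (N : ℤ) ∣ g 1 0 :=
    (ZMod.intCast_zmod_eq_zero_iff_dvd _ _).mp (CongruenceSubgroup.Gamma0_mem.mp hg)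
  have hc : (p : ℤ) ∣ g 1 0 := (Int.natCast_dvd_natCast.mpr hpN).trans hcN
  have hc0 : ((g 1 0 : ℤ) : ZMod p) = 0 := (ZMod.intCast_zmod_eq_zero_iff_dvd _ _).mpr hc
  choose g' hg'N hg'mul using heckeMatrix_mul_of_dvd g hc
  have hg'mem : ∀ x, g' x ∈ CongruenceSubgroup.Gamma0 N := fun x => by
    rw [CongruenceSubgroup.Gamma0_mem, hg'N x]
    push_cast
    rw [CongruenceSubgroup.Gamma0_mem.mp hg, mul_zero]
  refine ⟨g', hg'mem, fun v z => ?_⟩
  set π : Equiv.Perm (ZMod p) := affinePerm g hc0 with hπ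
  have hg'mul' : ∀ x : ZMod p, ModularForm.heckeMatrix p x.val * mapGL ℝ g
      = mapGL ℝ (g' x) * ModularForm.heckeMatrix p (π x).val := hg'mul
  have hmat : ∀ x : ZMod p, (ModularForm.heckeMatrix p x.val : Matrix (Fin 2) (Fin 2) ℝ)
        * (mapGL ℝ g : GL (Fin 2) ℝ).val
      = (mapGL ℝ (g' x) : GL (Fin 2) ℝ).val
        * (ModularForm.heckeMatrix p (π x).val : Matrix (Fin 2) (Fin 2) ℝ) := by
    intro x
    have := congrArg (fun A : GL (Fin 2) ℝ => (A : Matrix (Fin 2) (Fin 2) ℝ)) (hg'mul' x)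
    simpa using this
  have hadj : ∀ x : ZMod p, (mapGL ℝ g : GL (Fin 2) ℝ).val
        * (ModularForm.heckeMatrix p (π x).val : Matrix (Fin 2) (Fin 2) ℝ).adjugate
      = (ModularForm.heckeMatrix p x.val : Matrix (Fin 2) (Fin 2) ℝ).adjugate
        * (mapGL ℝ (g' x) : GL (Fin 2) ℝ).val := by
    intro x
    refine mul_adjugate_eq_of_mul_eq (hmat x) ?_ ?_
    · rw [det_heckeMatrix_val hp0, det_heckeMatrix_val hp0]
    · rw [det_heckeMatrix_val hp0]; exact_mod_cast hp0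
  have hpt : ∀ x : ZMod p, ModularForm.heckeMatrix p x.val • (g • z)
      = (g' x) • (ModularForm.heckeMatrix p (π x).val • z) := by
    intro x
    have h1 : (g • z) = (mapGL ℝ g) • z := MulAction.compHom_smul_def (mapGL ℝ) g z
    have h2 : (g' x) • (ModularForm.heckeMatrix p (π x).val • z)
        = (mapGL ℝ (g' x)) • (ModularForm.heckeMatrix p (π x).val • z) :=
      MulAction.compHom_smul_def (mapGL ℝ) (g' x) _
    rw [h1, h2, ← mul_smul, ← mul_smul, hg'mul' x]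
  rw [hadd, hadd, ← Finset.sum_sub_distrib]
  have key : ∀ x : ZMod p, E (f ∣[k] ModularForm.heckeMatrix p x.val) v (g • z)
      - E (f ∣[k] ModularForm.heckeMatrix p x.val) (vmul v (mapGL ℝ g : GL (Fin 2) ℝ).val) z
      = φ (g' x) (vmul v (ModularForm.heckeMatrix p x.val : Matrix (Fin 2) (Fin 2) ℝ).adjugate)
        + (E f (vmul (vmul v (mapGL ℝ g : GL (Fin 2) ℝ).val)
              (ModularForm.heckeMatrix p (π x).val : Matrix (Fin 2) (Fin 2) ℝ).adjugate)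
              (ModularForm.heckeMatrix p (π x).val • z)
          - E f (vmul (vmul v (mapGL ℝ g : GL (Fin 2) ℝ).val)
              (ModularForm.heckeMatrix p x.val : Matrix (Fin 2) (Fin 2) ℝ).adjugate)
              (ModularForm.heckeMatrix p x.val • z)) := by
    intro x
    rw [htri, htri, hpt x, hφ (g' x) (hg'mem x), vmul_mul, vmul_mul, vmul_mul, hadj x]
    ring
  rw [Finset.sum_congr rfl (fun x _ => key x), Finset.sum_add_distrib, Finset.sum_sub_distrib]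
  have hperm := Equiv.sum_comp π (fun x : ZMod p =>
    E f (vmul (vmul v (mapGL ℝ g : GL (Fin 2) ℝ).val)
      (ModularForm.heckeMatrix p x.val : Matrix (Fin 2) (Fin 2) ℝ).adjugate)
      (ModularForm.heckeMatrix p x.val • z))
  rw [hperm, sub_self, add_zero]

end Fermat.Agent.S22

namespace Fermat.Agent.S22

/-- Integer weight vectors inside `ℂ²`. -/
def IsIntVec (v : ℂ × ℂ) : Prop := ∃ s t : ℤ, v = ((s : ℂ), (t : ℂ))

theorem vmul_mapGL (g : SL(2, ℤ)) (v : ℂ × ℂ) :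
    vmul v ((mapGL ℝ g : GL (Fin 2) ℝ) : Matrix (Fin 2) (Fin 2) ℝ)
      = (v.1 * ((g 0 0 : ℤ) : ℂ) + v.2 * ((g 1 0 : ℤ) : ℂ),
         v.1 * ((g 0 1 : ℤ) : ℂ) + v.2 * ((g 1 1 : ℤ) : ℂ)) := by
  simp [vmul]

theorem IsIntVec.vmul_mapGL {v : ℂ × ℂ} (hv : IsIntVec v) (g : SL(2, ℤ)) :
    IsIntVec (vmul v ((mapGL ℝ g : GL (Fin 2) ℝ) : Matrix (Fin 2) (Fin 2) ℝ)) := by
  obtain ⟨s, t, rfl⟩ := hv
  refine ⟨s * g 0 0 + t * g 1 0, s * g 0 1 + t * g 1 1, ?_⟩
  rw [Fermat.Agent.S22.vmul_mapGL]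
  push_cast
  rfl

theorem vmul_adjugate_heckeMatrix {p : ℕ} (hp : p ≠ 0) (j : ℕ) (v : ℂ × ℂ) :
    vmul v (ModularForm.heckeMatrix p j : Matrix (Fin 2) (Fin 2) ℝ).adjugate
      = (v.1 * (p : ℂ), -(v.1 * (j : ℂ)) + v.2) := by
  rw [ModularForm.val_heckeMatrix hp, Matrix.adjugate_fin_two_of]
  simp [vmul]

theorem vmul_adjugate_heckeDiagMatrix {p : ℕ} (hp : p ≠ 0) (v : ℂ × ℂ) :
    vmul v (ModularForm.heckeDiagMatrix p : Matrix (Fin 2) (Fin 2) ℝ).adjugate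
      = (v.1, v.2 * (p : ℂ)) := by
  rw [ModularForm.val_heckeDiagMatrix hp, Matrix.adjugate_fin_two_of]
  simp [vmul]

theorem IsIntVec.vmul_adjugate_heckeMatrix {v : ℂ × ℂ} (hv : IsIntVec v) {p : ℕ} (hp : p ≠ 0)
    (j : ℕ) : IsIntVec (vmul v (ModularForm.heckeMatrix p j : Matrix (Fin 2) (Fin 2) ℝ).adjugate) := by
  obtain ⟨s, t, rfl⟩ := hv
  refine ⟨s * p, -(s * j) + t, ?_⟩
  rw [Fermat.Agent.S22.vmul_adjugate_heckeMatrix hp]
  push_cast
  rfl

theorem IsIntVec.vmul_adjugate_heckeDiagMatrix {v : ℂ × ℂ} (hv : IsIntVec v) {p : ℕ} (hp : p ≠ 0) :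
    IsIntVec (vmul v (ModularForm.heckeDiagMatrix p : Matrix (Fin 2) (Fin 2) ℝ).adjugate) := by
  obtain ⟨s, t, rfl⟩ := hv
  refine ⟨s, t * p, ?_⟩
  rw [Fermat.Agent.S22.vmul_adjugate_heckeDiagMatrix hp]
  push_cast
  rfl

theorem IsIntVec.vmul_adjugate_heckeRep {v : ℂ × ℂ} (hv : IsIntVec v) {p : ℕ} (hp : p ≠ 0)
    (x : OnePoint (ZMod p)) :
    IsIntVec (vmul v (heckeRep p x : Matrix (Fin 2) (Fin 2) ℝ).adjugate) := by
  induction x using OnePoint.rec with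
  | infty => exact hv.vmul_adjugate_heckeDiagMatrix hp
  | coe j => exact hv.vmul_adjugate_heckeMatrix hp j.val

end Fermat.Agent.S22
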