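/-
S22 helper (owner: helper95).  Normalised primitives on the upper half plane.

Everything is stated for functions `ℂ → ℂ` on the set `{z | 0 < z.im}`.

* `exists_periodic_primitive`: a holomorphic `h`-periodic function that is zero at `i∞` has a
  primitive with the same three properties (so the construction iterates).
* `StripDecay`: faster-than-polynomial decay in every vertical strip as `Im z → ∞`.
* `Cuspidal.exists_primitive_mul_polynomial`: primitives of `g * P`, `P` a polynomial.
* `eqOn_of_hasDerivAt_of_tendsto`: uniqueness of normalised primitives.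
-/
import Mathlib

open Complex Filter Asymptotics Function.Periodic
open scoped Real Topology

namespace Fermat.Agent.S22.Prim

local notation "I∞" => comap Complex.im atTop

/-- A periodic holomorphic function on the upper half plane which is zero at `i∞` has a
periodic primitive which is zero at `i∞`. -/
theorem exists_periodic_primitive {h : ℝ} (hh : 0 < h) {g : ℂ → ℂ}
    (hg : DifferentiableOn ℂ g {z | 0 < z.im}) (hper : Function.Periodic g h)
    (hzero : ZeroAtFilter I∞ g) :
    ∃ G : ℂ → ℂ, (∀ z : ℂ, 0 < z.im → HasDerivAt G (g z) z) ∧ Function.Periodic G h ∧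
      ZeroAtFilter I∞ G := by
  have hU : IsOpen {z : ℂ | 0 < z.im} := isOpen_lt continuous_const Complex.continuous_im
  have hgd : ∀ z : ℂ, 0 < z.im → DifferentiableAt ℂ g z := fun z hz =>
    (hg z hz).differentiableAt (hU.mem_nhds hz)
  have h_hol : ∀ᶠ z in I∞, DifferentiableAt ℂ g z := by
    have : {z : ℂ | 0 < z.im} ∈ I∞ := by
      refine mem_comap.mpr ⟨Set.Ioi 0, Ioi_mem_atTop 0, fun z hz => hz⟩
    exact eventually_of_mem this hgd
  set F := cuspFunction h g with hF
  have hF0 : F 0 = 0 := cuspFunction_zero_of_zero_at_inf hh hzero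
  have hFd0 : DifferentiableAt ℂ F 0 :=
    differentiableAt_cuspFunction_zero hh hper h_hol hzero.boundedAtFilter
  have hFd : DifferentiableOn ℂ F (Metric.ball 0 1) := by
    intro q hq
    by_cases hq0 : q = 0
    · subst hq0; exact hFd0.differentiableWithinAt
    · have him : 0 < (invQParam h q).im := by
        rw [im_invQParam]
        have hq1 : ‖q‖ < 1 := by simpa using hq
        have hlog : Real.log ‖q‖ < 0 := Real.log_neg (norm_pos_iff.mpr hq0) hq1
        have : -h / (2 * π) < 0 := by
          apply div_neg_of_neg_of_pos (by linarith) (by positivity)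
        exact mul_pos_of_neg_of_neg this hlog
      have := differentiableAt_cuspFunction hh.ne' hper (hgd _ him)
      rw [qParam_right_inv hh.ne' hq0] at this
      exact this.differentiableWithinAt
  have hball : Metric.ball (0:ℂ) 1 ∈ 𝓝 (0:ℂ) := Metric.ball_mem_nhds _ one_pos
  have hHd : DifferentiableOn ℂ (dslope F 0) (Metric.ball 0 1) :=
    (differentiableOn_dslope hball).mpr hFd
  obtain ⟨G₀, hG₀0, hG₀⟩ := (hHd.isExactOn_ball).with_val_at 0 0
  refine ⟨fun z => (h / (2 * π * I)) * G₀ (qParam h z), ?_, ?_, ?_⟩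
  · intro z hz
    have hq1 : qParam h z ∈ Metric.ball (0:ℂ) 1 := by
      simpa using norm_qParam_lt_one hh hz
    have hq : HasDerivAt (qParam h) (qParam h z * (2 * π * I / h)) z := by
      unfold qParam
      simpa only [id_eq, mul_one] using
        (((hasDerivAt_id z).const_mul (2 * π * I)).div_const (h:ℂ)).cexp
    have h1 := ((hG₀ _ hq1).comp z hq).const_mul (h / (2 * π * I))
    have hval : (h / (2 * π * I)) * (dslope F 0 (qParam h z) * (qParam h z * (2 * π * I / h)))
        = g z := by
      have h2 : dslope F 0 (qParam h z) * qParam h z = F (qParam h z) := by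
        have := sub_smul_dslope F 0 (qParam h z)
        simp only [sub_zero, smul_eq_mul, hF0] at this
        rw [mul_comm]; exact this
      have h3 : F (qParam h z) = g z := eq_cuspFunction hh.ne' hper z
      have hhne : (h : ℂ) ≠ 0 := by exact_mod_cast hh.ne'
      have hpi : (2 * π * I : ℂ) ≠ 0 := two_pi_I_ne_zero
      rw [← h3, ← h2]
      field_simp
    rw [hval] at h1
    exact h1
  · intro z
    simp only
    have : qParam h (z + h) = qParam h z := by
      unfold qParam
      have hhne : (h : ℂ) ≠ 0 := by exact_mod_cast hh.ne'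
      rw [show 2 * π * I * (z + h) / h = 2 * π * I * z / h + 2 * π * I by field_simp]
      rw [Complex.exp_add, Complex.exp_two_pi_mul_I, mul_one]
    rw [this]
  · have hcont : ContinuousAt G₀ 0 := (hG₀ 0 (Metric.mem_ball_self one_pos)).continuousAt
    have ht : Tendsto (qParam h) I∞ (𝓝 0) := (qParam_tendsto hh).mono_right nhdsWithin_le_nhds
    have := (hcont.tendsto.comp ht).const_mul (h / (2 * π * I))
    simp only [hG₀0, mul_zero] at this
    exact this

/-- The filter "`Im z → ∞` inside the vertical strip `|Re z| ≤ A`". -/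
def stripFilter (A : ℝ) : Filter ℂ := I∞ ⊓ 𝓟 {z : ℂ | |z.re| ≤ A}

/-- `E` decays faster than any polynomial in every vertical strip as `Im z → ∞`. -/
def StripDecay (E : ℂ → ℂ) : Prop :=
  ∀ (A : ℝ) (m : ℕ), Tendsto (fun z => z ^ m * E z) (stripFilter A) (𝓝 0)

lemma tendsto_im_stripFilter (A : ℝ) : Tendsto Complex.im (stripFilter A) atTop :=
  tendsto_comap.mono_left inf_le_left

lemma StripDecay.add {E₁ E₂ : ℂ → ℂ} (h₁ : StripDecay E₁) (h₂ : StripDecay E₂) :
    StripDecay (fun z => E₁ z + E₂ z) := by
  intro A m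
  have := (h₁ A m).add (h₂ A m)
  simp only [add_zero] at this
  refine this.congr fun z => by ring

lemma StripDecay.neg {E : ℂ → ℂ} (h : StripDecay E) : StripDecay (fun z => - E z) := by
  intro A m
  have := (h A m).neg
  simp only [neg_zero] at this
  refine this.congr fun z => by ring

lemma StripDecay.sub {E₁ E₂ : ℂ → ℂ} (h₁ : StripDecay E₁) (h₂ : StripDecay E₂) :
    StripDecay (fun z => E₁ z - E₂ z) := by
  simpa [sub_eq_add_neg] using h₁.add h₂.neg

lemma StripDecay.const_mul {E : ℂ → ℂ} (h : StripDecay E) (c : ℂ) :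
    StripDecay (fun z => c * E z) := by
  intro A m
  have := (h A m).const_mul c
  simp only [mul_zero] at this
  refine this.congr fun z => by ring

lemma StripDecay.pow_mul {E : ℂ → ℂ} (h : StripDecay E) (n : ℕ) :
    StripDecay (fun z => z ^ n * E z) := by
  intro A m
  refine (h A (m + n)).congr fun z => by ring

lemma StripDecay.zero : StripDecay (fun _ => 0) := by
  intro A m; simpa using tendsto_const_nhds

lemma StripDecay.sum {ι : Type*} (s : Finset ι) {E : ι → ℂ → ℂ} (h : ∀ i ∈ s, StripDecay (E i)) :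
    StripDecay (fun z => ∑ i ∈ s, E i z) := by
  classical
  induction s using Finset.induction_on with
  | empty => simpa using StripDecay.zero
  | insert a s ha ih =>
    simp only [Finset.sum_insert ha]
    exact (h a (Finset.mem_insert_self a s)).add
      (ih fun i hi => h i (Finset.mem_insert_of_mem hi))

lemma StripDecay.polynomial_mul {E : ℂ → ℂ} (h : StripDecay E) (P : Polynomial ℂ) :
    StripDecay (fun z => P.eval z * E z) := by
  have : (fun z => P.eval z * E z) = fun z => ∑ i ∈ P.support, P.coeff i * (z ^ i * E z) := by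
    funext z
    rw [Polynomial.eval_eq_sum, Polynomial.sum, Finset.sum_mul]
    refine Finset.sum_congr rfl fun i _ => by ring
  rw [this]
  exact StripDecay.sum _ fun i _ => (h.pow_mul i).const_mul _

lemma StripDecay.tendsto {E : ℂ → ℂ} (h : StripDecay E) (A : ℝ) :
    Tendsto E (stripFilter A) (𝓝 0) := by
  simpa using h A 0

lemma StripDecay.congr_upper {E₁ E₂ : ℂ → ℂ} (h : StripDecay E₁)
    (heq : ∀ z : ℂ, 0 < z.im → E₁ z = E₂ z) : StripDecay E₂ := by
  intro A m
  refine (h A m).congr' ?_
  have : {z : ℂ | 0 < z.im} ∈ stripFilter A :=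
    mem_inf_of_left (mem_comap.mpr ⟨Set.Ioi 0, Ioi_mem_atTop 0, fun z hz => hz⟩)
  filter_upwards [this] with z hz
  rw [heq z hz]

/-- Exponential decay at `i∞` implies decay in vertical strips. -/
lemma stripDecay_of_isBigO_exp {E : ℂ → ℂ} {c : ℝ} (hc : 0 < c)
    (hE : E =O[I∞] fun z => Real.exp (-c * z.im)) : StripDecay E := by
  intro A m
  -- bound `‖z‖ ^ m ≤ (2 * im z) ^ m` on the strip once `im z ≥ max A 1`
  have hE' : E =O[stripFilter A] fun z => Real.exp (-c * z.im) := hE.mono inf_le_left
  have hpow : (fun z : ℂ => z ^ m) =O[stripFilter A] fun z => (z.im) ^ m := by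
    refine IsBigO.of_bound ((2:ℝ) ^ m) ?_
    have h1 : ∀ᶠ z in stripFilter A, max |A| 1 ≤ z.im :=
      (tendsto_im_stripFilter A).eventually (eventually_ge_atTop _)
    have h2 : ∀ᶠ z in stripFilter A, |z.re| ≤ A :=
      eventually_inf_principal.mpr (Eventually.of_forall fun z hz => hz)
    filter_upwards [h1, h2] with z hz1 hz2
    have him : 0 ≤ z.im := le_trans (le_trans zero_le_one (le_max_right _ _)) hz1
    have hA : A ≤ z.im := le_trans (le_trans (le_abs_self A) (le_max_left _ _)) hz1
    have hnorm : ‖z‖ ≤ 2 * z.im := by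
      calc ‖z‖ ≤ |z.re| + |z.im| := Complex.norm_le_abs_re_add_abs_im z
        _ ≤ A + z.im := by rw [abs_of_nonneg him]; linarith
        _ ≤ 2 * z.im := by linarith
    rw [norm_pow, norm_pow, Real.norm_of_nonneg him, ← mul_pow]
    exact pow_le_pow_left₀ (norm_nonneg _) hnorm m
  have hprod : (fun z : ℂ => z ^ m * E z) =O[stripFilter A]
      fun z => (z.im) ^ m * Real.exp (-c * z.im) := hpow.mul hE'
  refine hprod.trans_tendsto ?_
  have hreal : Tendsto (fun y : ℝ => y ^ m * Real.exp (-c * y)) atTop (𝓝 0) := by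
    have := (isLittleO_pow_exp_pos_mul_atTop m hc).tendsto_div_nhds_zero
    refine this.congr fun y => ?_
    rw [neg_mul, Real.exp_neg, div_eq_mul_inv]
  exact hreal.comp (tendsto_im_stripFilter A)

/-- A periodic holomorphic function on the upper half plane that is zero at `i∞` decays in
vertical strips. -/
lemma stripDecay_of_periodic {h : ℝ} (hh : 0 < h) {g : ℂ → ℂ}
    (hg : DifferentiableOn ℂ g {z | 0 < z.im}) (hper : Function.Periodic g h)
    (hzero : ZeroAtFilter I∞ g) : StripDecay g := by
  have hU : IsOpen {z : ℂ | 0 < z.im} := isOpen_lt continuous_const Complex.continuous_im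
  have h_hol : ∀ᶠ z in I∞, DifferentiableAt ℂ g z := by
    have : {z : ℂ | 0 < z.im} ∈ I∞ :=
      mem_comap.mpr ⟨Set.Ioi 0, Ioi_mem_atTop 0, fun z hz => hz⟩
    exact eventually_of_mem this fun z hz => (hg z hz).differentiableAt (hU.mem_nhds hz)
  have := exp_decay_of_zero_at_inf hh hper h_hol hzero
  refine stripDecay_of_isBigO_exp (c := 2 * π / h) (by positivity) (this.congr_right fun z => ?_)
  congr 1; ring

/-- A holomorphic function on the upper half plane, periodic with period `h`, zero at `i∞`. -/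
structure Cuspidal (h : ℝ) (g : ℂ → ℂ) : Prop where
  diff : DifferentiableOn ℂ g {z | 0 < z.im}
  per : Function.Periodic g h
  zero : ZeroAtFilter I∞ g

lemma Cuspidal.stripDecay {h : ℝ} (hh : 0 < h) {g : ℂ → ℂ} (hg : Cuspidal h g) : StripDecay g :=
  stripDecay_of_periodic hh hg.diff hg.per hg.zero

lemma Cuspidal.exists_primitive {h : ℝ} (hh : 0 < h) {g : ℂ → ℂ} (hg : Cuspidal h g) :
    ∃ G : ℂ → ℂ, Cuspidal h G ∧ ∀ z : ℂ, 0 < z.im → HasDerivAt G (g z) z := by
  obtain ⟨G, hG, hper, hzero⟩ := exists_periodic_primitive hh hg.diff hg.per hg.zero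
  exact ⟨G, ⟨fun z hz => (hG z hz).differentiableAt.differentiableWithinAt, hper, hzero⟩, hG⟩

/-- Primitive of `g * P` for `g` cuspidal and `P` a polynomial, decaying in vertical strips. -/
theorem Cuspidal.exists_primitive_mul_polynomial {h : ℝ} (hh : 0 < h) {g : ℂ → ℂ}
    (hg : Cuspidal h g) (P : Polynomial ℂ) :
    ∃ E : ℂ → ℂ, (∀ z : ℂ, 0 < z.im → HasDerivAt E (g z * P.eval z) z) ∧ StripDecay E := by
  suffices H : ∀ n : ℕ, ∀ (g : ℂ → ℂ), Cuspidal h g → ∀ P : Polynomial ℂ, P.natDegree ≤ n →
      ∃ E : ℂ → ℂ, (∀ z : ℂ, 0 < z.im → HasDerivAt E (g z * P.eval z) z) ∧ StripDecay E from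
    H P.natDegree g hg P le_rfl
  intro n
  induction n with
  | zero =>
    intro g hg P hP
    obtain ⟨G, hGc, hG⟩ := hg.exists_primitive hh
    have hPc : P = Polynomial.C (P.coeff 0) := Polynomial.eq_C_of_natDegree_le_zero hP
    refine ⟨fun z => P.coeff 0 * G z, fun z hz => ?_, (hGc.stripDecay hh).const_mul _⟩
    have := (hG z hz).const_mul (P.coeff 0)
    rw [hPc, Polynomial.eval_C, mul_comm (g z)]
    simpa using this
  | succ n ih =>
    intro g hg P hP
    obtain ⟨G, hGc, hG⟩ := hg.exists_primitive hh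
    have hP' : (Polynomial.derivative P).natDegree ≤ n := by
      have := Polynomial.natDegree_derivative_le P
      omega
    obtain ⟨E', hE', hE'd⟩ := ih G hGc (Polynomial.derivative P) hP'
    refine ⟨fun z => P.eval z * G z - E' z, fun z hz => ?_,
      ((hGc.stripDecay hh).polynomial_mul P).sub hE'd⟩
    have h1 : HasDerivAt (fun z => P.eval z) ((Polynomial.derivative P).eval z) z :=
      P.hasDerivAt z
    have h2 := (h1.mul (hG z hz)).sub (hE' z hz)
    have h3 : (Polynomial.derivative P).eval z * G z + P.eval z * g z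
        - G z * (Polynomial.derivative P).eval z = g z * P.eval z := by ring
    rw [h3] at h2
    exact h2

/-- Two primitives on the upper half plane of the same function which both tend to zero along
the imaginary axis agree on the upper half plane. -/
theorem eqOn_of_hasDerivAt_of_tendsto {E₁ E₂ φ : ℂ → ℂ}
    (h₁ : ∀ z : ℂ, 0 < z.im → HasDerivAt E₁ (φ z) z)
    (h₂ : ∀ z : ℂ, 0 < z.im → HasDerivAt E₂ (φ z) z)
    (t₁ : Tendsto (fun t : ℝ => E₁ (t * I)) atTop (𝓝 0))
    (t₂ : Tendsto (fun t : ℝ => E₂ (t * I)) atTop (𝓝 0)) :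
    ∀ z : ℂ, 0 < z.im → E₁ z = E₂ z := by
  have hU : IsOpen {z : ℂ | 0 < z.im} := isOpen_lt continuous_const Complex.continuous_im
  have hconv : Convex ℝ {z : ℂ | 0 < z.im} := by
    have : {z : ℂ | 0 < z.im} = Complex.imCLM ⁻¹' Set.Ioi 0 := rfl
    rw [this]
    exact (convex_Ioi 0).linear_preimage Complex.imCLM.toLinearMap
  have hD : ∀ z : ℂ, 0 < z.im → HasDerivAt (fun z => E₁ z - E₂ z) 0 z := fun z hz => by
    have := (h₁ z hz).sub (h₂ z hz)
    rw [sub_self] at this
    exact this
  have hdiff : DifferentiableOn ℂ (fun z => E₁ z - E₂ z) {z : ℂ | 0 < z.im} :=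
    fun z hz => (hD z hz).differentiableAt.differentiableWithinAt
  have hderiv : Set.EqOn (deriv (fun z => E₁ z - E₂ z)) 0 {z : ℂ | 0 < z.im} :=
    fun z hz => (hD z hz).deriv
  intro z hz
  have hconst : ∀ t : ℝ, 0 < t → E₁ (t * I) - E₂ (t * I) = E₁ z - E₂ z := fun t ht =>
    hU.is_const_of_deriv_eq_zero hconv.isPreconnected hdiff hderiv
      (show (0:ℝ) < ((t:ℂ) * I).im by simpa using ht) hz
  have hlim : Tendsto (fun t : ℝ => E₁ (t * I) - E₂ (t * I)) atTop (𝓝 (0 - 0)) := t₁.sub t₂
  have hlim' : Tendsto (fun t : ℝ => E₁ (t * I) - E₂ (t * I)) atTop (𝓝 (E₁ z - E₂ z)) := by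
    refine tendsto_const_nhds.congr' ?_
    filter_upwards [eventually_gt_atTop 0] with t ht
    exact (hconst t ht).symm
  have := tendsto_nhds_unique hlim' hlim
  simpa [sub_eq_zero] using this

/-- A `StripDecay` function tends to zero along any path staying in a vertical strip whose
imaginary part tends to infinity. -/
lemma StripDecay.tendsto_comp {E : ℂ → ℂ} (hE : StripDecay E) {α : Type*} {l : Filter α}
    {γ : α → ℂ} (A : ℝ) (hre : ∀ᶠ t in l, |(γ t).re| ≤ A)
    (him : Tendsto (fun t => (γ t).im) l atTop) : Tendsto (fun t => E (γ t)) l (𝓝 0) := by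
  refine (hE.tendsto A).comp ?_
  rw [stripFilter, tendsto_inf]
  refine ⟨tendsto_comap_iff.mpr him, tendsto_principal.mpr hre⟩

end Fermat.Agent.S22.Prim
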