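-- S22: concrete Eichler integrals with polynomial weights, on top of Prim.lean (periodic
-- primitives) and CuspidalClass.lean (cusp forms and their slashes are cuspidal functions).
-- Main objects: `eichP g P` (primitive of `g * P` on the upper half plane, decaying in vertical
-- strips), `linW w v` (the weight `(s X + t)^w`, `v = (s, t)`), `eichH w f v` (the version on `ℍ`).
import Fermat.Agent.S22.Prim
import Fermat.Agent.S22.CuspidalClass
import Fermat.Agent.S22.HeckePeriodAbstract

set_option autoImplicit false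

open Complex Filter UpperHalfPlane
open scoped Topology

namespace Fermat.Agent.S22

theorem IsCuspidalFun.exists_cuspidal {g : ℂ → ℂ} (hg : IsCuspidalFun g) :
    ∃ h : ℝ, 0 < h ∧ Prim.Cuspidal h g := by
  obtain ⟨hd, ⟨h, hh, hper⟩, hz⟩ := hg
  exact ⟨h, hh, ⟨hd, hper, hz⟩⟩

theorem IsCuspidalFun.exists_eich {g : ℂ → ℂ} (hg : IsCuspidalFun g) (P : Polynomial ℂ) :
    ∃ E : ℂ → ℂ, (∀ z : ℂ, 0 < z.im → HasDerivAt E (g z * P.eval z) z) ∧ Prim.StripDecay E := by
  obtain ⟨h, hh, hc⟩ := hg.exists_cuspidal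
  exact hc.exists_primitive_mul_polynomial hh P

open Classical in
/-- Eichler integral of the cuspidal function `g` against the polynomial weight `P`: a primitive
of `g * P` on the upper half plane decaying in vertical strips (junk value `0` if `g` is not
cuspidal). -/
noncomputable def eichP (g : ℂ → ℂ) (P : Polynomial ℂ) : ℂ → ℂ :=
  if hg : IsCuspidalFun g then Classical.choose (hg.exists_eich P) else 0

theorem eichP_hasDerivAt {g : ℂ → ℂ} (hg : IsCuspidalFun g) (P : Polynomial ℂ) {z : ℂ}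
    (hz : 0 < z.im) : HasDerivAt (eichP g P) (g z * P.eval z) z := by
  unfold eichP
  rw [dif_pos hg]
  exact (Classical.choose_spec (hg.exists_eich P)).1 z hz

theorem eichP_stripDecay {g : ℂ → ℂ} (hg : IsCuspidalFun g) (P : Polynomial ℂ) :
    Prim.StripDecay (eichP g P) := by
  unfold eichP
  rw [dif_pos hg]
  exact (Classical.choose_spec (hg.exists_eich P)).2

/-- A `StripDecay` function tends to zero along `t ↦ (a * (t * Complex.I) + b) / d`, `a, d > 0`. -/
theorem stripDecay_tendsto_affine {E : ℂ → ℂ} (hE : Prim.StripDecay E) {a d : ℝ} (b : ℝ)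
    (ha : 0 < a) (hd : 0 < d) :
    Tendsto (fun t : ℝ => E (((a : ℂ) * ((t : ℂ) * Complex.I) + (b : ℂ)) / (d : ℂ))) atTop (𝓝 0) := by
  have hd' : (d : ℂ) ≠ 0 := by exact_mod_cast hd.ne'
  have hre : ∀ t : ℝ, ((((a : ℂ) * ((t : ℂ) * Complex.I) + (b : ℂ)) / (d : ℂ))).re = b / d := by
    intro t
    have : ((a : ℂ) * ((t : ℂ) * Complex.I) + (b : ℂ)) / (d : ℂ)
        = ((b / d : ℝ) : ℂ) + ((a * t / d : ℝ) : ℂ) * Complex.I := by
      push_cast; field_simp; ring
    rw [this]; simp
  have him : ∀ t : ℝ, ((((a : ℂ) * ((t : ℂ) * Complex.I) + (b : ℂ)) / (d : ℂ))).im = a * t / d := by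
    intro t
    have : ((a : ℂ) * ((t : ℂ) * Complex.I) + (b : ℂ)) / (d : ℂ)
        = ((b / d : ℝ) : ℂ) + ((a * t / d : ℝ) : ℂ) * Complex.I := by
      push_cast; field_simp; ring
    rw [this]; simp
  refine hE.tendsto_comp (|b / d|) (Eventually.of_forall fun t => by rw [hre]) ?_
  simp only [him]
  have : Tendsto (fun t : ℝ => a / d * t) atTop atTop :=
    Tendsto.const_mul_atTop (div_pos ha hd) tendsto_id
  refine this.congr fun t => ?_
  ring

theorem eichP_tendsto_vertical {g : ℂ → ℂ} (hg : IsCuspidalFun g) (P : Polynomial ℂ) :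
    Tendsto (fun t : ℝ => eichP g P ((t : ℂ) * Complex.I)) atTop (𝓝 0) := by
  have := stripDecay_tendsto_affine (eichP_stripDecay hg P) (a := 1) (d := 1) 0 one_pos one_pos
  simpa using this

/-- Uniqueness: a primitive of `g * P` on the upper half plane tending to zero along the
imaginary axis is `eichP g P`. -/
theorem eichP_unique {g : ℂ → ℂ} (hg : IsCuspidalFun g) (P : Polynomial ℂ) {E : ℂ → ℂ}
    (hE : ∀ z : ℂ, 0 < z.im → HasDerivAt E (g z * P.eval z) z)
    (hE0 : Tendsto (fun t : ℝ => E ((t : ℂ) * Complex.I)) atTop (𝓝 0)) :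
    ∀ z : ℂ, 0 < z.im → E z = eichP g P z :=
  Prim.eqOn_of_hasDerivAt_of_tendsto hE (fun _ hz => eichP_hasDerivAt hg P hz) hE0
    (eichP_tendsto_vertical hg P)

/-! ### Linearity of `eichP` in the weight and in the function -/

theorem eichP_add_weight {g : ℂ → ℂ} (hg : IsCuspidalFun g) (P Q : Polynomial ℂ) {z : ℂ}
    (hz : 0 < z.im) : eichP g (P + Q) z = eichP g P z + eichP g Q z := by
  refine (eichP_unique hg (P + Q) (E := fun z => eichP g P z + eichP g Q z) (fun z hz => ?_) ?_
    z hz).symm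
  · have := (eichP_hasDerivAt hg P hz).add (eichP_hasDerivAt hg Q hz)
    rw [Polynomial.eval_add, mul_add]
    exact this
  · simpa using (eichP_tendsto_vertical hg P).add (eichP_tendsto_vertical hg Q)

theorem eichP_smul_weight {g : ℂ → ℂ} (hg : IsCuspidalFun g) (c : ℂ) (P : Polynomial ℂ) {z : ℂ}
    (hz : 0 < z.im) : eichP g (c • P) z = c * eichP g P z := by
  refine (eichP_unique hg (c • P) (E := fun z => c * eichP g P z) (fun z hz => ?_) ?_ z hz).symm
  · have := (eichP_hasDerivAt hg P hz).const_mul c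
    rw [Polynomial.eval_smul, smul_eq_mul, show g z * (c * Polynomial.eval z P)
      = c * (g z * Polynomial.eval z P) by ring]
    exact this
  · simpa using (eichP_tendsto_vertical hg P).const_mul c

theorem eichP_sum_weight {g : ℂ → ℂ} (hg : IsCuspidalFun g) {ι : Type*} (s : Finset ι)
    (P : ι → Polynomial ℂ) {z : ℂ} (hz : 0 < z.im) :
    eichP g (∑ i ∈ s, P i) z = ∑ i ∈ s, eichP g (P i) z := by
  classical
  induction s using Finset.induction_on with
  | empty =>
    simp only [Finset.sum_empty]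
    have := eichP_smul_weight hg 0 0 hz
    simpa using this
  | insert a s ha ih =>
    rw [Finset.sum_insert ha, Finset.sum_insert ha, eichP_add_weight hg _ _ hz, ih]

theorem eichP_add_fun {g₁ g₂ : ℂ → ℂ} (h₁ : IsCuspidalFun g₁) (h₂ : IsCuspidalFun g₂)
    (h₁₂ : IsCuspidalFun (g₁ + g₂)) (P : Polynomial ℂ) {z : ℂ} (hz : 0 < z.im) :
    eichP (g₁ + g₂) P z = eichP g₁ P z + eichP g₂ P z := by
  refine (eichP_unique h₁₂ P (E := fun z => eichP g₁ P z + eichP g₂ P z) (fun z hz => ?_) ?_
    z hz).symm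
  · have := (eichP_hasDerivAt h₁ P hz).add (eichP_hasDerivAt h₂ P hz)
    rw [Pi.add_apply, add_mul]
    exact this
  · simpa using (eichP_tendsto_vertical h₁ P).add (eichP_tendsto_vertical h₂ P)

theorem eichP_smul_fun {g : ℂ → ℂ} (hg : IsCuspidalFun g) (c : ℂ) (hcg : IsCuspidalFun (c • g))
    (P : Polynomial ℂ) {z : ℂ} (hz : 0 < z.im) :
    eichP (c • g) P z = c * eichP g P z := by
  refine (eichP_unique hcg P (E := fun z => c * eichP g P z) (fun z hz => ?_) ?_ z hz).symm
  · have := (eichP_hasDerivAt hg P hz).const_mul c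
    rw [Pi.smul_apply, smul_eq_mul, mul_assoc]
    exact this
  · simpa using (eichP_tendsto_vertical hg P).const_mul c

/-- `eichP` only depends on the values of `g` on the upper half plane. -/
theorem eichP_congr {g₁ g₂ : ℂ → ℂ} (h₁ : IsCuspidalFun g₁) (h₂ : IsCuspidalFun g₂)
    (h : ∀ z : ℂ, 0 < z.im → g₁ z = g₂ z) (P : Polynomial ℂ) {z : ℂ} (hz : 0 < z.im) :
    eichP g₁ P z = eichP g₂ P z := by
  refine eichP_unique h₂ P (fun z hz => ?_) (eichP_tendsto_vertical h₁ P) z hz
  rw [← h z hz]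
  exact eichP_hasDerivAt h₁ P hz

/-! ### Weights that are powers of linear forms, and the version on `ℍ` -/

/-- The weight polynomial `(s X + t)^w` for `v = (s, t)`. -/
noncomputable def linW (w : ℕ) (v : ℂ × ℂ) : Polynomial ℂ :=
  (Polynomial.C v.1 * Polynomial.X + Polynomial.C v.2) ^ w

@[simp] theorem linW_eval (w : ℕ) (v : ℂ × ℂ) (z : ℂ) :
    (linW w v).eval z = (v.1 * z + v.2) ^ w := by
  simp [linW]

/-- The Eichler integral of `f : ℍ → ℂ` against the weight `(s u + t)^w`, as a function on `ℍ`: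
"`∫_{i∞}^z f(u) (s u + t)^w du`". -/
noncomputable def eichH (w : ℕ) (f : ℍ → ℂ) (v : ℂ × ℂ) (z : ℍ) : ℂ :=
  eichP (f ∘ ofComplex) (linW w v) (z : ℂ)

open Matrix.SpecialLinearGroup in
/-- The period constant "`∫_{i∞}^{g i∞} f(u) (s u + t)^w du`", defined as
`E(f, v)(g • i) - E(f, v * g)(i)`. -/
noncomputable def periodConst (w : ℕ) (f : ℍ → ℂ) (g : Matrix.SpecialLinearGroup (Fin 2) ℤ)
    (v : ℂ × ℂ) : ℂ :=
  eichH w f v (g • UpperHalfPlane.I)
    - eichH w f (vmul v ((mapGL ℝ g : GL (Fin 2) ℝ) : Matrix (Fin 2) (Fin 2) ℝ)) UpperHalfPlane.I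

end Fermat.Agent.S22
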