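-- S22: transformation rules of the Eichler integrals `eichH` under `GL(2, ℝ)⁺`:
-- general rule (constant of integration), upper triangular rule (no constant), period rule,
-- cocycle relation.
import Fermat.Agent.S22.EichlerDefs

set_option autoImplicit false

open Complex Filter UpperHalfPlane
open scoped Topology MatrixGroups ModularForm

namespace Fermat.Agent.S22

/-- A function on `ℂ` with zero derivative on the upper half plane is constant there. -/
theorem const_of_hasDerivAt_zero_uhp {F : ℂ → ℂ} (h : ∀ z : ℂ, 0 < z.im → HasDerivAt F 0 z)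
    {z z' : ℂ} (hz : 0 < z.im) (hz' : 0 < z'.im) : F z = F z' := by
  have hU : IsOpen {z : ℂ | 0 < z.im} := isOpen_lt continuous_const Complex.continuous_im
  have hconv : Convex ℝ {z : ℂ | 0 < z.im} := by
    have : {z : ℂ | 0 < z.im} = Complex.imCLM ⁻¹' Set.Ioi 0 := rfl
    rw [this]
    exact (convex_Ioi 0).linear_preimage Complex.imCLM.toLinearMap
  have hdiff : DifferentiableOn ℂ F {z : ℂ | 0 < z.im} :=
    fun z hz => (h z hz).differentiableAt.differentiableWithinAt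
  have hderiv : Set.EqOn (deriv F) 0 {z : ℂ | 0 < z.im} := fun z hz => (h z hz).deriv
  exact hU.is_const_of_deriv_eq_zero hconv.isPreconnected hdiff hderiv hz hz'

/-- Derivative of a Möbius transformation. -/
theorem hasDerivAt_moebius (α : GL (Fin 2) ℝ) {z : ℂ} (hz : denom α z ≠ 0) :
    HasDerivAt (fun u : ℂ => num α u / denom α u) ((α.det.val : ℂ) / (denom α z) ^ 2) z := by
  have hn : HasDerivAt (fun u : ℂ => num α u) ((α 0 0 : ℝ) : ℂ) z := by
    unfold num
    simpa using ((hasDerivAt_id z).const_mul ((α 0 0 : ℝ) : ℂ)).add_const ((α 0 1 : ℝ) : ℂ)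
  have hd : HasDerivAt (fun u : ℂ => denom α u) ((α 1 0 : ℝ) : ℂ) z := by
    unfold denom
    simpa using ((hasDerivAt_id z).const_mul ((α 1 0 : ℝ) : ℂ)).add_const ((α 1 1 : ℝ) : ℂ)
  refine (hn.div hd hz).congr_deriv ?_
  rw [Matrix.GeneralLinearGroup.val_det_apply, Matrix.det_fin_two]
  simp only [num, denom]
  push_cast
  ring

/-- **General transformation rule.** For `α ∈ GL(2, ℝ)` with positive determinant, the functions
`z ↦ E(f, v · adj α)(α z)` and `z ↦ E(f ∣[k] α, v)(z)` differ by a constant (`k = w + 2`). -/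
theorem eichH_smul_general (w : ℕ) {k : ℤ} (hk : k = (w : ℤ) + 2) (f : ℍ → ℂ) (α : GL (Fin 2) ℝ)
    (hα : 0 < α.det.val) (hf : IsCuspidalFun (f ∘ ofComplex))
    (hfα : IsCuspidalFun ((f ∣[k] α) ∘ ofComplex)) (v : ℂ × ℂ) :
    ∃ C : ℂ, ∀ z : ℍ, eichH w f (vmul v (α : Matrix (Fin 2) (Fin 2) ℝ).adjugate) (α • z)
      = C + eichH w (f ∣[k] α) v z := by
  set v' := vmul v (α : Matrix (Fin 2) (Fin 2) ℝ).adjugate with hv'
  set A : ℂ → ℂ := fun u => eichP (f ∘ ofComplex) (linW w v') (num α u / denom α u) with hA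
  set B : ℂ → ℂ := eichP ((f ∣[k] α) ∘ ofComplex) (linW w v) with hB
  have hmz : ∀ (z : ℂ) (hz : 0 < z.im), num α z / denom α z = ((α • (⟨z, hz⟩ : ℍ) : ℍ) : ℂ) :=
    fun z hz => (coe_smul_of_det_pos hα ⟨z, hz⟩).symm
  have hderiv : ∀ z : ℂ, 0 < z.im → HasDerivAt (fun u => A u - B u) 0 z := by
    intro z hz
    set τ : ℍ := ⟨z, hz⟩ with hτ
    have hden : denom α z ≠ 0 := denom_ne_zero α τ
    have him : 0 < (num α z / denom α z).im := by rw [hmz z hz]; exact (α • τ).im_pos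
    have h1 : HasDerivAt A
        (((f ∘ ofComplex) (num α z / denom α z) * (linW w v').eval (num α z / denom α z))
          * ((α.det.val : ℂ) / (denom α z) ^ 2)) z :=
      (eichP_hasDerivAt hf (linW w v') him).comp z (hasDerivAt_moebius α hden)
    have h2 : HasDerivAt B (((f ∣[k] α) ∘ ofComplex) z * (linW w v).eval z) z :=
      eichP_hasDerivAt hfα (linW w v) hz
    have hval : ((f ∘ ofComplex) (num α z / denom α z) * (linW w v').eval (num α z / denom α z))
          * ((α.det.val : ℂ) / (denom α z) ^ 2)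
        = ((f ∣[k] α) ∘ ofComplex) z * (linW w v).eval z := by
      have hD : (α.det.val : ℝ) ≠ 0 := hα.ne'
      have hDc : ((α.det.val : ℝ) : ℂ) ≠ 0 := by exact_mod_cast hD
      rw [Function.comp_apply, Function.comp_apply, hmz z hz, ofComplex_apply,
        ofComplex_apply_of_im_pos hz, ModularForm.slash_apply, UpperHalfPlane.σ, if_pos hα,
        ContinuousAlgEquiv.refl_apply, abs_of_pos hα, linW_eval, linW_eval, ← hmz z hz]
      have hlin : v'.1 * (num α z / denom α z) + v'.2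
          = (α.det.val : ℂ) * (v.1 * z + v.2) / denom α z := by
        rw [hv', vmul, Matrix.adjugate_fin_two]
        simp only [Matrix.of_apply, Matrix.cons_val', Matrix.cons_val_zero, Matrix.cons_val_one,
          Matrix.cons_val_fin_one]
        rw [Matrix.GeneralLinearGroup.val_det_apply, Matrix.det_fin_two]
        simp only [num, denom] at hden ⊢
        push_cast
        field_simp
        ring
      rw [hlin]
      subst hk
      have e1 : ((w : ℤ) + 2 - 1) = ((w + 1 : ℕ) : ℤ) := by push_cast; ring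
      have e2 : (-((w : ℤ) + 2)) = -((w + 2 : ℕ) : ℤ) := by push_cast; ring
      rw [e1, e2, zpow_natCast, zpow_neg, zpow_natCast]
      change f (α • τ) * _ * _ = f (α • τ) * _ * _ * _
      have hden' : denom α (τ : ℂ) = denom α z := rfl
      rw [hden', div_pow, mul_pow]
      have hden2 : denom α z ^ w ≠ 0 := pow_ne_zero _ hden
      field_simp
      ring
    have := h1.sub h2
    rw [hval, sub_self] at this
    exact this
  refine ⟨A Complex.I - B Complex.I, fun z => ?_⟩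
  have hI : (0 : ℝ) < Complex.I.im := by simp
  have hconst := const_of_hasDerivAt_zero_uhp hderiv z.im_pos hI
  simp only [eichH]
  have hAz : A (z : ℂ) = eichP (f ∘ ofComplex) (linW w v') ((α • z : ℍ) : ℂ) := by
    rw [hA]
    simp only
    rw [hmz (z : ℂ) z.im_pos]
  rw [← hAz]
  change A ↑z = A Complex.I - B Complex.I + B ↑z
  linear_combination hconst

/-- **Upper triangular rule**: for upper triangular `α` with positive diagonal there is no
constant of integration. -/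
theorem eichH_smul_upperTriangular (w : ℕ) {k : ℤ} (hk : k = (w : ℤ) + 2) (f : ℍ → ℂ)
    (α : GL (Fin 2) ℝ) (h10 : α 1 0 = 0) (h00 : 0 < α 0 0) (h11 : 0 < α 1 1)
    (hf : IsCuspidalFun (f ∘ ofComplex)) (hfα : IsCuspidalFun ((f ∣[k] α) ∘ ofComplex))
    (v : ℂ × ℂ) (z : ℍ) :
    eichH w (f ∣[k] α) v z
      = eichH w f (vmul v (α : Matrix (Fin 2) (Fin 2) ℝ).adjugate) (α • z) := by
  have hα : 0 < α.det.val := by
    rw [Matrix.GeneralLinearGroup.val_det_apply, Matrix.det_fin_two, h10, mul_zero, sub_zero]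
    exact mul_pos h00 h11
  obtain ⟨C, hC⟩ := eichH_smul_general w hk f α hα hf hfα v
  suffices h0 : C = 0 by rw [hC z, h0, zero_add]
  -- evaluate along `t * I`
  have hpt : ∀ t : ℝ, 0 < t → (0 : ℝ) < ((t : ℂ) * Complex.I).im := fun t ht => by simpa using ht
  have hcoe : ∀ (t : ℝ) (ht : 0 < t), ((α • (⟨(t : ℂ) * Complex.I, hpt t ht⟩ : ℍ) : ℍ) : ℂ)
      = (((α 0 0 : ℝ) : ℂ) * ((t : ℂ) * Complex.I) + ((α 0 1 : ℝ) : ℂ)) / ((α 1 1 : ℝ) : ℂ) := by
    intro t ht
    rw [coe_smul_of_det_pos hα]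
    simp [num, denom, h10]
  have hL : Tendsto (fun t : ℝ => eichP (f ∘ ofComplex)
      (linW w (vmul v (α : Matrix (Fin 2) (Fin 2) ℝ).adjugate))
      ((((α 0 0 : ℝ) : ℂ) * ((t : ℂ) * Complex.I) + ((α 0 1 : ℝ) : ℂ)) / ((α 1 1 : ℝ) : ℂ)))
      atTop (𝓝 0) :=
    stripDecay_tendsto_affine (eichP_stripDecay hf _) (α 0 1) h00 h11
  have hR : Tendsto (fun t : ℝ => eichP ((f ∣[k] α) ∘ ofComplex) (linW w v) ((t : ℂ) * Complex.I))
      atTop (𝓝 0) := eichP_tendsto_vertical hfα _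
  have hsub := hL.sub hR
  rw [sub_zero] at hsub
  have hconst : Tendsto (fun _ : ℝ => C) atTop (𝓝 0) := by
    refine hsub.congr' ?_
    filter_upwards [eventually_gt_atTop 0] with t ht
    have := hC ⟨(t : ℂ) * Complex.I, hpt t ht⟩
    simp only [eichH] at this
    rw [hcoe t ht] at this
    change _ = C + eichP ((f ∣[k] α) ∘ ofComplex) (linW w v) ((t : ℂ) * Complex.I) at this
    rw [this]
    ring
  exact tendsto_nhds_unique tendsto_const_nhds hconst

open Matrix.SpecialLinearGroup in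
/-- The general rule for `σ ∈ SL(2, ℤ)`:
`E(f, v)(σ z) = C + E(f ∣[k] σ, v · σ)(z)`. -/
theorem eichH_smul_SL (w : ℕ) {k : ℤ} (hk : k = (w : ℤ) + 2) (f : ℍ → ℂ) (σ : SL(2, ℤ))
    (hf : IsCuspidalFun (f ∘ ofComplex))
    (hfσ : IsCuspidalFun ((f ∣[k] (mapGL ℝ σ : GL (Fin 2) ℝ)) ∘ ofComplex)) (v : ℂ × ℂ) :
    ∃ C : ℂ, ∀ z : ℍ, eichH w f v (σ • z)
      = C + eichH w (f ∣[k] (mapGL ℝ σ : GL (Fin 2) ℝ))
          (vmul v ((mapGL ℝ σ : GL (Fin 2) ℝ) : Matrix (Fin 2) (Fin 2) ℝ)) z := by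
  have hdet : ((mapGL ℝ σ : GL (Fin 2) ℝ).det.val : ℝ) = 1 := by simp
  have hα : 0 < (mapGL ℝ σ : GL (Fin 2) ℝ).det.val := by rw [hdet]; exact one_pos
  obtain ⟨C, hC⟩ := eichH_smul_general w hk f (mapGL ℝ σ) hα hf hfσ
    (vmul v ((mapGL ℝ σ : GL (Fin 2) ℝ) : Matrix (Fin 2) (Fin 2) ℝ))
  refine ⟨C, fun z => ?_⟩
  have hv : vmul (vmul v ((mapGL ℝ σ : GL (Fin 2) ℝ) : Matrix (Fin 2) (Fin 2) ℝ))
      ((mapGL ℝ σ : GL (Fin 2) ℝ) : Matrix (Fin 2) (Fin 2) ℝ).adjugate = v := by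
    rw [vmul_mul, Matrix.mul_adjugate]
    have hdet' : ((mapGL ℝ σ : GL (Fin 2) ℝ) : Matrix (Fin 2) (Fin 2) ℝ).det = 1 := by
      rw [← Matrix.GeneralLinearGroup.val_det_apply]; exact hdet
    rw [hdet', one_smul]
    simp [vmul]
  rw [hv] at hC
  exact hC z

open Matrix.SpecialLinearGroup in
/-- **Period rule**: if `f` is invariant under `σ ∈ SL(2, ℤ)` in weight `k = w + 2` then
`E(f, v)(σ z) = periodConst + E(f, v · σ)(z)`. -/
theorem eichH_period (w : ℕ) {k : ℤ} (hk : k = (w : ℤ) + 2) (f : ℍ → ℂ) (σ : SL(2, ℤ))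
    (hf : IsCuspidalFun (f ∘ ofComplex)) (hinv : f ∣[k] (mapGL ℝ σ : GL (Fin 2) ℝ) = f)
    (v : ℂ × ℂ) (z : ℍ) :
    eichH w f v (σ • z) = periodConst w f σ v
      + eichH w f (vmul v ((mapGL ℝ σ : GL (Fin 2) ℝ) : Matrix (Fin 2) (Fin 2) ℝ)) z := by
  obtain ⟨C, hC⟩ := eichH_smul_SL w hk f σ hf (by rw [hinv]; exact hf) v
  rw [hinv] at hC
  have hI := hC UpperHalfPlane.I
  rw [hC z, periodConst, hI]
  ring

open Matrix.SpecialLinearGroup in
/-- **Cocycle relation** for the period constants. -/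
theorem periodConst_mul (w : ℕ) {k : ℤ} (hk : k = (w : ℤ) + 2) (f : ℍ → ℂ) (σ σ' : SL(2, ℤ))
    (hf : IsCuspidalFun (f ∘ ofComplex)) (hinv : f ∣[k] (mapGL ℝ σ : GL (Fin 2) ℝ) = f)
    (hinv' : f ∣[k] (mapGL ℝ σ' : GL (Fin 2) ℝ) = f) (v : ℂ × ℂ) :
    periodConst w f (σ * σ') v = periodConst w f σ v
      + periodConst w f σ' (vmul v ((mapGL ℝ σ : GL (Fin 2) ℝ) : Matrix (Fin 2) (Fin 2) ℝ)) := by
  have h1 := eichH_period w hk f σ hf hinv v (σ' • UpperHalfPlane.I)
  have h2 := eichH_period w hk f σ' hf hinv'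
    (vmul v ((mapGL ℝ σ : GL (Fin 2) ℝ) : Matrix (Fin 2) (Fin 2) ℝ)) UpperHalfPlane.I
  have hmul : ((mapGL ℝ (σ * σ') : GL (Fin 2) ℝ) : Matrix (Fin 2) (Fin 2) ℝ)
      = ((mapGL ℝ σ : GL (Fin 2) ℝ) : Matrix (Fin 2) (Fin 2) ℝ)
        * ((mapGL ℝ σ' : GL (Fin 2) ℝ) : Matrix (Fin 2) (Fin 2) ℝ) := by
    rw [map_mul]; rfl
  rw [periodConst, mul_smul, h1, h2, hmul, vmul_mul]
  ring

open Matrix.SpecialLinearGroup in
theorem periodConst_one (w : ℕ) (f : ℍ → ℂ) (v : ℂ × ℂ) : periodConst w f 1 v = 0 := by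
  rw [periodConst, one_smul]
  have : vmul v ((mapGL ℝ (1 : SL(2, ℤ)) : GL (Fin 2) ℝ) : Matrix (Fin 2) (Fin 2) ℝ) = v := by
    rw [map_one]; simp [vmul]
  rw [this, sub_self]

end Fermat.Agent.S22
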