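-- S22: the period functionals (linear in the cusp form) and the period lattice.
import Fermat.Agent.S22.EichlerRules

set_option autoImplicit false

open Complex Filter UpperHalfPlane CongruenceSubgroup
open scoped Topology MatrixGroups ModularForm

namespace Fermat.Agent.S22

theorem eichH_add_cuspForm {N : ℕ} [NeZero N] {k : ℤ} (w : ℕ)
    (f₁ f₂ : CuspForm (Gamma0 N) k) (v : ℂ × ℂ) (z : ℍ) :
    eichH w ⇑(f₁ + f₂) v z = eichH w ⇑f₁ v z + eichH w ⇑f₂ v z := by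
  have h : (⇑(f₁ + f₂) ∘ ofComplex : ℂ → ℂ) = (⇑f₁ ∘ ofComplex) + (⇑f₂ ∘ ofComplex) := by
    funext u; simp
  have h12 : IsCuspidalFun ((⇑f₁ ∘ ofComplex) + (⇑f₂ ∘ ofComplex)) := h ▸ cuspForm_class (f₁ + f₂)
  simp only [eichH]
  rw [h]
  exact eichP_add_fun (cuspForm_class f₁) (cuspForm_class f₂) h12 _ z.im_pos

theorem eichH_smul_cuspForm {N : ℕ} [NeZero N] {k : ℤ} (w : ℕ) (c : ℂ)
    (f : CuspForm (Gamma0 N) k) (v : ℂ × ℂ) (z : ℍ) :
    eichH w ⇑(c • f) v z = c * eichH w ⇑f v z := by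
  have h : (⇑(c • f) ∘ ofComplex : ℂ → ℂ) = c • (⇑f ∘ ofComplex) := by
    funext u; simp
  have hc : IsCuspidalFun (c • (⇑f ∘ ofComplex)) := h ▸ cuspForm_class (c • f)
  simp only [eichH]
  rw [h]
  exact eichP_smul_fun (cuspForm_class f) c hc _ z.im_pos

/-- The period functional `f ↦ periodConst w f g v` on cusp forms of weight `w + 2`. -/
noncomputable def periodFunctional (N : ℕ) [NeZero N] (w : ℕ) (g : SL(2, ℤ)) (v : ℂ × ℂ) :
    CuspForm (Gamma0 N) ((w : ℤ) + 2) →ₗ[ℂ] ℂ where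
  toFun f := periodConst w ⇑f g v
  map_add' f₁ f₂ := by
    simp only [periodConst, eichH_add_cuspForm]
    ring
  map_smul' c f := by
    simp only [periodConst, eichH_smul_cuspForm, RingHom.id_apply, smul_eq_mul]
    ring

@[simp] theorem periodFunctional_apply (N : ℕ) [NeZero N] (w : ℕ) (g : SL(2, ℤ)) (v : ℂ × ℂ)
    (f : CuspForm (Gamma0 N) ((w : ℤ) + 2)) :
    periodFunctional N w g v f = periodConst w ⇑f g v := rfl

/-- The period lattice: the `ℤ`-span of the period functionals for `g ∈ Γ₀(N)` and integral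
weight vectors `v`. -/
noncomputable def periodLattice (N : ℕ) [NeZero N] (w : ℕ) :
    Submodule ℤ (CuspForm (Gamma0 N) ((w : ℤ) + 2) →ₗ[ℂ] ℂ) :=
  Submodule.span ℤ {φ | ∃ g ∈ Gamma0 N, ∃ v : ℂ × ℂ, IsIntVec v ∧ φ = periodFunctional N w g v}

theorem periodFunctional_mem_periodLattice (N : ℕ) [NeZero N] (w : ℕ) {g : SL(2, ℤ)}
    (hg : g ∈ Gamma0 N) {v : ℂ × ℂ} (hv : IsIntVec v) :
    periodFunctional N w g v ∈ periodLattice N w :=
  Submodule.subset_span ⟨g, hg, v, hv, rfl⟩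

end Fermat.Agent.S22
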