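-- S22: the period lattice is stable under (precomposition with) the Hecke generators.
import Fermat.Agent.S22.PeriodLatticeDefs
import Fermat.Prelude.Def_CuspForm_HeckeAlgebra

set_option autoImplicit false

open Complex Filter UpperHalfPlane CongruenceSubgroup
open scoped Topology MatrixGroups ModularForm
open Matrix Matrix.SpecialLinearGroup
open P2MW.S_ModularForm_heckeT_slash_eq_self_of_mem_Gamma0.ModularForm.HeckeSlashInvariance

namespace Fermat.Agent.S22

/-- Invariance of a cusp form on `Γ₀(N)` under `g ∈ Γ₀(N)`, in `GL(2, ℝ)` form. -/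
theorem cuspForm_slash_mapGL_eq {N : ℕ} {k : ℤ} (f : CuspForm (Gamma0 N) k) {g : SL(2, ℤ)}
    (hg : g ∈ Gamma0 N) : ⇑f ∣[k] (mapGL ℝ g : GL (Fin 2) ℝ) = ⇑f :=
  SlashInvariantFormClass.slash_action_eq f _ (Subgroup.mem_map_of_mem _ hg)

/-- Period rule for cusp forms on `Γ₀(N)`. -/
theorem eichH_period_cuspForm {N : ℕ} [NeZero N] (w : ℕ)
    (f : CuspForm (Gamma0 N) ((w : ℤ) + 2)) {g : SL(2, ℤ)} (hg : g ∈ Gamma0 N) (v : ℂ × ℂ)
    (z : ℍ) :
    eichH w ⇑f v (g • z) = periodConst w ⇑f g v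
      + eichH w ⇑f (vmul v ((mapGL ℝ g : GL (Fin 2) ℝ) : Matrix (Fin 2) (Fin 2) ℝ)) z :=
  eichH_period w rfl ⇑f g (cuspForm_class f) (cuspForm_slash_mapGL_eq f hg) v z

theorem cuspForm_slash_heckeRep_class {N : ℕ} [NeZero N] {k : ℤ} (f : CuspForm (Gamma0 N) k)
    (p : ℕ) (x : OnePoint (ZMod p)) : IsCuspidalFun ((⇑f ∣[k] heckeRep p x) ∘ ofComplex) := by
  induction x using OnePoint.rec with
  | infty => exact cuspForm_slash_heckeDiagMatrix_class f p
  | coe j => exact cuspForm_slash_heckeMatrix_class f p j.val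

/-- Additivity of `eichH` over a finite sum of cuspidal functions whose sum is cuspidal. -/
theorem eichH_sum_of_cuspidal (w : ℕ) {ι : Type*} (s : Finset ι) (F : ℍ → ℂ) (G : ι → ℍ → ℂ)
    (hF : IsCuspidalFun (F ∘ ofComplex)) (hG : ∀ i ∈ s, IsCuspidalFun (G i ∘ ofComplex))
    (hsum : ∀ τ : ℍ, F τ = ∑ i ∈ s, G i τ) (v : ℂ × ℂ) (z : ℍ) :
    eichH w F v z = ∑ i ∈ s, eichH w (G i) v z := by
  simp only [eichH]
  refine (eichP_unique hF (linW w v)
    (E := fun u => ∑ i ∈ s, eichP (G i ∘ ofComplex) (linW w v) u) (fun u hu => ?_) ?_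
    (z : ℂ) z.im_pos).symm
  · have h1 : HasDerivAt (fun u => ∑ i ∈ s, eichP (G i ∘ ofComplex) (linW w v) u)
        (∑ i ∈ s, (G i ∘ ofComplex) u * (linW w v).eval u) u :=
      HasDerivAt.fun_sum fun i hi => eichP_hasDerivAt (hG i hi) (linW w v) hu
    have h2 : (F ∘ ofComplex) u * (linW w v).eval u
        = ∑ i ∈ s, (G i ∘ ofComplex) u * (linW w v).eval u := by
      simp only [Function.comp_apply, hsum, Finset.sum_mul]
    rw [h2]
    exact h1
  · have := tendsto_finset_sum s fun i hi => eichP_tendsto_vertical (hG i hi) (linW w v)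
    simpa using this

/-- Abstract Hecke relation for `T_p`, with the coset family `g'` given in advance. -/
theorem period_heckeT_family
    {p N : ℕ} [Fact p.Prime] (k : ℤ)
    (E : (ℍ → ℂ) → ℂ × ℂ → ℍ → ℂ) (f : ℍ → ℂ)
    (hadd : ∀ v z, E (ModularForm.heckeT k p f) v z =
      ∑ x : OnePoint (ZMod p), E (f ∣[k] heckeRep p x) v z)
    (htri : ∀ (x : OnePoint (ZMod p)) v z, E (f ∣[k] heckeRep p x) v z =
      E f (vmul v (heckeRep p x : Matrix (Fin 2) (Fin 2) ℝ).adjugate) (heckeRep p x • z))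
    (φ : SL(2, ℤ) → ℂ × ℂ → ℂ)
    (hφ : ∀ g ∈ CongruenceSubgroup.Gamma0 N, ∀ v z,
      E f v (g • z) = φ g v + E f (vmul v ((mapGL ℝ g : GL (Fin 2) ℝ) : Matrix (Fin 2) (Fin 2) ℝ)) z)
    (g : SL(2, ℤ)) (g' : OnePoint (ZMod p) → SL(2, ℤ))
    (hg'mem : ∀ x, g' x ∈ CongruenceSubgroup.Gamma0 N)
    (hg'mul : ∀ x, heckeRep p x * mapGL ℝ g = mapGL ℝ (g' x) * heckeRep p (redMatrix p g • x))
    (v : ℂ × ℂ) (z : ℍ) :
      E (ModularForm.heckeT k p f) v (g • z)
        - E (ModularForm.heckeT k p f) (vmul v ((mapGL ℝ g : GL (Fin 2) ℝ) : Matrix (Fin 2) (Fin 2) ℝ)) z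
        = ∑ x, φ (g' x) (vmul v (heckeRep p x : Matrix (Fin 2) (Fin 2) ℝ).adjugate) := by
  have hp0 : p ≠ 0 := (Fact.out : p.Prime).ne_zero
  set π : Equiv.Perm (OnePoint (ZMod p)) := MulAction.toPerm (redMatrix p g) with hπ
  have hg'mul' : ∀ x, heckeRep p x * mapGL ℝ g = mapGL ℝ (g' x) * heckeRep p (π x) := hg'mul
  have hmat : ∀ x, (heckeRep p x : Matrix (Fin 2) (Fin 2) ℝ) * (mapGL ℝ g : GL (Fin 2) ℝ).val
      = (mapGL ℝ (g' x) : GL (Fin 2) ℝ).val * (heckeRep p (π x) : Matrix (Fin 2) (Fin 2) ℝ) := by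
    intro x
    have := congrArg (fun A : GL (Fin 2) ℝ => (A : Matrix (Fin 2) (Fin 2) ℝ)) (hg'mul' x)
    simpa using this
  have hadj : ∀ x, (mapGL ℝ g : GL (Fin 2) ℝ).val * (heckeRep p (π x) : Matrix (Fin 2) (Fin 2) ℝ).adjugate
      = (heckeRep p x : Matrix (Fin 2) (Fin 2) ℝ).adjugate * (mapGL ℝ (g' x) : GL (Fin 2) ℝ).val := by
    intro x
    refine mul_adjugate_eq_of_mul_eq (hmat x) ?_ ?_
    · rw [det_heckeRep hp0, det_heckeRep hp0]
    · rw [det_heckeRep hp0]; exact_mod_cast hp0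
  have hpt : ∀ x, heckeRep p x • (g • z) = (g' x) • (heckeRep p (π x) • z) := by
    intro x
    have h1 : (g • z) = (mapGL ℝ g) • z := MulAction.compHom_smul_def (mapGL ℝ) g z
    have h2 : (g' x) • (heckeRep p (π x) • z) = (mapGL ℝ (g' x)) • (heckeRep p (π x) • z) :=
      MulAction.compHom_smul_def (mapGL ℝ) (g' x) _
    rw [h1, h2, ← mul_smul, ← mul_smul, hg'mul' x]
  rw [hadd, hadd, ← Finset.sum_sub_distrib]
  have key : ∀ x, E (f ∣[k] heckeRep p x) v (g • z)
      - E (f ∣[k] heckeRep p x) (vmul v (mapGL ℝ g : GL (Fin 2) ℝ).val) z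
      = φ (g' x) (vmul v (heckeRep p x : Matrix (Fin 2) (Fin 2) ℝ).adjugate)
        + (E f (vmul (vmul v (mapGL ℝ g : GL (Fin 2) ℝ).val)
              (heckeRep p (π x) : Matrix (Fin 2) (Fin 2) ℝ).adjugate) (heckeRep p (π x) • z)
          - E f (vmul (vmul v (mapGL ℝ g : GL (Fin 2) ℝ).val)
              (heckeRep p x : Matrix (Fin 2) (Fin 2) ℝ).adjugate) (heckeRep p x • z)) := by
    intro x
    rw [htri, htri, hpt x, hφ (g' x) (hg'mem x), vmul_mul, vmul_mul, vmul_mul, hadj x]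
    ring
  rw [Finset.sum_congr rfl (fun x _ => key x), Finset.sum_add_distrib, Finset.sum_sub_distrib]
  have hperm := Equiv.sum_comp π (fun x => E f (vmul (vmul v (mapGL ℝ g : GL (Fin 2) ℝ).val)
              (heckeRep p x : Matrix (Fin 2) (Fin 2) ℝ).adjugate) (heckeRep p x • z))
  rw [hperm, sub_self, add_zero]

/-- Abstract Hecke relation for `U_p`, with the coset family `g'` given in advance. -/
theorem period_heckeU_family
    {p N : ℕ} [NeZero p] (k : ℤ)
    (E : (ℍ → ℂ) → ℂ × ℂ → ℍ → ℂ) (f : ℍ → ℂ)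
    (hadd : ∀ v z, E (ModularForm.heckeU k p f) v z =
      ∑ x : ZMod p, E (f ∣[k] ModularForm.heckeMatrix p x.val) v z)
    (htri : ∀ (x : ZMod p) v z, E (f ∣[k] ModularForm.heckeMatrix p x.val) v z =
      E f (vmul v (ModularForm.heckeMatrix p x.val : Matrix (Fin 2) (Fin 2) ℝ).adjugate)
        (ModularForm.heckeMatrix p x.val • z))
    (φ : SL(2, ℤ) → ℂ × ℂ → ℂ)
    (hφ : ∀ g ∈ CongruenceSubgroup.Gamma0 N, ∀ v z,
      E f v (g • z) = φ g v + E f (vmul v ((mapGL ℝ g : GL (Fin 2) ℝ) : Matrix (Fin 2) (Fin 2) ℝ)) z)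
    (g : SL(2, ℤ)) (π : Equiv.Perm (ZMod p)) (g' : ZMod p → SL(2, ℤ))
    (hg'mem : ∀ x, g' x ∈ CongruenceSubgroup.Gamma0 N)
    (hg'mul : ∀ x : ZMod p, ModularForm.heckeMatrix p x.val * mapGL ℝ g
      = mapGL ℝ (g' x) * ModularForm.heckeMatrix p (π x).val)
    (v : ℂ × ℂ) (z : ℍ) :
      E (ModularForm.heckeU k p f) v (g • z)
        - E (ModularForm.heckeU k p f) (vmul v ((mapGL ℝ g : GL (Fin 2) ℝ) : Matrix (Fin 2) (Fin 2) ℝ)) z
        = ∑ x : ZMod p, φ (g' x)
            (vmul v (ModularForm.heckeMatrix p x.val : Matrix (Fin 2) (Fin 2) ℝ).adjugate) := by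
  have hp0 : p ≠ 0 := NeZero.ne p
  have hmat : ∀ x : ZMod p, (ModularForm.heckeMatrix p x.val : Matrix (Fin 2) (Fin 2) ℝ)
        * (mapGL ℝ g : GL (Fin 2) ℝ).val
      = (mapGL ℝ (g' x) : GL (Fin 2) ℝ).val
        * (ModularForm.heckeMatrix p (π x).val : Matrix (Fin 2) (Fin 2) ℝ) := by
    intro x
    have := congrArg (fun A : GL (Fin 2) ℝ => (A : Matrix (Fin 2) (Fin 2) ℝ)) (hg'mul x)
    simpa using this
  have hadj : ∀ x : ZMod p, (mapGL ℝ g : GL (Fin 2) ℝ).val
        * (ModularForm.heckeMatrix p (π x).val : Matrix (Fin 2) (Fin 2) ℝ).adjugate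
      = (ModularForm.heckeMatrix p x.val : Matrix (Fin 2) (Fin 2) ℝ).adjugate
        * (mapGL ℝ (g' x) : GL (Fin 2) ℝ).val := by
    intro x
    refine mul_adjugate_eq_of_mul_eq (hmat x) ?_ ?_
    · rw [det_heckeMatrix_val hp0, det_heckeMatrix_val hp0]
    · rw [det_heckeMatrix_val hp0]; exact_mod_cast hp0
  have hpt : ∀ x : ZMod p, ModularForm.heckeMatrix p x.val • (g • z)
      = (g' x) • (ModularForm.heckeMatrix p (π x).val • z) := by
    intro x
    have h1 : (g • z) = (mapGL ℝ g) • z := MulAction.compHom_smul_def (mapGL ℝ) g z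
    have h2 : (g' x) • (ModularForm.heckeMatrix p (π x).val • z)
        = (mapGL ℝ (g' x)) • (ModularForm.heckeMatrix p (π x).val • z) :=
      MulAction.compHom_smul_def (mapGL ℝ) (g' x) _
    rw [h1, h2, ← mul_smul, ← mul_smul, hg'mul x]
  rw [hadd, hadd, ← Finset.sum_sub_distrib]
  have key : ∀ x : ZMod p, E (f ∣[k] ModularForm.heckeMatrix p x.val) v (g • z)
      - E (f ∣[k] ModularForm.heckeMatrix p x.val) (vmul v (mapGL ℝ g : GL (Fin 2) ℝ).val) z
      = φ (g' x) (vmul v (ModularForm.heckeMatrix p x.val : Matrix (Fin 2) (Fin 2) ℝ).adjugate)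
        + (E f (vmul (vmul v (mapGL ℝ g : GL (Fin 2) ℝ).val)
              (ModularForm.heckeMatrix p (π x).val : Matrix (Fin 2) (Fin 2) ℝ).adjugate)
              (ModularForm.heckeMatrix p (π x).val • z)
          - E f (vmul (vmul v (mapGL ℝ g : GL (Fin 2) ℝ).val)
              (ModularForm.heckeMatrix p x.val : Matrix (Fin 2) (Fin 2) ℝ).adjugate)
              (ModularForm.heckeMatrix p x.val • z)) := by
    intro x
    rw [htri, htri, hpt x, hφ (g' x) (hg'mem x), vmul_mul, vmul_mul, vmul_mul, hadj x]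
    ring
  rw [Finset.sum_congr rfl (fun x _ => key x), Finset.sum_add_distrib, Finset.sum_sub_distrib]
  have hperm := Equiv.sum_comp π (fun x : ZMod p =>
    E f (vmul (vmul v (mapGL ℝ g : GL (Fin 2) ℝ).val)
      (ModularForm.heckeMatrix p x.val : Matrix (Fin 2) (Fin 2) ℝ).adjugate)
      (ModularForm.heckeMatrix p x.val • z))
  rw [hperm, sub_self, add_zero]

/-! ### The concrete Hecke relations -/

section concrete

variable {N : ℕ} [NeZero N] (w : ℕ)

theorem heckeRep_apply_one_zero (p : ℕ) (hp : p ≠ 0) (x : OnePoint (ZMod p)) :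
    (heckeRep p x : GL (Fin 2) ℝ) 1 0 = 0 ∧ 0 < (heckeRep p x : GL (Fin 2) ℝ) 0 0
      ∧ 0 < (heckeRep p x : GL (Fin 2) ℝ) 1 1 := by
  have hp' : (0 : ℝ) < p := by exact_mod_cast Nat.pos_of_ne_zero hp
  induction x using OnePoint.rec with
  | infty =>
    have h := ModularForm.val_heckeDiagMatrix hp
    have e : ∀ i j, (heckeRep p (OnePoint.infty) : GL (Fin 2) ℝ) i j
        = (!![(p : ℝ), 0; 0, 1] : Matrix (Fin 2) (Fin 2) ℝ) i j := fun i j => by
      rw [heckeRep_infty, ← h]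
    refine ⟨by rw [e]; simp, by rw [e]; simpa using hp', by rw [e]; simp⟩
  | coe j =>
    have h := ModularForm.val_heckeMatrix hp j.val
    have e : ∀ i i', (heckeRep p (j : OnePoint (ZMod p)) : GL (Fin 2) ℝ) i i'
        = (!![(1 : ℝ), (j.val : ℝ); 0, (p : ℝ)] : Matrix (Fin 2) (Fin 2) ℝ) i i' := fun i i' => by
      rw [heckeRep_coe, ← h]
    refine ⟨by rw [e]; simp, by rw [e]; simp, by rw [e]; simpa using hp'⟩

theorem heckeMatrix_apply_entries (p : ℕ) (hp : p ≠ 0) (j : ℕ) :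
    (ModularForm.heckeMatrix p j : GL (Fin 2) ℝ) 1 0 = 0
      ∧ 0 < (ModularForm.heckeMatrix p j : GL (Fin 2) ℝ) 0 0
      ∧ 0 < (ModularForm.heckeMatrix p j : GL (Fin 2) ℝ) 1 1 := by
  have hp' : (0 : ℝ) < p := by exact_mod_cast Nat.pos_of_ne_zero hp
  have h := ModularForm.val_heckeMatrix hp j
  have e : ∀ i i', (ModularForm.heckeMatrix p j : GL (Fin 2) ℝ) i i'
      = (!![(1 : ℝ), (j : ℝ); 0, (p : ℝ)] : Matrix (Fin 2) (Fin 2) ℝ) i i' := fun i i' => by
    rw [← h]
  refine ⟨by rw [e]; simp, by rw [e]; simp, by rw [e]; simpa using hp'⟩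

/-- `periodFunctional g v ∘ T_p` is an explicit sum of period functionals. -/
theorem periodFunctional_comp_heckeTLin {p : ℕ} (hp : p.Prime) (hpN : ¬ p ∣ N) {g : SL(2, ℤ)}
    (hg : g ∈ Gamma0 N) {v : ℂ × ℂ} (hv : IsIntVec v) :
    (periodFunctional N w g v).comp (CuspForm.heckeTLin ((w : ℤ) + 2) hp hpN)
      ∈ periodLattice N w := by
  haveI : Fact p.Prime := ⟨hp⟩
  have hp0 : p ≠ 0 := hp.ne_zero
  have hcN : (N : ℤ) ∣ g 1 0 :=
    (ZMod.intCast_zmod_eq_zero_iff_dvd _ _).mp (CongruenceSubgroup.Gamma0_mem.mp hg)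
  choose g' hg'N hg'mul using heckeRep_mul hpN g hcN
  have hg'mem : ∀ x, g' x ∈ CongruenceSubgroup.Gamma0 N := fun x =>
    CongruenceSubgroup.Gamma0_mem.mpr ((ZMod.intCast_zmod_eq_zero_iff_dvd _ _).mpr (hg'N x))
  have key : (periodFunctional N w g v).comp (CuspForm.heckeTLin ((w : ℤ) + 2) hp hpN)
      = ∑ x : OnePoint (ZMod p), periodFunctional N w (g' x)
          (vmul v (heckeRep p x : Matrix (Fin 2) (Fin 2) ℝ).adjugate) := by
    refine LinearMap.ext fun f => ?_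
    rw [LinearMap.comp_apply, periodFunctional_apply, LinearMap.sum_apply]
    simp only [periodFunctional_apply]
    rw [CuspForm.coe_heckeTLin_apply, periodConst]
    refine period_heckeT_family (N := N) ((w : ℤ) + 2) (fun F v z => eichH w F v z) ⇑f ?_ ?_
      (fun g v => periodConst w ⇑f g v) ?_ g g' hg'mem hg'mul v UpperHalfPlane.I
    · intro v z
      refine eichH_sum_of_cuspidal w Finset.univ _ _ ?_ (fun x _ => ?_) (fun τ => ?_) v z
      · rw [← CuspForm.coe_heckeTLin_apply ((w : ℤ) + 2) hp hpN f]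
        exact cuspForm_class _
      · exact cuspForm_slash_heckeRep_class f p x
      · rw [heckeT_eq_sum_onePoint, Finset.sum_apply]
    · intro x v z
      obtain ⟨h10, h00, h11⟩ := heckeRep_apply_one_zero p hp0 x
      exact eichH_smul_upperTriangular w rfl ⇑f (heckeRep p x) h10 h00 h11 (cuspForm_class f)
        (cuspForm_slash_heckeRep_class f p x) v z
    · intro g hg v z
      exact eichH_period_cuspForm w f hg v z
  rw [key]
  exact Submodule.sum_mem _ fun x _ =>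
    periodFunctional_mem_periodLattice N w (hg'mem x) (hv.vmul_adjugate_heckeRep hp0 x)

/-- `periodFunctional g v ∘ U_p` is an explicit sum of period functionals. -/
theorem periodFunctional_comp_heckeULin {p : ℕ} (hp : p.Prime) (hpN : p ∣ N) {g : SL(2, ℤ)}
    (hg : g ∈ Gamma0 N) {v : ℂ × ℂ} (hv : IsIntVec v) :
    (periodFunctional N w g v).comp (CuspForm.heckeULin ((w : ℤ) + 2) hpN)
      ∈ periodLattice N w := by
  have hp0 : p ≠ 0 := hp.ne_zero
  haveI : NeZero p := ⟨hp0⟩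
  have hcN : (N : ℤ) ∣ g 1 0 :=
    (ZMod.intCast_zmod_eq_zero_iff_dvd _ _).mp (CongruenceSubgroup.Gamma0_mem.mp hg)
  have hc : (p : ℤ) ∣ g 1 0 := (Int.natCast_dvd_natCast.mpr hpN).trans hcN
  have hc0 : ((g 1 0 : ℤ) : ZMod p) = 0 := (ZMod.intCast_zmod_eq_zero_iff_dvd _ _).mpr hc
  choose g' hg'N hg'mul using heckeMatrix_mul_of_dvd g hc
  have hg'mem : ∀ x, g' x ∈ CongruenceSubgroup.Gamma0 N := fun x => by
    rw [CongruenceSubgroup.Gamma0_mem, hg'N x]
    push_cast
    rw [CongruenceSubgroup.Gamma0_mem.mp hg, mul_zero]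
  have key : (periodFunctional N w g v).comp (CuspForm.heckeULin ((w : ℤ) + 2) hpN)
      = ∑ x : ZMod p, periodFunctional N w (g' x)
          (vmul v (ModularForm.heckeMatrix p x.val : Matrix (Fin 2) (Fin 2) ℝ).adjugate) := by
    refine LinearMap.ext fun f => ?_
    rw [LinearMap.comp_apply, periodFunctional_apply, LinearMap.sum_apply]
    simp only [periodFunctional_apply]
    rw [CuspForm.coe_heckeULin_apply, periodConst]
    refine period_heckeU_family (N := N) ((w : ℤ) + 2) (fun F v z => eichH w F v z) ⇑f ?_ ?_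
      (fun g v => periodConst w ⇑f g v) ?_ g (affinePerm g hc0) g' hg'mem hg'mul v
      UpperHalfPlane.I
    · intro v z
      refine eichH_sum_of_cuspidal w Finset.univ _ _ ?_ (fun x _ => ?_) (fun τ => ?_) v z
      · rw [← CuspForm.coe_heckeULin_apply ((w : ℤ) + 2) hpN f]
        exact cuspForm_class _
      · exact cuspForm_slash_heckeMatrix_class f p x.val
      · rw [heckeU_eq_sum_zmod, Finset.sum_apply]
    · intro x v z
      obtain ⟨h10, h00, h11⟩ := heckeMatrix_apply_entries p hp0 x.val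
      exact eichH_smul_upperTriangular w rfl ⇑f (ModularForm.heckeMatrix p x.val) h10 h00 h11
        (cuspForm_class f) (cuspForm_slash_heckeMatrix_class f p x.val) v z
    · intro g hg v z
      exact eichH_period_cuspForm w f hg v z
  rw [key]
  exact Submodule.sum_mem _ fun x _ =>
    periodFunctional_mem_periodLattice N w (hg'mem x) (hv.vmul_adjugate_heckeMatrix hp0 x.val)

/-- **Hecke stability of the period lattice.** -/
theorem periodLattice_comp_heckeGenerator
    {T : Module.End ℂ (CuspForm (Gamma0 N) ((w : ℤ) + 2))}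
    (hT : T ∈ CuspForm.heckeGenerators N ((w : ℤ) + 2) (∅ : Set ℕ))
    {φ : CuspForm (Gamma0 N) ((w : ℤ) + 2) →ₗ[ℂ] ℂ} (hφ : φ ∈ periodLattice N w) :
    φ.comp T ∈ periodLattice N w := by
  have hgen : ∀ {g : SL(2, ℤ)} (_ : g ∈ Gamma0 N) {v : ℂ × ℂ} (_ : IsIntVec v),
      (periodFunctional N w g v).comp T ∈ periodLattice N w := by
    intro g hg v hv
    rcases hT with ⟨ℓ, hℓ, hℓN, -, rfl⟩ | ⟨q, hqN, hq, -, rfl⟩
    · exact periodFunctional_comp_heckeTLin w hℓ hℓN hg hv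
    · exact periodFunctional_comp_heckeULin w hq hqN hg hv
  unfold periodLattice at hφ
  induction hφ using Submodule.span_induction with
  | mem φ hφ =>
    obtain ⟨g, hg, v, hv, rfl⟩ := hφ
    exact hgen hg hv
  | zero => rw [LinearMap.zero_comp]; exact Submodule.zero_mem _
  | add φ ψ _ _ hφ hψ => rw [LinearMap.add_comp]; exact Submodule.add_mem _ hφ hψ
  | smul n φ _ hφ =>
    have : (n • φ).comp T = n • (φ.comp T) := by
      ext f; simp
    rw [this]
    exact Submodule.smul_mem _ n hφ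

end concrete

end Fermat.Agent.S22
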