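import Mathlib.NumberTheory.ModularForms.CongruenceSubgroups
import Mathlib.LinearAlgebra.Matrix.FixedDetMatrices
import Mathlib.GroupTheory.Schreier

/-!
# `Γ₀(N)` is finitely generated

`SL(2, ℤ)` is generated by `S` and `T`, and a finite index subgroup of a finitely generated
group is finitely generated (Schreier).
-/

set_option autoImplicit false

open scoped MatrixGroups

namespace Fermat.Agent.S22

/-- `SL(2, ℤ)` is a finitely generated group. -/
instance sl2Z_fg : Group.FG SL(2, ℤ) := by
  classical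
  refine (Group.fg_iff).mpr ⟨{ModularGroup.S, ModularGroup.T}, ?_, Set.toFinite _⟩
  exact SpecialLinearGroup.SL2Z_generators

/-- Every finite index subgroup of `SL(2, ℤ)` is finitely generated. -/
theorem fg_of_finiteIndex_sl2Z (Γ : Subgroup SL(2, ℤ)) [Γ.FiniteIndex] : Group.FG Γ :=
  Subgroup.fg_of_index_ne_zero Γ

/-- `Γ₀(N)` is a finitely generated group. -/
theorem gamma0_fg (N : ℕ) [NeZero N] : Group.FG (CongruenceSubgroup.Gamma0 N) :=
  fg_of_finiteIndex_sl2Z _

/-- `Γ₀(N)` is the subgroup closure of a finite set of its elements. -/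
theorem exists_finset_closure_eq_gamma0 (N : ℕ) [NeZero N] :
    ∃ T : Finset SL(2, ℤ), Subgroup.closure (T : Set SL(2, ℤ)) = CongruenceSubgroup.Gamma0 N := by
  have h : (CongruenceSubgroup.Gamma0 N).FG := (Group.fg_iff_subgroup_fg _).mp (gamma0_fg N)
  exact h

/-- Induction principle: a property of elements of `Γ₀(N)` which holds for `1`, for the elements
of a suitable finite set `T ⊆ Γ₀(N)` and their inverses, and which is stable under products,
holds on all of `Γ₀(N)`. The finite set is provided by the theorem. -/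
theorem exists_finset_gamma0_induction (N : ℕ) [NeZero N] :
    ∃ T : Finset SL(2, ℤ), (∀ t ∈ T, t ∈ CongruenceSubgroup.Gamma0 N) ∧
      ∀ (p : SL(2, ℤ) → Prop), p 1 → (∀ t ∈ T, p t) → (∀ t ∈ T, p t⁻¹) →
        (∀ x y, x ∈ CongruenceSubgroup.Gamma0 N → y ∈ CongruenceSubgroup.Gamma0 N →
          p x → p y → p (x * y)) →
        ∀ γ ∈ CongruenceSubgroup.Gamma0 N, p γ := by
  obtain ⟨T, hT⟩ := exists_finset_closure_eq_gamma0 N
  have hTle : ∀ t ∈ T, t ∈ CongruenceSubgroup.Gamma0 N := fun t ht => by
    rw [← hT]; exact Subgroup.subset_closure ht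
  refine ⟨T, hTle, fun p h1 hT' hTinv hmul γ hγ => ?_⟩
  rw [← hT] at hγ
  -- strengthen the induction hypothesis with membership
  suffices h : γ ∈ CongruenceSubgroup.Gamma0 N ∧ p γ from h.2
  induction hγ using Subgroup.closure_induction'' with
  | one => exact ⟨one_mem _, h1⟩
  | mem x hx => exact ⟨hTle x hx, hT' x hx⟩
  | inv_mem x hx => exact ⟨inv_mem (hTle x hx), hTinv x hx⟩
  | mul x y _ _ hx hy => exact ⟨mul_mem hx.1 hy.1, hmul x y hx.1 hy.1 hx.2 hy.2⟩

end Fermat.Agent.S22
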