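-- S22: the period lattice is finitely generated (cocycle relation + finite generation of Γ₀(N)
-- + expansion of the weights `(s X + t)^w` into monomials).
import Fermat.Agent.S22.HeckeStable
import Fermat.Agent.S22.Gamma0FG

set_option autoImplicit false

open Complex Filter UpperHalfPlane CongruenceSubgroup Polynomial
open scoped Topology MatrixGroups ModularForm
open Matrix.SpecialLinearGroup

namespace Fermat.Agent.S22

/-- Binomial expansion of the weight polynomial. -/
theorem linW_expand (w : ℕ) (v : ℂ × ℂ) :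
    linW w v = ∑ j ∈ Finset.range (w + 1),
      ((w.choose j : ℂ) * v.1 ^ j * v.2 ^ (w - j)) • (X : ℂ[X]) ^ j := by
  rw [linW, add_pow]
  refine Finset.sum_congr rfl fun j _ => ?_
  rw [mul_pow, ← C_pow, ← C_pow, smul_eq_C_mul]
  simp only [map_mul, map_natCast]
  ring

/-- The "monomial" functionals `f ↦ ∫_{i∞}^τ f(u) u^j du`. -/
noncomputable def monoFunctional (N : ℕ) [NeZero N] (k : ℤ) (j : ℕ) (τ : ℍ) :
    CuspForm (Gamma0 N) k →ₗ[ℂ] ℂ where
  toFun f := eichP (⇑f ∘ ofComplex) ((X : ℂ[X]) ^ j) (τ : ℂ)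
  map_add' f₁ f₂ := by
    have h : (⇑(f₁ + f₂) ∘ ofComplex : ℂ → ℂ) = (⇑f₁ ∘ ofComplex) + (⇑f₂ ∘ ofComplex) := by
      funext u; simp
    have h12 : IsCuspidalFun ((⇑f₁ ∘ ofComplex) + (⇑f₂ ∘ ofComplex)) :=
      h ▸ cuspForm_class (f₁ + f₂)
    rw [h]
    exact eichP_add_fun (cuspForm_class f₁) (cuspForm_class f₂) h12 _ τ.im_pos
  map_smul' c f := by
    have h : (⇑(c • f) ∘ ofComplex : ℂ → ℂ) = c • (⇑f ∘ ofComplex) := by
      funext u; simp
    have hc : IsCuspidalFun (c • (⇑f ∘ ofComplex)) := h ▸ cuspForm_class (c • f)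
    rw [h]
    simpa using eichP_smul_fun (cuspForm_class f) c hc _ τ.im_pos

@[simp] theorem monoFunctional_apply (N : ℕ) [NeZero N] (k : ℤ) (j : ℕ) (τ : ℍ)
    (f : CuspForm (Gamma0 N) k) :
    monoFunctional N k j τ f = eichP (⇑f ∘ ofComplex) ((X : ℂ[X]) ^ j) (τ : ℂ) := rfl

/-- Expansion of `eichH` into monomial integrals. -/
theorem eichH_expand {N : ℕ} [NeZero N] {k : ℤ} (w : ℕ) (f : CuspForm (Gamma0 N) k)
    (v : ℂ × ℂ) (τ : ℍ) :
    eichH w ⇑f v τ = ∑ j ∈ Finset.range (w + 1),
      ((w.choose j : ℂ) * v.1 ^ j * v.2 ^ (w - j)) * monoFunctional N k j τ f := by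
  rw [eichH, linW_expand, eichP_sum_weight (cuspForm_class f) _ _ τ.im_pos]
  refine Finset.sum_congr rfl fun j _ => ?_
  rw [eichP_smul_weight (cuspForm_class f) _ _ τ.im_pos, monoFunctional_apply]

/-- Integral coefficients in the expansion. -/
theorem IsIntVec.exists_int_coeff {v : ℂ × ℂ} (hv : IsIntVec v) (w j : ℕ) :
    ∃ n : ℤ, ((w.choose j : ℂ) * v.1 ^ j * v.2 ^ (w - j)) = (n : ℂ) := by
  obtain ⟨s, t, rfl⟩ := hv
  exact ⟨(w.choose j : ℤ) * s ^ j * t ^ (w - j), by push_cast; ring⟩

variable (N : ℕ) [NeZero N] (w : ℕ)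

/-- The finitely generated lattice of monomial functionals containing all periods over a
finite set `T` of elements. -/
noncomputable def monoLattice (T : Finset SL(2, ℤ)) :
    Submodule ℤ (CuspForm (Gamma0 N) ((w : ℤ) + 2) →ₗ[ℂ] ℂ) :=
  Submodule.span ℤ
    ((fun p : SL(2, ℤ) × ℕ => monoFunctional N ((w : ℤ) + 2) p.2 (p.1 • UpperHalfPlane.I)) ''
        ((T : Set SL(2, ℤ)) ×ˢ (Finset.range (w + 1) : Set ℕ))
      ∪ (fun j : ℕ => monoFunctional N ((w : ℤ) + 2) j UpperHalfPlane.I) ''
        (Finset.range (w + 1) : Set ℕ))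

theorem monoLattice_fg (T : Finset SL(2, ℤ)) : (monoLattice N w T).FG := by
  refine Submodule.fg_span ?_
  refine Set.Finite.union ?_ ?_
  · exact Set.Finite.image _ ((Finset.finite_toSet T).prod (Finset.finite_toSet _))
  · exact Set.Finite.image _ (Finset.finite_toSet _)

theorem periodFunctional_mem_monoLattice {T : Finset SL(2, ℤ)} {t : SL(2, ℤ)} (ht : t ∈ T)
    {v : ℂ × ℂ} (hv : IsIntVec v) : periodFunctional N w t v ∈ monoLattice N w T := by
  have hv' : IsIntVec (vmul v ((mapGL ℝ t : GL (Fin 2) ℝ) : Matrix (Fin 2) (Fin 2) ℝ)) :=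
    hv.vmul_mapGL t
  choose n hn using fun j => hv.exists_int_coeff w j
  choose n' hn' using fun j => hv'.exists_int_coeff w j
  have key : periodFunctional N w t v
      = ∑ j ∈ Finset.range (w + 1), n j • monoFunctional N ((w : ℤ) + 2) j (t • UpperHalfPlane.I)
        - ∑ j ∈ Finset.range (w + 1), n' j • monoFunctional N ((w : ℤ) + 2) j UpperHalfPlane.I := by
    refine LinearMap.ext fun f => ?_
    rw [periodFunctional_apply, periodConst, eichH_expand, eichH_expand, LinearMap.sub_apply,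
      LinearMap.sum_apply, LinearMap.sum_apply]
    congr 1
    · refine Finset.sum_congr rfl fun j _ => ?_
      rw [hn j, LinearMap.smul_apply, zsmul_eq_mul]
    · refine Finset.sum_congr rfl fun j _ => ?_
      rw [hn' j, LinearMap.smul_apply, zsmul_eq_mul]
  rw [key]
  refine Submodule.sub_mem _ (Submodule.sum_mem _ fun j hj => ?_)
    (Submodule.sum_mem _ fun j hj => ?_)
  · refine Submodule.smul_mem _ _ (Submodule.subset_span (Or.inl ?_))
    exact ⟨(t, j), ⟨ht, hj⟩, rfl⟩
  · refine Submodule.smul_mem _ _ (Submodule.subset_span (Or.inr ?_))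
    exact ⟨j, hj, rfl⟩

/-- Cocycle relation at the level of functionals. -/
theorem periodFunctional_mul {x y : SL(2, ℤ)} (hx : x ∈ Gamma0 N) (hy : y ∈ Gamma0 N)
    (v : ℂ × ℂ) :
    periodFunctional N w (x * y) v = periodFunctional N w x v
      + periodFunctional N w y (vmul v ((mapGL ℝ x : GL (Fin 2) ℝ) : Matrix (Fin 2) (Fin 2) ℝ)) := by
  refine LinearMap.ext fun f => ?_
  rw [LinearMap.add_apply, periodFunctional_apply, periodFunctional_apply,
    periodFunctional_apply]
  exact periodConst_mul w rfl ⇑f x y (cuspForm_class f) (cuspForm_slash_mapGL_eq f hx)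
    (cuspForm_slash_mapGL_eq f hy) v

theorem periodFunctional_one (v : ℂ × ℂ) : periodFunctional N w 1 v = 0 := by
  refine LinearMap.ext fun f => ?_
  rw [periodFunctional_apply, periodConst_one, LinearMap.zero_apply]

theorem periodFunctional_inv {x : SL(2, ℤ)} (hx : x ∈ Gamma0 N) (v : ℂ × ℂ) :
    periodFunctional N w x⁻¹ v
      = - periodFunctional N w x
          (vmul v ((mapGL ℝ x⁻¹ : GL (Fin 2) ℝ) : Matrix (Fin 2) (Fin 2) ℝ)) := by
  have h := periodFunctional_mul N w (inv_mem hx) hx v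
  rw [inv_mul_cancel, periodFunctional_one] at h
  exact eq_neg_of_add_eq_zero_left h.symm

/-- **The period lattice is finitely generated.** -/
theorem periodLattice_fg : (periodLattice N w).FG := by
  obtain ⟨T, hTmem, hind⟩ := exists_finset_gamma0_induction N
  haveI : IsNoetherian ℤ (monoLattice N w T) :=
    isNoetherian_of_fg_of_noetherian _ (monoLattice_fg N w T)
  refine Submodule.FG.of_le_of_isNoetherian (T := monoLattice N w T) ?_
  refine Submodule.span_le.mpr ?_
  rintro φ ⟨g, hg, v, hv, rfl⟩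
  revert v
  refine hind (fun g => ∀ v : ℂ × ℂ, IsIntVec v → periodFunctional N w g v ∈ monoLattice N w T)
    ?_ ?_ ?_ ?_ g hg
  · intro v _
    rw [periodFunctional_one]
    exact Submodule.zero_mem _
  · intro t ht v hv
    exact periodFunctional_mem_monoLattice N w ht hv
  · intro t ht v hv
    rw [periodFunctional_inv N w (hTmem t ht)]
    exact Submodule.neg_mem _ (periodFunctional_mem_monoLattice N w ht (hv.vmul_mapGL t⁻¹))
  · intro x y hx hy hpx hpy v hv
    rw [periodFunctional_mul N w hx hy]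
    exact Submodule.add_mem _ (hpx v hv) (hpy _ (hv.vmul_mapGL x))

end Fermat.Agent.S22
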