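import Mathlib.NumberTheory.ModularForms.NormTrace
import Mathlib.NumberTheory.ModularForms.Identities
import Mathlib.NumberTheory.ModularForms.BoundedAtCusp
import Mathlib.NumberTheory.ModularForms.CongruenceSubgroups

/-!
# S22, P4 tail: a `Γ₀(N)`-invariant holomorphic function of weight `k ≤ 0` whose `SL(2,ℤ)`-translates
are "decaying + polynomial" is zero (`k < 0`) or constant (`k = 0`).

Main statements (all in `namespace Fermat.Agent.S22`):

* `modularFormOfBounded` : bundle `F` as a `ModularForm (Gamma0 N) k`.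
* `eq_zero_of_neg_weight_of_bounded`, `eq_const_of_weight_zero_of_bounded`.
* `slash_vadd_periodic` : every `SL(2,ℤ)`-translate of a `Γ₀(N)`-invariant function is `N`-periodic.
* `polynomial_eq_C_of_periodic_on_upperHalfPlane`.
* `isBoundedAtImInfty_slash_of_polynomial_defect`.
* `eq_zero_of_neg_weight_of_polynomial_defect`, `eq_const_of_weight_zero_of_polynomial_defect`.
-/

set_option autoImplicit false

open UpperHalfPlane CongruenceSubgroup ModularForm Matrix.SpecialLinearGroup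
open scoped MatrixGroups ModularForm Manifold

namespace Fermat.Agent.S22

/-- A holomorphic function on `ℍ`, slash-invariant of weight `k` under `Γ₀(N)`, all of whose
`SL(2,ℤ)`-translates are bounded at `i∞`, is a modular form. -/
noncomputable def modularFormOfBounded (N : ℕ) [NeZero N] (k : ℤ) (F : ℍ → ℂ)
    (hol : MDifferentiable 𝓘(ℂ) 𝓘(ℂ) F)
    (hinv : ∀ γ ∈ Gamma0 N, F ∣[k] (γ : SL(2, ℤ)) = F)
    (hbdd : ∀ g : SL(2, ℤ), IsBoundedAtImInfty (F ∣[k] g)) :
    ModularForm (Gamma0 N) k where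
  toFun := F
  slash_action_eq' := by
    intro γ hγ
    obtain ⟨γ', hγ', rfl⟩ := hγ
    exact hinv γ' hγ'
  holo' := hol
  bdd_at_cusps' := by
    intro c hc
    have hc' : IsCusp c 𝒮ℒ :=
      (Subgroup.IsArithmetic.isCusp_iff_isCusp_SL2Z _).mp hc
    rw [OnePoint.isBoundedAt_iff_forall_SL2Z hc']
    intro γ _
    exact hbdd γ

theorem coe_modularFormOfBounded (N : ℕ) [NeZero N] (k : ℤ) (F : ℍ → ℂ)
    (hol : MDifferentiable 𝓘(ℂ) 𝓘(ℂ) F)
    (hinv : ∀ γ ∈ Gamma0 N, F ∣[k] (γ : SL(2, ℤ)) = F)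
    (hbdd : ∀ g : SL(2, ℤ), IsBoundedAtImInfty (F ∣[k] g)) :
    ⇑(modularFormOfBounded N k F hol hinv hbdd) = F := rfl

theorem eq_zero_of_neg_weight_of_bounded (N : ℕ) [NeZero N] (k : ℤ) (hk : k < 0) (F : ℍ → ℂ)
    (hol : MDifferentiable 𝓘(ℂ) 𝓘(ℂ) F)
    (hinv : ∀ γ ∈ Gamma0 N, F ∣[k] (γ : SL(2, ℤ)) = F)
    (hbdd : ∀ g : SL(2, ℤ), IsBoundedAtImInfty (F ∣[k] g)) : F = 0 := by
  have := ModularForm.isZero_of_neg_weight hk (modularFormOfBounded N k F hol hinv hbdd)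
  rw [← coe_modularFormOfBounded N k F hol hinv hbdd, this]
  rfl

theorem eq_const_of_weight_zero_of_bounded (N : ℕ) [NeZero N] (F : ℍ → ℂ)
    (hol : MDifferentiable 𝓘(ℂ) 𝓘(ℂ) F)
    (hinv : ∀ γ ∈ Gamma0 N, F ∣[(0 : ℤ)] (γ : SL(2, ℤ)) = F)
    (hbdd : ∀ g : SL(2, ℤ), IsBoundedAtImInfty (F ∣[(0 : ℤ)] g)) :
    ∃ c : ℂ, F = Function.const ℍ c := by
  obtain ⟨c, hc⟩ := ModularForm.eq_const_of_weight_zero (modularFormOfBounded N 0 F hol hinv hbdd)
  exact ⟨c, hc⟩

theorem Gamma_le_Gamma0 (N : ℕ) : Gamma N ≤ Gamma0 N := by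
  intro γ hγ
  rw [Gamma_mem] at hγ
  rw [Gamma0_mem]
  exact hγ.2.2.1

/-- Every `SL(2,ℤ)`-translate of a `Γ₀(N)`-invariant function is `N`-periodic
(because `Γ(N)` is normal in `SL(2,ℤ)` and contained in `Γ₀(N)`). -/
theorem slash_vadd_periodic (N : ℕ) (k : ℤ) (F : ℍ → ℂ)
    (hinv : ∀ γ ∈ Gamma0 N, F ∣[k] (γ : SL(2, ℤ)) = F) (g : SL(2, ℤ)) (z : ℍ) :
    (F ∣[k] g) ((N : ℝ) +ᵥ z) = (F ∣[k] g) z := by
  let φ : SlashInvariantForm (Gamma N) k :=
    { toFun := F ∣[k] g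
      slash_action_eq' := by
        intro γ hγ
        obtain ⟨γ', hγ', rfl⟩ := hγ
        have h1 : g * γ' * g⁻¹ ∈ Gamma0 N :=
          Gamma_le_Gamma0 N ((Gamma_normal N).conj_mem γ' hγ' g)
        have h2 := hinv _ h1
        have h3 : (F ∣[k] g) ∣[k] γ' = (F ∣[k] (g * γ' * g⁻¹)) ∣[k] g := by
          rw [← SlashAction.slash_mul, ← SlashAction.slash_mul]
          congr 1
          group
        rw [h2] at h3
        exact h3 }
  have := SlashInvariantForm.vAdd_width_periodic N k 1 φ z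
  have h4 : ∀ w : ℍ, φ w = (F ∣[k] g) w := fun w => rfl
  rw [h4, h4] at this
  simpa using this

/-- A polynomial which is `N`-periodic on the upper half-plane (`N ≠ 0`) is constant. -/
theorem polynomial_eq_C_of_periodic_on_upperHalfPlane (r : Polynomial ℂ) (N : ℕ) (hN : N ≠ 0)
    (hper : ∀ z : ℍ, r.eval (((N : ℝ) +ᵥ z : ℍ) : ℂ) = r.eval (z : ℂ)) :
    ∀ z : ℍ, r.eval (z : ℂ) = r.eval Complex.I := by
  -- the polynomial `r - C (r.eval I)` has the infinitely many roots `I + n N`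
  have key : ∀ n : ℕ, r.eval (Complex.I + n * N) = r.eval Complex.I := by
    intro n
    induction n with
    | zero => simp
    | succ n ih =>
      have hpos : 0 < (Complex.I + n * N).im := by simp
      have := hper ⟨Complex.I + n * N, hpos⟩
      rw [UpperHalfPlane.coe_vadd] at this
      rw [← ih, ← this]
      congr 1
      push_cast
      ring
  have hzero : r - Polynomial.C (r.eval Complex.I) = 0 := by
    apply Polynomial.eq_zero_of_infinite_isRoot
    have hinj : Function.Injective (fun n : ℕ => Complex.I + n * N) := by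
      intro a b hab
      have h1 : ((a : ℂ) * N) = (b : ℂ) * N := by simpa using hab
      have hN' : (N : ℂ) ≠ 0 := by exact_mod_cast hN
      have h2 : (a : ℂ) = b := mul_right_cancel₀ hN' h1
      exact_mod_cast h2
    refine Set.infinite_of_injective_forall_mem hinj (fun n => ?_)
    show Polynomial.IsRoot _ _
    simp only [Polynomial.IsRoot, Polynomial.eval_sub, Polynomial.eval_C, key n, sub_self]
  intro z
  have := congrArg (Polynomial.eval (z : ℂ)) hzero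
  simpa [sub_eq_zero] using this

/-- If the translate `F ∣[k] g` of a `Γ₀(N)`-invariant `F` is the sum of an `N`-periodic function
vanishing at `i∞` and a polynomial, then the polynomial is constant, and `F ∣[k] g` is bounded
at `i∞`. -/
theorem isBoundedAtImInfty_slash_of_polynomial_defect (N : ℕ) [NeZero N] (k : ℤ) (F : ℍ → ℂ)
    (hinv : ∀ γ ∈ Gamma0 N, F ∣[k] (γ : SL(2, ℤ)) = F)
    (g : SL(2, ℤ)) (G : ℍ → ℂ) (r : Polynomial ℂ) (hG0 : IsZeroAtImInfty G)
    (hGper : ∀ z : ℍ, G ((N : ℝ) +ᵥ z) = G z)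
    (hFG : ∀ z : ℍ, (F ∣[k] g) z = G z + r.eval (z : ℂ)) :
    IsBoundedAtImInfty (F ∣[k] g) := by
  have hrper : ∀ z : ℍ, r.eval (((N : ℝ) +ᵥ z : ℍ) : ℂ) = r.eval (z : ℂ) := by
    intro z
    have h1 := hFG ((N : ℝ) +ᵥ z)
    rw [slash_vadd_periodic N k F hinv g z, hFG z, hGper z] at h1
    exact (add_left_cancel h1).symm
  have hr := polynomial_eq_C_of_periodic_on_upperHalfPlane r N (NeZero.ne N) hrper
  have hFG' : (F ∣[k] g) = G + Function.const ℍ (r.eval Complex.I) := by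
    funext z
    rw [hFG z, hr z]
    rfl
  rw [hFG']
  exact Filter.BoundedAtFilter.add hG0.isBoundedAtImInfty (Filter.const_boundedAtFilter _ _)

/-- **P4 tail, negative weight.** -/
theorem eq_zero_of_neg_weight_of_polynomial_defect (N : ℕ) [NeZero N] (k : ℤ) (hk : k < 0)
    (F : ℍ → ℂ) (hol : MDifferentiable 𝓘(ℂ) 𝓘(ℂ) F)
    (hinv : ∀ γ ∈ Gamma0 N, F ∣[k] (γ : SL(2, ℤ)) = F)
    (hdef : ∀ g : SL(2, ℤ), ∃ (G : ℍ → ℂ) (r : Polynomial ℂ), IsZeroAtImInfty G ∧
      (∀ z : ℍ, G ((N : ℝ) +ᵥ z) = G z) ∧ ∀ z : ℍ, (F ∣[k] g) z = G z + r.eval (z : ℂ)) :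
    F = 0 := by
  refine eq_zero_of_neg_weight_of_bounded N k hk F hol hinv (fun g => ?_)
  obtain ⟨G, r, hG0, hGper, hFG⟩ := hdef g
  exact isBoundedAtImInfty_slash_of_polynomial_defect N k F hinv g G r hG0 hGper hFG

/-- **P4 tail, weight zero.** -/
theorem eq_const_of_weight_zero_of_polynomial_defect (N : ℕ) [NeZero N]
    (F : ℍ → ℂ) (hol : MDifferentiable 𝓘(ℂ) 𝓘(ℂ) F)
    (hinv : ∀ γ ∈ Gamma0 N, F ∣[(0 : ℤ)] (γ : SL(2, ℤ)) = F)
    (hdef : ∀ g : SL(2, ℤ), ∃ (G : ℍ → ℂ) (r : Polynomial ℂ), IsZeroAtImInfty G ∧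
      (∀ z : ℍ, G ((N : ℝ) +ᵥ z) = G z) ∧
      ∀ z : ℍ, (F ∣[(0 : ℤ)] g) z = G z + r.eval (z : ℂ)) :
    ∃ c : ℂ, F = Function.const ℍ c := by
  refine eq_const_of_weight_zero_of_bounded N F hol hinv (fun g => ?_)
  obtain ⟨G, r, hG0, hGper, hFG⟩ := hdef g
  exact isBoundedAtImInfty_slash_of_polynomial_defect N 0 F hinv g G r hG0 hGper hFG

end Fermat.Agent.S22
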