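import Mathlib
import Fermat.Agent.S22.Prim
import Fermat.Agent.S22.CuspidalClass
import Fermat.Agent.S22.NegWeight

/-!
# S22, P4 body (owner: helper21): Bol-type identity and non-degeneracy of the period polynomials

Everything is characterised by derivatives and decay, so it does not depend on any particular
choice of normalised primitives.

* `IterPrim h g A` : `A 0 = g`, every `A j` is holomorphic on the upper half plane, `h`-periodic and
  zero at `i∞`, and `A (j+1)' = A j`.  `exists_iterPrim`.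
* `kernel A w t z` = "`∫_{i∞}^z (X - t)^w g(X) dX`" (integration by parts), `kernel_hasDerivAt`,
  `kernel_diag`, `kernelPoly`, `transPoly` (polynomial dependence on `t`).
* `den g z = c z + d`, `mob g z = (a z + b)/(c z + d)` for `g ∈ SL(2,ℤ)` on `ℂ`.
* `periodDefect_hasDerivAt_zero`: `z ↦ (c t + d)^w K[f](g t, g z) - K[f|g](t, z)` is constant.
* `slash_iterPrim_eq_add_polynomial` (Bol): `A1 (w+1) ∣[-w] g = Ag (w+1) + polynomial`.
* `cuspidal_slash`, `cuspidal_cuspForm`: translates of cusp forms on `Γ₀(N)` are `Cuspidal N`.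
* `eq_zero_of_periodPolynomial_eq_zero` (**P4**): vanishing period polynomials force `f = 0`.
-/

set_option autoImplicit false

open Complex Filter UpperHalfPlane ModularForm Polynomial CongruenceSubgroup
open scoped Topology MatrixGroups ModularForm Manifold

namespace Fermat.Agent.S22

open Prim

/-- `A` is a chain of iterated normalised primitives of `g`: `A 0 = g`, each `A j` is
holomorphic on the upper half plane, `h`-periodic and zero at `i∞`, and `A (j+1)' = A j`. -/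
structure IterPrim (h : ℝ) (g : ℂ → ℂ) (A : ℕ → ℂ → ℂ) : Prop where
  zero : A 0 = g
  cusp : ∀ j, Cuspidal h (A j)
  deriv : ∀ j (z : ℂ), 0 < z.im → HasDerivAt (A (j + 1)) (A j z) z

/-- auxiliary recursion producing the chain of primitives -/
noncomputable def iterPrimAux {h : ℝ} (hh : 0 < h) (g : ℂ → ℂ) (hg : Cuspidal h g) :
    ℕ → {G : ℂ → ℂ // Cuspidal h G}
  | 0 => ⟨g, hg⟩
  | j + 1 => ⟨(Cuspidal.exists_primitive hh (iterPrimAux hh g hg j).2).choose,
      (Cuspidal.exists_primitive hh (iterPrimAux hh g hg j).2).choose_spec.1⟩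

theorem exists_iterPrim {h : ℝ} (hh : 0 < h) (g : ℂ → ℂ) (hg : Cuspidal h g) :
    ∃ A : ℕ → ℂ → ℂ, IterPrim h g A :=
  ⟨fun j => (iterPrimAux hh g hg j).1, rfl, fun j => (iterPrimAux hh g hg j).2,
    fun j => (Cuspidal.exists_primitive hh (iterPrimAux hh g hg j).2).choose_spec.2⟩

/-- shifting a chain -/
theorem IterPrim.shift {h : ℝ} {g : ℂ → ℂ} {A : ℕ → ℂ → ℂ} (hA : IterPrim h g A) :
    IterPrim h (A 1) (fun j => A (j + 1)) :=
  ⟨rfl, fun j => hA.cusp (j + 1), fun j => hA.deriv (j + 1)⟩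

/-- The kernel `K_w(t, z) = "∫_{i∞}^z (X - t)^w g(X) dX"`, defined by integration by parts:
`K_0 = A 1`, `K_{w+1}(t,z) = (z-t)^{w+1} A_1(z) - (w+1) K_w[shifted chain](t,z)`. -/
noncomputable def kernel : (ℕ → ℂ → ℂ) → ℕ → ℂ → ℂ → ℂ
  | A, 0, _, z => A 1 z
  | A, w + 1, t, z => (z - t) ^ (w + 1) * A 1 z - (w + 1) * kernel (fun j => A (j + 1)) w t z

theorem kernel_zero (A : ℕ → ℂ → ℂ) (t z : ℂ) : kernel A 0 t z = A 1 z := rfl

theorem kernel_succ (A : ℕ → ℂ → ℂ) (w : ℕ) (t z : ℂ) :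
    kernel A (w + 1) t z
      = (z - t) ^ (w + 1) * A 1 z - (w + 1) * kernel (fun j => A (j + 1)) w t z := rfl

theorem kernel_hasDerivAt {h : ℝ} (w : ℕ) : ∀ {g : ℂ → ℂ} {A : ℕ → ℂ → ℂ} (_ : IterPrim h g A)
    (t z : ℂ) (_ : 0 < z.im), HasDerivAt (fun z => kernel A w t z) ((z - t) ^ w * A 0 z) z := by
  induction w with
  | zero =>
    intro g A hA t z hz
    simpa [kernel_zero] using hA.deriv 0 z hz
  | succ w ih =>
    intro g A hA t z hz
    have h1 : HasDerivAt (fun z : ℂ => (z - t) ^ (w + 1)) ((w + 1 : ℕ) * (z - t) ^ w) z := by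
      have := ((hasDerivAt_id z).sub_const t).fun_pow (w + 1)
      simpa using this
    have h2 := h1.mul (hA.deriv 0 z hz)
    have h3 := (ih hA.shift t z hz).const_mul ((w : ℂ) + 1)
    have h4 := h2.sub h3
    refine h4.congr_deriv ?_
    push_cast
    ring

theorem kernel_diag (w : ℕ) : ∀ (A : ℕ → ℂ → ℂ) (t : ℂ),
    kernel A w t t = (-1) ^ w * (w.factorial : ℂ) * A (w + 1) t := by
  induction w with
  | zero => intro A t; simp [kernel_zero]
  | succ w ih =>
    intro A t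
    rw [kernel_succ, ih]
    simp only [sub_self, ne_eq, Nat.add_eq_zero_iff, one_ne_zero, and_false, not_false_eq_true,
      zero_pow, zero_mul, zero_sub, Nat.factorial_succ, Nat.cast_mul, Nat.cast_add, Nat.cast_one]
    ring

/-- denominator `c z + d` of `g ∈ SL(2,ℤ)` as a function on `ℂ` -/
noncomputable def den (g : SL(2, ℤ)) (z : ℂ) : ℂ := (g 1 0 : ℂ) * z + (g 1 1 : ℂ)

/-- the Möbius transformation `z ↦ (a z + b)/(c z + d)` on `ℂ` -/
noncomputable def mob (g : SL(2, ℤ)) (z : ℂ) : ℂ :=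
  ((g 0 0 : ℂ) * z + (g 0 1 : ℂ)) / den g z

theorem det_eq_one_complex (g : SL(2, ℤ)) :
    (g 0 0 : ℂ) * (g 1 1 : ℂ) - (g 0 1 : ℂ) * (g 1 0 : ℂ) = 1 := by
  have h := g.det_coe
  rw [Matrix.det_fin_two] at h
  exact_mod_cast h

theorem den_eq_denom (g : SL(2, ℤ)) (τ : ℍ) : den g (τ : ℂ) = denom g τ := by
  simp [den, denom]

theorem den_ne_zero (g : SL(2, ℤ)) {z : ℂ} (hz : 0 < z.im) : den g z ≠ 0 := by
  have := denom_ne_zero g ⟨z, hz⟩
  rwa [← den_eq_denom] at this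

theorem mob_eq_smul (g : SL(2, ℤ)) (τ : ℍ) : mob g (τ : ℂ) = ((g • τ : ℍ) : ℂ) := by
  rw [coe_specialLinearGroup_apply]
  simp [mob, den]

theorem mob_im_pos (g : SL(2, ℤ)) {z : ℂ} (hz : 0 < z.im) : 0 < (mob g z).im := by
  have := mob_eq_smul g ⟨z, hz⟩
  rw [this]
  exact (g • (⟨z, hz⟩ : ℍ)).im_pos

theorem ofComplex_mob (g : SL(2, ℤ)) {z : ℂ} (hz : 0 < z.im) :
    ofComplex (mob g z) = g • ofComplex z := by
  rw [ofComplex_apply_of_im_pos hz]
  have := mob_eq_smul g ⟨z, hz⟩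
  rw [this, ofComplex_apply]

theorem mob_hasDerivAt (g : SL(2, ℤ)) {z : ℂ} (hz : 0 < z.im) :
    HasDerivAt (mob g) (1 / (den g z) ^ 2) z := by
  have hd := den_ne_zero g hz
  have h1 : HasDerivAt (fun z : ℂ => (g 0 0 : ℂ) * z + (g 0 1 : ℂ)) (g 0 0 : ℂ) z := by
    simpa using ((hasDerivAt_id z).const_mul (g 0 0 : ℂ)).add_const (g 0 1 : ℂ)
  have h2 : HasDerivAt (den g) (g 1 0 : ℂ) z := by
    have := ((hasDerivAt_id z).const_mul (g 1 0 : ℂ)).add_const (g 1 1 : ℂ)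
    rw [mul_one] at this
    exact this
  have h3 := h1.div h2 hd
  refine h3.congr_deriv ?_
  have hdet := det_eq_one_complex g
  unfold den at hd ⊢
  field_simp
  linear_combination hdet

theorem mob_sub_mob (g : SL(2, ℤ)) {z t : ℂ} (hz : 0 < z.im) (ht : 0 < t.im) :
    mob g z - mob g t = (z - t) / (den g z * den g t) := by
  have hdz := den_ne_zero g hz
  have hdt := den_ne_zero g ht
  have hdet := det_eq_one_complex g
  unfold mob
  rw [div_sub_div _ _ hdz hdt]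
  congr 1
  unfold den
  linear_combination (z - t) * hdet

theorem const_of_hasDerivAt_zero {E : ℂ → ℂ} (hE : ∀ z : ℂ, 0 < z.im → HasDerivAt E 0 z)
    {z z' : ℂ} (hz : 0 < z.im) (hz' : 0 < z'.im) : E z = E z' := by
  have hU : IsOpen {z : ℂ | 0 < z.im} := isOpen_lt continuous_const Complex.continuous_im
  have hconv : Convex ℝ {z : ℂ | 0 < z.im} := by
    have : {z : ℂ | 0 < z.im} = Complex.imCLM ⁻¹' Set.Ioi 0 := rfl
    rw [this]
    exact (convex_Ioi 0).linear_preimage Complex.imCLM.toLinearMap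
  have hdiff : DifferentiableOn ℂ E {z : ℂ | 0 < z.im} :=
    fun z hz => (hE z hz).differentiableAt.differentiableWithinAt
  have hderiv : Set.EqOn (deriv E) 0 {z : ℂ | 0 < z.im} := fun z hz => (hE z hz).deriv
  exact hU.is_const_of_deriv_eq_zero hconv.isPreconnected hdiff hderiv hz hz'

/-- The "period polynomial defect": for fixed `t`, the function
`z ↦ (c t + d)^w K[f](g t, g z) - K[f|g](t, z)` has zero derivative on the upper half plane. -/
theorem periodDefect_hasDerivAt_zero {h₁ h₂ : ℝ} (w : ℕ) (f : ℍ → ℂ) (g : SL(2, ℤ))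
    {A1 Ag : ℕ → ℂ → ℂ} (hA1 : IterPrim h₁ (f ∘ ofComplex) A1)
    (hAg : IterPrim h₂ ((f ∣[((w : ℤ) + 2)] g) ∘ ofComplex) Ag)
    {t : ℂ} (ht : 0 < t.im) {z : ℂ} (hz : 0 < z.im) :
    HasDerivAt (fun z => den g t ^ w * kernel A1 w (mob g t) (mob g z) - kernel Ag w t z) 0 z := by
  have hdz := den_ne_zero g hz
  have hdt := den_ne_zero g ht
  have h1 : HasDerivAt (fun z => kernel A1 w (mob g t) (mob g z))
      ((mob g z - mob g t) ^ w * A1 0 (mob g z) * (1 / den g z ^ 2)) z :=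
    (kernel_hasDerivAt w hA1 (mob g t) (mob g z) (mob_im_pos g hz)).comp z (mob_hasDerivAt g hz)
  have h2 := kernel_hasDerivAt w hAg t z hz
  have h3 := (h1.const_mul (den g t ^ w)).sub h2
  refine h3.congr_deriv ?_
  rw [hA1.zero, hAg.zero, Function.comp_apply, Function.comp_apply, ofComplex_mob g hz,
    SL_slash_apply, mob_sub_mob g hz ht, ← den_eq_denom, ofComplex_apply_of_im_pos hz]
  rw [show -((w : ℤ) + 2) = -((w + 2 : ℕ) : ℤ) by push_cast; ring, zpow_neg, zpow_natCast,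
    div_pow, mul_pow, pow_add]
  field_simp
  ring

/-- `t ↦ kernel A w t z` as a polynomial in `t`. -/
noncomputable def kernelPoly : (ℕ → ℂ → ℂ) → ℕ → ℂ → Polynomial ℂ
  | A, 0, z => C (A 1 z)
  | A, w + 1, z => (C z - X) ^ (w + 1) * C (A 1 z)
      - C ((w : ℂ) + 1) * kernelPoly (fun j => A (j + 1)) w z

theorem kernelPoly_eval (w : ℕ) : ∀ (A : ℕ → ℂ → ℂ) (z t : ℂ),
    (kernelPoly A w z).eval t = kernel A w t z := by
  induction w with
  | zero => intro A z t; simp [kernelPoly, kernel_zero]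
  | succ w ih =>
    intro A z t
    simp [kernelPoly, kernel_succ, ih]

/-- `t ↦ (c t + d)^w * kernel A w ((a t + b)/(c t + d)) ζ` as a polynomial in `t`. -/
noncomputable def transPoly (a b c d : ℂ) : (ℕ → ℂ → ℂ) → ℕ → ℂ → Polynomial ℂ
  | A, 0, ζ => C (A 1 ζ)
  | A, w + 1, ζ => ((C c * X + C d) * C ζ - (C a * X + C b)) ^ (w + 1) * C (A 1 ζ)
      - C ((w : ℂ) + 1) * (C c * X + C d) * transPoly a b c d (fun j => A (j + 1)) w ζ

theorem transPoly_eval (a b c d : ℂ) (w : ℕ) : ∀ (A : ℕ → ℂ → ℂ) (ζ t : ℂ) (_ : c * t + d ≠ 0),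
    (transPoly a b c d A w ζ).eval t
      = (c * t + d) ^ w * kernel A w ((a * t + b) / (c * t + d)) ζ := by
  induction w with
  | zero => intro A ζ t _; simp [transPoly, kernel_zero]
  | succ w ih =>
    intro A ζ t hcd
    simp only [transPoly, kernel_succ, eval_sub, eval_mul, eval_pow, eval_add, eval_C, eval_X,
      ih _ ζ t hcd]
    have : ((c * t + d) * ζ - (a * t + b)) ^ (w + 1)
        = (c * t + d) ^ (w + 1) * (ζ - (a * t + b) / (c * t + d)) ^ (w + 1) := by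
      rw [← mul_pow]
      congr 1
      field_simp
    rw [this]
    ring

/-- **Bol-type identity.** With `F = A1 (w+1)` the `(w+1)`-fold normalised primitive of `f` and
`Fg = Ag (w+1)` that of `f ∣[w+2] g`, the weight `-w` translate `F ∣[-w] g` differs from `Fg` by a
polynomial. -/
theorem slash_iterPrim_eq_add_polynomial {h₁ h₂ : ℝ} (w : ℕ) (f : ℍ → ℂ) (g : SL(2, ℤ))
    {A1 Ag : ℕ → ℂ → ℂ} (hA1 : IterPrim h₁ (f ∘ ofComplex) A1)
    (hAg : IterPrim h₂ ((f ∣[((w : ℤ) + 2)] g) ∘ ofComplex) Ag) :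
    ∃ r : Polynomial ℂ, ∀ τ : ℍ,
      ((fun τ : ℍ => A1 (w + 1) (τ : ℂ)) ∣[-(w : ℤ)] g) τ = Ag (w + 1) (τ : ℂ) + r.eval (τ : ℂ) := by
  have hI : (0 : ℝ) < (Complex.I).im := by simp
  set ζ := mob g Complex.I with hζ
  set u : ℂ := (-1) ^ w * (w.factorial : ℂ) with hu
  have hu0 : u ≠ 0 := by
    rw [hu]
    exact mul_ne_zero (pow_ne_zero _ (by norm_num)) (by exact_mod_cast w.factorial_ne_zero)
  refine ⟨C u⁻¹ * (transPoly (g 0 0 : ℂ) (g 0 1 : ℂ) (g 1 0 : ℂ) (g 1 1 : ℂ) A1 w ζ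
    - kernelPoly Ag w Complex.I), fun τ => ?_⟩
  have hτ : 0 < (τ : ℂ).im := τ.im_pos
  have hconst := const_of_hasDerivAt_zero
    (E := fun z => den g (τ : ℂ) ^ w * kernel A1 w (mob g τ) (mob g z) - kernel Ag w τ z)
    (fun z hz => periodDefect_hasDerivAt_zero w f g hA1 hAg hτ hz) hτ hI
  beta_reduce at hconst
  rw [kernel_diag, kernel_diag, ← hu] at hconst
  have hden : (g 1 0 : ℂ) * (τ : ℂ) + (g 1 1 : ℂ) ≠ 0 := den_ne_zero g hτ
  rw [SL_slash_apply, ← mob_eq_smul, ← den_eq_denom, neg_neg, zpow_natCast, eval_mul, eval_C,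
    eval_sub, transPoly_eval _ _ _ _ w A1 ζ τ hden, kernelPoly_eval]
  have h2 : den g (τ : ℂ) ^ w * kernel A1 w (mob g τ) ζ - kernel Ag w τ Complex.I
      = u * (A1 (w + 1) (mob g τ) * den g (τ : ℂ) ^ w - Ag (w + 1) τ) := by
    rw [← hconst]; ring
  change _ = _ + u⁻¹ * (den g (τ : ℂ) ^ w * kernel A1 w (mob g τ) ζ - kernel Ag w τ Complex.I)
  rw [h2, ← mul_assoc, inv_mul_cancel₀ hu0]
  ring

/-- periodicity on `ℍ` gives periodicity of `G ∘ ofComplex` on `ℂ` -/
theorem periodic_comp_ofComplex_of_vadd {G : ℍ → ℂ} {h : ℝ}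
    (hG : ∀ τ : ℍ, G (h +ᵥ τ) = G τ) : Function.Periodic (G ∘ ofComplex) h := by
  intro z
  by_cases hz : 0 < z.im
  · have hz' : 0 < (z + h).im := by simpa using hz
    simp only [Function.comp_apply, ofComplex_apply_of_im_pos hz', ofComplex_apply_of_im_pos hz]
    rw [← hG ⟨z, hz⟩]
    congr 1
    ext
    simp [add_comm]
  · have hz0 : z.im ≤ 0 := not_lt.mp hz
    have hz' : (z + h).im ≤ 0 := by simpa using hz0
    simp [ofComplex_apply_of_im_nonpos hz', ofComplex_apply_of_im_nonpos hz0]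

/-- Slash invariance of a cusp form on `Γ₀(N)` for elements of `SL(2,ℤ)`. -/
theorem cuspForm_slash_Gamma0 {N : ℕ} {k : ℤ} (f : CuspForm (Gamma0 N) k) (γ : SL(2, ℤ))
    (hγ : γ ∈ Gamma0 N) : (⇑f) ∣[k] γ = ⇑f := by
  rw [ModularForm.SL_slash]
  exact SlashInvariantFormClass.slash_action_eq f _ ⟨γ, hγ, rfl⟩

/-- All `SL(2,ℤ)`-translates of a cusp form on `Γ₀(N)` are in the class `Cuspidal N`. -/
theorem cuspidal_slash (N : ℕ) [NeZero N] {k : ℤ} (f : CuspForm (Gamma0 N) k) (g : SL(2, ℤ)) :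
    Cuspidal (N : ℝ) (((⇑f) ∣[k] g) ∘ ofComplex) := by
  obtain ⟨hd, -, hz⟩ := cuspForm_slash_SL_class f g
  refine ⟨hd, ?_, hz⟩
  apply periodic_comp_ofComplex_of_vadd
  intro τ
  exact slash_vadd_periodic N k ⇑f (fun γ hγ => cuspForm_slash_Gamma0 f γ hγ) g τ

theorem cuspidal_cuspForm (N : ℕ) [NeZero N] {k : ℤ} (f : CuspForm (Gamma0 N) k) :
    Cuspidal (N : ℝ) ((⇑f) ∘ ofComplex) := by
  have := cuspidal_slash N f 1
  rwa [SlashAction.slash_one] at this

/-- if `A (j+1)` is constant on the upper half plane then `A j` vanishes there -/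
theorem IterPrim.eq_zero_of_succ_const {h : ℝ} {g : ℂ → ℂ} {A : ℕ → ℂ → ℂ} (hA : IterPrim h g A)
    (j : ℕ) (c : ℂ) (hc : ∀ z : ℂ, 0 < z.im → A (j + 1) z = c) :
    ∀ z : ℂ, 0 < z.im → A j z = 0 := by
  intro z hz
  have hU : IsOpen {z : ℂ | 0 < z.im} := isOpen_lt continuous_const Complex.continuous_im
  have h1 := hA.deriv j z hz
  have h2 : A (j + 1) =ᶠ[𝓝 z] fun _ => c := by
    filter_upwards [hU.mem_nhds hz] with y hy using hc y hy
  have h3 : HasDerivAt (fun _ : ℂ => c) (A j z) z := h1.congr_of_eventuallyEq h2.symm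
  exact h3.unique (hasDerivAt_const z c)

theorem IterPrim.eq_zero_of_const {h : ℝ} {g : ℂ → ℂ} {A : ℕ → ℂ → ℂ} (hA : IterPrim h g A)
    (n : ℕ) (c : ℂ) (hc : ∀ z : ℂ, 0 < z.im → A (n + 1) z = c) :
    ∀ z : ℂ, 0 < z.im → g z = 0 := by
  have key : ∀ j : ℕ, j ≤ n → ∀ z : ℂ, 0 < z.im → A (n - j) z = 0 := by
    intro j
    induction j with
    | zero => intro _; simpa using hA.eq_zero_of_succ_const n c hc
    | succ j ih =>
      intro hj
      have h1 : n - j = (n - (j + 1)) + 1 := by omega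
      have h2 := ih (by omega)
      rw [h1] at h2
      exact hA.eq_zero_of_succ_const (n - (j + 1)) 0 h2
  have := key n le_rfl
  rw [Nat.sub_self, hA.zero] at this
  exact this

/-- **Non-degeneracy (P4).**  Let `f ∈ S_{w+2}(Γ₀(N))` and `A` its chain of iterated normalised
primitives. If for every `γ ∈ Γ₀(N)` the period polynomial
`t ↦ (c t + d)^w K(γ t, γ z) - K(t, z)` (independent of `z`) vanishes, then `f = 0`. -/
theorem eq_zero_of_periodPolynomial_eq_zero (N : ℕ) [NeZero N] (w : ℕ)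
    (f : CuspForm (Gamma0 N) ((w : ℤ) + 2)) {A : ℕ → ℂ → ℂ}
    (hA : IterPrim (N : ℝ) ((⇑f) ∘ ofComplex) A)
    (hper : ∀ γ ∈ Gamma0 N, ∀ t : ℂ, 0 < t.im → ∃ z : ℂ, 0 < z.im ∧
      den γ t ^ w * kernel A w (mob γ t) (mob γ z) - kernel A w t z = 0) : f = 0 := by
  set F : ℍ → ℂ := fun τ => A (w + 1) (τ : ℂ) with hF
  have hN : (0 : ℝ) < N := by exact_mod_cast Nat.pos_of_ne_zero (NeZero.ne N)
  set u : ℂ := (-1) ^ w * (w.factorial : ℂ) with hu
  have hu0 : u ≠ 0 := by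
    rw [hu]
    exact mul_ne_zero (pow_ne_zero _ (by norm_num)) (by exact_mod_cast w.factorial_ne_zero)
  -- holomorphy
  have hol : MDifferentiable 𝓘(ℂ) 𝓘(ℂ) F := by
    rw [UpperHalfPlane.mdifferentiable_iff]
    refine (hA.cusp (w + 1)).diff.congr ?_
    intro z hz
    simp only [Function.comp_apply, hF, ofComplex_apply_of_im_pos hz]
  -- invariance under Γ₀(N)
  have hinv : ∀ γ ∈ Gamma0 N, F ∣[-(w : ℤ)] (γ : SL(2, ℤ)) = F := by
    intro γ hγ
    funext τ
    have hτ : 0 < (τ : ℂ).im := τ.im_pos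
    obtain ⟨z, hz, hzero⟩ := hper γ hγ τ hτ
    have hAγ : IterPrim (N : ℝ) (((⇑f) ∣[((w : ℤ) + 2)] γ) ∘ ofComplex) A := by
      rw [cuspForm_slash_Gamma0 f γ hγ]; exact hA
    have hconst := const_of_hasDerivAt_zero
      (E := fun z => den γ (τ : ℂ) ^ w * kernel A w (mob γ τ) (mob γ z) - kernel A w τ z)
      (fun z hz => periodDefect_hasDerivAt_zero w ⇑f γ hA hAγ hτ hz) hτ hz
    beta_reduce at hconst
    rw [hzero, kernel_diag, kernel_diag, ← hu] at hconst
    have h2 : u * (A (w + 1) (mob γ τ) * den γ (τ : ℂ) ^ w - A (w + 1) τ) = 0 := by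
      rw [← hconst]; ring
    have h3 := (mul_eq_zero.mp h2).resolve_left hu0
    rw [SL_slash_apply, neg_neg, zpow_natCast, hF]
    simp only
    rw [← mob_eq_smul, ← den_eq_denom]
    exact sub_eq_zero.mp h3
  -- decomposition of the translates
  have hdef : ∀ g : SL(2, ℤ), ∃ (G : ℍ → ℂ) (r : Polynomial ℂ), IsZeroAtImInfty G ∧
      (∀ z : ℍ, G ((N : ℝ) +ᵥ z) = G z) ∧
      ∀ z : ℍ, (F ∣[-(w : ℤ)] g) z = G z + r.eval (z : ℂ) := by
    intro g
    obtain ⟨Ag, hAg⟩ := exists_iterPrim hN _ (cuspidal_slash N f g)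
    obtain ⟨r, hr⟩ := slash_iterPrim_eq_add_polynomial w ⇑f g hA hAg
    refine ⟨fun τ => Ag (w + 1) (τ : ℂ), r, ?_, ?_, hr⟩
    · exact (hAg.cusp (w + 1)).zero.comp tendsto_coe_atImInfty
    · intro z
      have := (hAg.cusp (w + 1)).per (z : ℂ)
      simp only [coe_vadd]
      rw [add_comm ((N : ℝ) : ℂ) (z : ℂ)]
      exact this
  -- conclude that `F` is constant
  have hconst : ∃ c : ℂ, ∀ z : ℂ, 0 < z.im → A (w + 1) z = c := by
    rcases Nat.eq_zero_or_pos w with hw | hw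
    · subst hw
      simp only [Nat.cast_zero, neg_zero] at hinv hdef
      obtain ⟨c, hc⟩ := eq_const_of_weight_zero_of_polynomial_defect N F hol hinv hdef
      exact ⟨c, fun z hz => congrFun hc ⟨z, hz⟩⟩
    · have hk : -(w : ℤ) < 0 := by
        have : (0 : ℤ) < w := by exact_mod_cast hw
        omega
      have h0 := eq_zero_of_neg_weight_of_polynomial_defect N (-(w : ℤ)) hk F hol hinv hdef
      exact ⟨0, fun z hz => congrFun h0 ⟨z, hz⟩⟩
  obtain ⟨c, hc⟩ := hconst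
  have hf0 := hA.eq_zero_of_const w c hc
  ext τ
  have := hf0 (τ : ℂ) τ.im_pos
  simpa using this

end Fermat.Agent.S22
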