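import Mathlib
import Fermat.Agent.S22.Bol
import Fermat.Agent.S22.EichlerRules
import Fermat.Agent.S22.PeriodLatticeDefs

/-!
# S22, P4 (owner: helper21): non-degeneracy of the period constants / the period lattice separates

Bridge between `Bol.lean` (kernel / period polynomial / `eq_zero_of_periodPolynomial_eq_zero`) and
the canonical period constants `periodConst` of `EichlerDefs.lean`:

* `Nondeg.kernel_eq_eichP` : `kernel A w t z = eichP g (linW w (1, -t)) z`.
* `Nondeg.eichP_linW_smul` : homogeneity of degree `w` in the weight vector.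
* `Nondeg.periodPoly`, `Nondeg.periodPoly_eval`, `Nondeg.periodPoly_eq_zero_of_periodConst`:
  the period polynomial vanishes at every integer `n` with `c n + d ≠ 0` (there the weight vector
  `(c n + d, -(a n + b))` is integral and is mapped to `(1, -n)` by `γ`), hence identically.
* `eq_zero_of_periodConst_eq_zero`, `periodLattice_separating` : the final statements.
-/

set_option autoImplicit false

open Complex Filter UpperHalfPlane ModularForm Polynomial CongruenceSubgroup
open scoped Topology MatrixGroups ModularForm Manifold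

namespace Fermat.Agent.S22

namespace Nondeg

open Prim Matrix.SpecialLinearGroup


/-- the kernel decays in vertical strips -/
theorem kernel_stripDecay {h : ℝ} (hh : 0 < h) (w : ℕ) :
    ∀ {g : ℂ → ℂ} {A : ℕ → ℂ → ℂ} (_ : IterPrim h g A) (t : ℂ),
      Prim.StripDecay (fun z => kernel A w t z) := by
  induction w with
  | zero =>
    intro g A hA t
    simpa [kernel_zero] using (hA.cusp 1).stripDecay hh
  | succ w ih =>
    intro g A hA t
    have h1 : Prim.StripDecay (fun z => ((X - C t) ^ (w + 1) : ℂ[X]).eval z * A 1 z) :=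
      ((hA.cusp 1).stripDecay hh).polynomial_mul _
    have h2 := (ih hA.shift t).const_mul ((w : ℂ) + 1)
    have h3 := h1.sub h2
    refine h3.congr_upper (fun z _ => ?_)
    simp [kernel_succ]

/-- the kernel is the Eichler integral with weight `(X - t)^w` -/
theorem kernel_eq_eichP {h : ℝ} (hh : 0 < h) (w : ℕ) {g : ℂ → ℂ} {A : ℕ → ℂ → ℂ}
    (hA : IterPrim h g A) (hg : IsCuspidalFun g) (t : ℂ) {z : ℂ} (hz : 0 < z.im) :
    kernel A w t z = eichP g (linW w (1, -t)) z := by
  refine eichP_unique hg (linW w (1, -t)) (E := fun z => kernel A w t z) (fun z hz => ?_) ?_ z hz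
  · have := kernel_hasDerivAt w hA t z hz
    rw [hA.zero] at this
    refine this.congr_deriv ?_
    rw [linW_eval]
    ring
  · have := stripDecay_tendsto_affine (kernel_stripDecay hh w hA t) (a := 1) (d := 1) 0
      one_pos one_pos
    simpa using this

/-- homogeneity of the Eichler integral in the weight vector -/
theorem eichP_linW_smul {g : ℂ → ℂ} (hg : IsCuspidalFun g) (w : ℕ) (c : ℂ) (v : ℂ × ℂ) {z : ℂ}
    (hz : 0 < z.im) : eichP g (linW w (c * v.1, c * v.2)) z = c ^ w * eichP g (linW w v) z := by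
  have : linW w (c * v.1, c * v.2) = (c ^ w) • linW w v := by
    simp only [linW, smul_eq_C_mul]
    rw [C_pow, ← mul_pow]
    congr 1
    simp only [C_mul]
    ring
  rw [this, eichP_smul_weight hg _ _ hz]


/-- The period polynomial `t ↦ (c t + d)^w K[A1](γ t, γ z₀) - K[Ag](t, z₀)`. -/
noncomputable def periodPoly (γ : SL(2, ℤ)) (A1 Ag : ℕ → ℂ → ℂ) (w : ℕ) (z₀ : ℂ) : ℂ[X] :=
  transPoly (γ 0 0 : ℂ) (γ 0 1 : ℂ) (γ 1 0 : ℂ) (γ 1 1 : ℂ) A1 w (mob γ z₀) - kernelPoly Ag w z₀

theorem periodPoly_eval (γ : SL(2, ℤ)) (A1 Ag : ℕ → ℂ → ℂ) (w : ℕ) (z₀ t : ℂ)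
    (ht : den γ t ≠ 0) :
    (periodPoly γ A1 Ag w z₀).eval t
      = den γ t ^ w * kernel A1 w (mob γ t) (mob γ z₀) - kernel Ag w t z₀ := by
  rw [periodPoly, eval_sub, transPoly_eval _ _ _ _ w A1 _ t ht, kernelPoly_eval]
  rfl

/-- the integer points where the denominator vanishes form a finite set -/
theorem finite_den_eq_zero (γ : SL(2, ℤ)) : {n : ℤ | den γ (n : ℂ) = 0}.Finite := by
  apply Set.Subsingleton.finite
  intro n hn m hm
  simp only [Set.mem_ofPred_eq, den] at hn hm
  have hdet := det_eq_one_complex γ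
  by_cases hc : (γ 1 0 : ℂ) = 0
  · exfalso
    rw [hc, zero_mul, zero_add] at hn
    rw [hc, hn] at hdet
    simp at hdet
  · have : (γ 1 0 : ℂ) * ((n : ℂ) - (m : ℂ)) = 0 := by linear_combination hn - hm
    have h2 := (mul_eq_zero.mp this).resolve_left hc
    have h3 : (n : ℂ) = (m : ℂ) := sub_eq_zero.mp h2
    exact_mod_cast h3

theorem periodPoly_eq_zero_of_periodConst (N : ℕ) [NeZero N] (w : ℕ)
    (f : CuspForm (Gamma0 N) ((w : ℤ) + 2)) {A : ℕ → ℂ → ℂ}
    (hA : IterPrim (N : ℝ) ((⇑f) ∘ ofComplex) A) (γ : SL(2, ℤ)) (hγ : γ ∈ Gamma0 N)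
    (h : ∀ v, IsIntVec v → periodConst w ⇑f γ v = 0) :
    periodPoly γ A A w Complex.I = 0 := by
  have hN : (0 : ℝ) < N := by exact_mod_cast Nat.pos_of_ne_zero (NeZero.ne N)
  have hg : IsCuspidalFun ((⇑f) ∘ ofComplex) := cuspForm_class f
  have hI : (0 : ℝ) < Complex.I.im := by simp
  have hinv : (⇑f) ∣[((w : ℤ) + 2)] (mapGL ℝ γ : GL (Fin 2) ℝ) = ⇑f :=
    SlashInvariantFormClass.slash_action_eq f _ ⟨γ, hγ, rfl⟩
  apply Polynomial.eq_zero_of_infinite_isRoot
  have hinf : ((fun n : ℤ => (n : ℂ)) '' {n : ℤ | den γ (n : ℂ) = 0}ᶜ).Infinite :=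
    (Set.Finite.infinite_compl (finite_den_eq_zero γ)).image
      (Int.cast_injective (α := ℂ)).injOn
  refine hinf.mono ?_
  rintro _ ⟨n, hn, rfl⟩
  have hden : den γ (n : ℂ) ≠ 0 := hn
  show IsRoot _ _
  rw [IsRoot.def, periodPoly_eval γ A A w Complex.I (n : ℂ) hden,
    kernel_eq_eichP hN w hA hg _ (mob_im_pos γ hI), kernel_eq_eichP hN w hA hg _ hI,
    ← eichP_linW_smul hg w (den γ (n : ℂ)) (1, -mob γ (n : ℂ)) (mob_im_pos γ hI)]
  -- the integral vector
  set v : ℂ × ℂ := (((γ 1 0 * n + γ 1 1 : ℤ) : ℂ), ((-(γ 0 0 * n + γ 0 1) : ℤ) : ℂ)) with hv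
  have hvint : IsIntVec v := ⟨_, _, rfl⟩
  have hv1 : (den γ (n : ℂ) * (1 : ℂ × ℂ).1, den γ (n : ℂ) * (-mob γ (n : ℂ))) = v := by
    rw [hv]
    ext
    · simp [den]
    · simp only [mob]
      push_cast
      field_simp
  have hv1' : (den γ (n : ℂ) * ((1 : ℂ), -mob γ (n : ℂ)).1,
      den γ (n : ℂ) * ((1 : ℂ), -mob γ (n : ℂ)).2) = v := hv1
  rw [hv1']
  have hvγ : vmul v ((mapGL ℝ γ : GL (Fin 2) ℝ) : Matrix (Fin 2) (Fin 2) ℝ) = (1, -(n : ℂ)) := by
    rw [vmul_mapGL, hv]
    have hdet := det_eq_one_complex γ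
    ext
    · simp only
      push_cast
      linear_combination hdet
    · simp only
      push_cast
      linear_combination (-(n : ℂ)) * hdet
  have hper := eichH_period w rfl ⇑f γ hg hinv v UpperHalfPlane.I
  rw [h v hvint, zero_add, hvγ] at hper
  simp only [eichH] at hper
  have hcoe : ((γ • UpperHalfPlane.I : ℍ) : ℂ) = mob γ Complex.I := by
    rw [← mob_eq_smul]; rfl
  rw [hcoe] at hper
  have hIcoe : ((UpperHalfPlane.I : ℍ) : ℂ) = Complex.I := rfl
  rw [hIcoe] at hper
  rw [hper, sub_self]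

end Nondeg

/-- **Non-degeneracy of the period constants (P4).** A cusp form of weight `w + 2` on `Γ₀(N)`
all of whose period constants (for `g ∈ Γ₀(N)` and integral weight vectors) vanish is zero. -/
theorem eq_zero_of_periodConst_eq_zero (N : ℕ) [NeZero N] (w : ℕ)
    (f : CuspForm (Gamma0 N) ((w : ℤ) + 2))
    (h : ∀ g ∈ Gamma0 N, ∀ v, IsIntVec v → periodConst w ⇑f g v = 0) : f = 0 := by
  have hN : (0 : ℝ) < N := by exact_mod_cast Nat.pos_of_ne_zero (NeZero.ne N)
  obtain ⟨A, hA⟩ := exists_iterPrim hN _ (cuspidal_cuspForm N f)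
  refine eq_zero_of_periodPolynomial_eq_zero N w f hA
    (fun γ hγ t ht => ⟨Complex.I, by simp, ?_⟩)
  rw [← Nondeg.periodPoly_eval γ A A w Complex.I t (den_ne_zero γ ht),
    Nondeg.periodPoly_eq_zero_of_periodConst N w f hA γ hγ (h γ hγ), eval_zero]

/-- The period lattice separates cusp forms. -/
theorem periodLattice_separating (N : ℕ) [NeZero N] (w : ℕ)
    (f : CuspForm (Gamma0 N) ((w : ℤ) + 2))
    (h : ∀ φ ∈ periodLattice N w, φ f = 0) : f = 0 :=
  eq_zero_of_periodConst_eq_zero N w f (fun g hg v hv => by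
    have := h _ (periodFunctional_mem_periodLattice N w hg hv)
    simpa using this)

end Fermat.Agent.S22
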