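-- S22 / P4 (nondegeneracy): shared definitions of the diagonal Eichler integrals. Owner: helper22.
import Fermat.Agent.S22.EichlerDefs

set_option autoImplicit false

open Complex UpperHalfPlane Polynomial

namespace Fermat.Agent.S22

/-- Diagonal Eichler integral `∫_{i∞}^z g(u) (u - z)^m du` of a cuspidal function on `ℂ`. -/
noncomputable def eichD (g : ℂ → ℂ) (m : ℕ) (z : ℂ) : ℂ := eichP g ((X - C z) ^ m) z

/-- The diagonal Eichler integral on `ℍ`: `F(z) = ∫_{i∞}^z f(u) (u - z)^w du`
(`= eichH w f (1, -z) z`). -/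
noncomputable def eichF (w : ℕ) (f : ℍ → ℂ) (z : ℍ) : ℂ := eichH w f (1, -(z : ℂ)) z

end Fermat.Agent.S22
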