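-- S22 (P4a): calculus on `eichP`. For a cuspidal function `g` put
-- `eichDiag g m z := eichP g ((X - C z)^m) z` ("`∫_{i∞}^z g(u) (u - z)^m du`").
-- Then `eichDiag g (m+1)` has derivative `-(m+1) * eichDiag g m z`, `eichDiag g 0` has
-- derivative `g z`, hence `eichDiag g m ≡ 0` on the upper half plane forces `g ≡ 0` there.
import Fermat.Agent.S22.EichlerDefs

set_option autoImplicit false

open Complex Filter UpperHalfPlane Polynomial
open scoped Topology

namespace Fermat.Agent.S22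

/-- Binomial expansion of `(X - C t)^m` in the monomial basis. -/
theorem X_sub_C_pow_expand (m : ℕ) (t : ℂ) :
    (X - C t) ^ m
      = ∑ j ∈ Finset.range (m + 1), ((m.choose j : ℂ) * (-t) ^ (m - j)) • (X : ℂ[X]) ^ j := by
  rw [sub_eq_add_neg, add_pow]
  apply Finset.sum_congr rfl
  intro j _
  rw [← C_neg, ← C_pow, smul_eq_C_mul, C_mul, ← C_eq_natCast]
  ring

/-- `eichP g ((X - C t)^m)` expanded in the primitives `eichP g (X^j)`. -/
theorem eichP_X_sub_C_pow {g : ℂ → ℂ} (hg : IsCuspidalFun g) (m : ℕ) (t : ℂ) {u : ℂ}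
    (hu : 0 < u.im) :
    eichP g ((X - C t) ^ m) u
      = ∑ j ∈ Finset.range (m + 1), (m.choose j : ℂ) * (-t) ^ (m - j) * eichP g (X ^ j) u := by
  rw [X_sub_C_pow_expand, eichP_sum_weight hg _ _ hu]
  apply Finset.sum_congr rfl
  intro j _
  rw [eichP_smul_weight hg _ _ hu]

/-- The diagonal Eichler integral "`∫_{i∞}^z g(u) (u - z)^m du`". -/
noncomputable def eichDiag (g : ℂ → ℂ) (m : ℕ) (z : ℂ) : ℂ :=
  eichP g ((X - C z) ^ m) z

theorem eichDiag_eq_sum {g : ℂ → ℂ} (hg : IsCuspidalFun g) (m : ℕ) {z : ℂ} (hz : 0 < z.im) :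
    eichDiag g m z
      = ∑ j ∈ Finset.range (m + 1), (m.choose j : ℂ) * (-z) ^ (m - j) * eichP g (X ^ j) z :=
  eichP_X_sub_C_pow hg m z hz

/-- The explicit sum (a function defined on all of `ℂ`) agreeing with `eichDiag` on `Im > 0`. -/
noncomputable def eichDiagSum (g : ℂ → ℂ) (m : ℕ) (z : ℂ) : ℂ :=
  ∑ j ∈ Finset.range (m + 1), (m.choose j : ℂ) * (-z) ^ (m - j) * eichP g (X ^ j) z

theorem eichDiag_eq_eichDiagSum {g : ℂ → ℂ} (hg : IsCuspidalFun g) (m : ℕ) {z : ℂ}
    (hz : 0 < z.im) : eichDiag g m z = eichDiagSum g m z :=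
  eichDiag_eq_sum hg m hz

theorem eichDiag_eventuallyEq {g : ℂ → ℂ} (hg : IsCuspidalFun g) (m : ℕ) {z : ℂ}
    (hz : 0 < z.im) : eichDiag g m =ᶠ[𝓝 z] eichDiagSum g m := by
  have hopen : IsOpen {u : ℂ | 0 < u.im} := isOpen_lt continuous_const Complex.continuous_im
  filter_upwards [hopen.mem_nhds hz] with u hu
  exact eichDiag_eq_eichDiagSum hg m hu

/-- Derivative of one term of `eichDiagSum`. -/
theorem hasDerivAt_term {g : ℂ → ℂ} (hg : IsCuspidalFun g) (c : ℂ) (n j : ℕ) {z : ℂ}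
    (hz : 0 < z.im) :
    HasDerivAt (fun u : ℂ => c * (-u) ^ n * eichP g (X ^ j) u)
      (c * ((n : ℂ) * (-z) ^ (n - 1) * (-1)) * eichP g (X ^ j) z
        + c * (-z) ^ n * (g z * z ^ j)) z := by
  have h1 : HasDerivAt (fun u : ℂ => (-u) ^ n) ((n : ℂ) * (-z) ^ (n - 1) * (-1)) z := by
    have h0 : HasDerivAt (fun u : ℂ => -u) (-1) z := (hasDerivAt_id z).neg
    exact h0.fun_pow n
  have h2 : HasDerivAt (eichP g (X ^ j)) (g z * z ^ j) z := by
    have := eichP_hasDerivAt hg (X ^ j) hz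
    simpa using this
  have h3 := (h1.const_mul c).mul h2
  exact h3

theorem eichDiagSum_succ_hasDerivAt {g : ℂ → ℂ} (hg : IsCuspidalFun g) (m : ℕ) {z : ℂ}
    (hz : 0 < z.im) :
    HasDerivAt (eichDiagSum g (m + 1)) (-((m : ℂ) + 1) * eichDiagSum g m z) z := by
  have hsum : HasDerivAt (eichDiagSum g (m + 1))
      (∑ j ∈ Finset.range (m + 1 + 1),
        (((m + 1).choose j : ℂ) * (((m + 1 - j : ℕ) : ℂ) * (-z) ^ (m + 1 - j - 1) * (-1))
            * eichP g (X ^ j) z
          + ((m + 1).choose j : ℂ) * (-z) ^ (m + 1 - j) * (g z * z ^ j))) z := by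
    unfold eichDiagSum
    exact HasDerivAt.fun_sum fun j _ => hasDerivAt_term hg _ _ j hz
  convert hsum using 1
  rw [Finset.sum_add_distrib]
  -- the second sum vanishes: it is `g z * (z + (-z))^(m+1)`
  have hsecond : ∑ j ∈ Finset.range (m + 1 + 1),
      ((m + 1).choose j : ℂ) * (-z) ^ (m + 1 - j) * (g z * z ^ j) = 0 := by
    have hb := add_pow z (-z) (m + 1)
    rw [add_neg_cancel, zero_pow (Nat.succ_ne_zero m)] at hb
    have : ∑ j ∈ Finset.range (m + 1 + 1),
        ((m + 1).choose j : ℂ) * (-z) ^ (m + 1 - j) * (g z * z ^ j)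
        = g z * ∑ j ∈ Finset.range (m + 1 + 1), z ^ j * (-z) ^ (m + 1 - j) * ((m + 1).choose j : ℂ) := by
      rw [Finset.mul_sum]
      apply Finset.sum_congr rfl
      intro j _
      ring
    rw [this, ← hb, mul_zero]
  rw [hsecond, add_zero, Finset.sum_range_succ]
  -- the top term `j = m + 1` vanishes
  have htop : ((m + 1).choose (m + 1) : ℂ)
      * (((m + 1 - (m + 1) : ℕ) : ℂ) * (-z) ^ (m + 1 - (m + 1) - 1) * (-1))
      * eichP g (X ^ (m + 1)) z = 0 := by
    simp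
  rw [htop, add_zero]
  unfold eichDiagSum
  rw [Finset.mul_sum]
  apply Finset.sum_congr rfl
  intro j hj
  have hjm : j ≤ m := Nat.lt_succ_iff.mp (Finset.mem_range.mp hj)
  have hch : ((m.choose j : ℂ)) * ((m : ℂ) + 1) = ((m + 1).choose j : ℂ) * ((m + 1 - j : ℕ) : ℂ) := by
    have := Nat.choose_mul_succ_eq m j
    exact_mod_cast this
  have hexp : m + 1 - j - 1 = m - j := by omega
  rw [hexp]
  linear_combination (-(-z) ^ (m - j) * eichP g (X ^ j) z) * hch

theorem eichDiagSum_zero_hasDerivAt {g : ℂ → ℂ} (hg : IsCuspidalFun g) {z : ℂ}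
    (hz : 0 < z.im) : HasDerivAt (eichDiagSum g 0) (g z) z := by
  have h2 : HasDerivAt (eichP g (X ^ 0)) (g z * z ^ 0) z := by
    have := eichP_hasDerivAt hg (X ^ 0) hz
    simpa using this
  have hfun : eichDiagSum g 0 = eichP g (X ^ 0) := by
    funext u
    simp [eichDiagSum]
  rw [hfun]
  simpa using h2

/-- `eichDiag g (m+1)` has derivative `-(m+1) * eichDiag g m z` on the upper half plane. -/
theorem eichDiag_succ_hasDerivAt {g : ℂ → ℂ} (hg : IsCuspidalFun g) (m : ℕ) {z : ℂ}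
    (hz : 0 < z.im) :
    HasDerivAt (eichDiag g (m + 1)) (-((m : ℂ) + 1) * eichDiag g m z) z := by
  rw [eichDiag_eq_eichDiagSum hg m hz]
  exact (eichDiagSum_succ_hasDerivAt hg m hz).congr_of_eventuallyEq
    (eichDiag_eventuallyEq hg (m + 1) hz)

/-- `eichDiag g 0` has derivative `g z` on the upper half plane. -/
theorem eichDiag_zero_hasDerivAt {g : ℂ → ℂ} (hg : IsCuspidalFun g) {z : ℂ}
    (hz : 0 < z.im) : HasDerivAt (eichDiag g 0) (g z) z :=
  (eichDiagSum_zero_hasDerivAt hg hz).congr_of_eventuallyEq (eichDiag_eventuallyEq hg 0 hz)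

theorem eichDiag_differentiableAt {g : ℂ → ℂ} (hg : IsCuspidalFun g) (m : ℕ) {z : ℂ}
    (hz : 0 < z.im) : DifferentiableAt ℂ (eichDiag g m) z := by
  cases m with
  | zero => exact (eichDiag_zero_hasDerivAt hg hz).differentiableAt
  | succ m => exact (eichDiag_succ_hasDerivAt hg m hz).differentiableAt

theorem eichDiag_differentiableOn {g : ℂ → ℂ} (hg : IsCuspidalFun g) (m : ℕ) :
    DifferentiableOn ℂ (eichDiag g m) {z : ℂ | 0 < z.im} :=
  fun _ hz => (eichDiag_differentiableAt hg m hz).differentiableWithinAt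

/-- A function vanishing on the upper half plane has zero derivative there. -/
theorem deriv_eq_zero_of_forall_eq_zero {F : ℂ → ℂ} {F' : ℂ} {z : ℂ} (hz : 0 < z.im)
    (hF : HasDerivAt F F' z) (h0 : ∀ u : ℂ, 0 < u.im → F u = 0) : F' = 0 := by
  have hopen : IsOpen {u : ℂ | 0 < u.im} := isOpen_lt continuous_const Complex.continuous_im
  have hev : F =ᶠ[𝓝 z] fun _ => (0 : ℂ) := by
    filter_upwards [hopen.mem_nhds hz] with u hu
    exact h0 u hu
  have h1 : HasDerivAt (fun _ : ℂ => (0 : ℂ)) F' z := hF.congr_of_eventuallyEq hev.symm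
  exact h1.unique (hasDerivAt_const z (0 : ℂ))

/-- **P4a.** If the diagonal Eichler integral `eichDiag g m` vanishes identically on the upper
half plane, then so does `g`. -/
theorem eq_zero_of_eichDiag_eq_zero {g : ℂ → ℂ} (hg : IsCuspidalFun g) (m : ℕ)
    (h : ∀ z : ℂ, 0 < z.im → eichDiag g m z = 0) : ∀ z : ℂ, 0 < z.im → g z = 0 := by
  induction m with
  | zero =>
    intro z hz
    exact deriv_eq_zero_of_forall_eq_zero hz (eichDiag_zero_hasDerivAt hg hz) h
  | succ m ih =>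
    apply ih
    intro z hz
    have h0 := deriv_eq_zero_of_forall_eq_zero hz (eichDiag_succ_hasDerivAt hg m hz) h
    have hne : -((m : ℂ) + 1) ≠ 0 := by
      rw [neg_ne_zero]
      exact_mod_cast Nat.succ_ne_zero m
    exact (mul_eq_zero.mp h0).resolve_left hne

/-! ### Link with the linear-form weights `linW` and `eichH` -/

theorem linW_one_neg (w : ℕ) (t : ℂ) : linW w ((1 : ℂ), -t) = (X - C t) ^ w := by
  simp [linW, sub_eq_add_neg]

/-- `F z = eichH w f (1, -z) z` is the diagonal Eichler integral of `f ∘ ofComplex`. -/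
theorem eichH_one_neg_eq_eichDiag (w : ℕ) (f : ℍ → ℂ) (z : ℍ) :
    eichH w f ((1 : ℂ), -(z : ℂ)) z = eichDiag (f ∘ ofComplex) w (z : ℂ) := by
  unfold eichH eichDiag
  rw [linW_one_neg]

/-- **P4a, `ℍ`-form.** If `z ↦ eichH w f (1, -z) z` vanishes identically on `ℍ` and
`f ∘ ofComplex` is cuspidal then `f = 0`. -/
theorem eq_zero_of_eichH_diag_eq_zero (w : ℕ) (f : ℍ → ℂ) (hf : IsCuspidalFun (f ∘ ofComplex))
    (h : ∀ z : ℍ, eichH w f ((1 : ℂ), -(z : ℂ)) z = 0) : f = 0 := by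
  funext z
  have key := eq_zero_of_eichDiag_eq_zero hf w (fun u hu => by
    have := h ⟨u, hu⟩
    rwa [eichH_one_neg_eq_eichDiag] at this) (z : ℂ) z.2
  simpa using key

end Fermat.Agent.S22
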