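-- S22 (P4c input): the diagonal Eichler integral `eichDiag g m` of a cuspidal function `g`
-- (holomorphic, `h`-periodic, zero at `i∞`) agrees on the upper half plane with a cuspidal
-- function of the same period.  Hence `z ↦ eichH w f (1, -z) z` is `h`-periodic, zero at `i∞`
-- and holomorphic whenever `f ∘ ofComplex` is cuspidal of period `h`.
import Fermat.Agent.S22.EichlerDeriv
import Fermat.Agent.S22.EichlerDiag

set_option autoImplicit false

open Complex Filter UpperHalfPlane Polynomial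
open scoped Topology Manifold

namespace Fermat.Agent.S22.DiagCuspidal

theorem cuspidal_isCuspidalFun {h : ℝ} (hh : 0 < h) {g : ℂ → ℂ} (hg : Prim.Cuspidal h g) :
    IsCuspidalFun g :=
  ⟨hg.diff, ⟨h, hh, hg.per⟩, hg.zero⟩

theorem cuspidal_const_mul {h : ℝ} {g : ℂ → ℂ} (hg : Prim.Cuspidal h g) (c : ℂ) :
    Prim.Cuspidal h (fun z => c * g z) where
  diff := hg.diff.const_mul c
  per := fun z => by simp only; rw [hg.per z]
  zero := by
    have := hg.zero.const_mul c
    simpa [ZeroAtFilter] using this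

/-- `eichDiagSum g m` decays in vertical strips. -/
theorem eichDiagSum_stripDecay {g : ℂ → ℂ} (hg : IsCuspidalFun g) (m : ℕ) :
    Prim.StripDecay (eichDiagSum g m) := by
  unfold eichDiagSum
  refine Prim.StripDecay.sum _ fun j _ => ?_
  have h1 := (eichP_stripDecay hg (X ^ j)).polynomial_mul (C (m.choose j : ℂ) * (-X) ^ (m - j))
  refine h1.congr_upper fun z _ => ?_
  simp

theorem eichDiagSum_tendsto_vertical {g : ℂ → ℂ} (hg : IsCuspidalFun g) (m : ℕ) :
    Tendsto (fun t : ℝ => eichDiagSum g m ((t : ℂ) * Complex.I)) atTop (𝓝 0) := by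
  have := stripDecay_tendsto_affine (eichDiagSum_stripDecay hg m) (a := 1) (d := 1) 0
    one_pos one_pos
  simpa using this

theorem eichDiag_tendsto_vertical {g : ℂ → ℂ} (hg : IsCuspidalFun g) (m : ℕ) :
    Tendsto (fun t : ℝ => eichDiag g m ((t : ℂ) * Complex.I)) atTop (𝓝 0) := by
  refine (eichDiagSum_tendsto_vertical hg m).congr' ?_
  filter_upwards [eventually_gt_atTop 0] with t ht
  have him : 0 < ((t : ℂ) * Complex.I).im := by simpa using ht
  exact (eichDiag_eq_eichDiagSum hg m him).symm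

theorem cuspidal_tendsto_vertical {h : ℝ} (hh : 0 < h) {G : ℂ → ℂ}
    (hG : Prim.Cuspidal h G) :
    Tendsto (fun t : ℝ => G ((t : ℂ) * Complex.I)) atTop (𝓝 0) := by
  have := stripDecay_tendsto_affine (hG.stripDecay hh) (a := 1) (d := 1) 0 one_pos one_pos
  simpa using this

/-- **Main lemma.** For `g` cuspidal of period `h`, `eichDiag g m` agrees on the upper half
plane with a cuspidal function of period `h`. -/
theorem eichDiag_cuspidal {h : ℝ} (hh : 0 < h) {g : ℂ → ℂ} (hg : Prim.Cuspidal h g) (m : ℕ) :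
    ∃ G : ℂ → ℂ, Prim.Cuspidal h G ∧ ∀ z : ℂ, 0 < z.im → eichDiag g m z = G z := by
  have hgc : IsCuspidalFun g := cuspidal_isCuspidalFun hh hg
  induction m with
  | zero =>
    obtain ⟨G, hGc, hG⟩ := hg.exists_primitive hh
    refine ⟨G, hGc, ?_⟩
    exact Prim.eqOn_of_hasDerivAt_of_tendsto (fun z hz => eichDiag_zero_hasDerivAt hgc hz) hG
      (eichDiag_tendsto_vertical hgc 0) (cuspidal_tendsto_vertical hh hGc)
  | succ m ih =>
    obtain ⟨Gm, hGmc, hGm⟩ := ih
    obtain ⟨G', hG'c, hG'⟩ := hGmc.exists_primitive hh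
    refine ⟨fun z => -((m : ℂ) + 1) * G' z, cuspidal_const_mul hG'c _, ?_⟩
    refine Prim.eqOn_of_hasDerivAt_of_tendsto (φ := fun z => -((m : ℂ) + 1) * Gm z)
      (fun z hz => ?_) (fun z hz => (hG' z hz).const_mul _)
      (eichDiag_tendsto_vertical hgc (m + 1)) (cuspidal_tendsto_vertical hh (cuspidal_const_mul hG'c _))
    rw [← hGm z hz]
    exact eichDiag_succ_hasDerivAt hgc m hz

/-- `eichDiag g m` is `h`-periodic on the upper half plane. -/
theorem eichDiag_periodic {h : ℝ} (hh : 0 < h) {g : ℂ → ℂ} (hg : Prim.Cuspidal h g) (m : ℕ)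
    {z : ℂ} (hz : 0 < z.im) : eichDiag g m (z + h) = eichDiag g m z := by
  obtain ⟨G, hGc, hG⟩ := eichDiag_cuspidal hh hg m
  have hz' : 0 < (z + (h : ℂ)).im := by simpa using hz
  rw [hG z hz, hG _ hz', hGc.per z]

/-! ### The `ℍ`-versions for `F z = eichH w f (1, -z) z` -/

theorem eichF_eq_eichDiag (w : ℕ) (f : ℍ → ℂ) (z : ℍ) :
    eichF w f z = eichDiag (f ∘ ofComplex) w (z : ℂ) :=
  eichH_one_neg_eq_eichDiag w f z

theorem eichF_comp_ofComplex (w : ℕ) (f : ℍ → ℂ) {u : ℂ} (hu : 0 < u.im) :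
    (eichF w f ∘ ofComplex) u = eichDiag (f ∘ ofComplex) w u := by
  simp only [Function.comp_apply, eichF_eq_eichDiag, ofComplex_apply_of_im_pos hu]

theorem eichF_mdifferentiable (w : ℕ) (f : ℍ → ℂ) (hf : IsCuspidalFun (f ∘ ofComplex)) :
    MDifferentiable 𝓘(ℂ) 𝓘(ℂ) (eichF w f) := by
  rw [UpperHalfPlane.mdifferentiable_iff]
  refine (eichDiag_differentiableOn hf w).congr fun u hu => ?_
  exact eichF_comp_ofComplex w f hu

theorem eichF_periodic {h : ℝ} (hh : 0 < h) (w : ℕ) (f : ℍ → ℂ)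
    (hf : Prim.Cuspidal h (f ∘ ofComplex)) (z : ℍ) :
    eichF w f (h +ᵥ z) = eichF w f z := by
  rw [eichF_eq_eichDiag, eichF_eq_eichDiag]
  have : (((h +ᵥ z : ℍ)) : ℂ) = (z : ℂ) + (h : ℂ) := by
    rw [UpperHalfPlane.coe_vadd]; ring
  rw [this]
  exact eichDiag_periodic hh hf w z.2

theorem eichF_isZeroAtImInfty {h : ℝ} (hh : 0 < h) (w : ℕ) (f : ℍ → ℂ)
    (hf : Prim.Cuspidal h (f ∘ ofComplex)) : IsZeroAtImInfty (eichF w f) := by
  obtain ⟨G, hGc, hG⟩ := eichDiag_cuspidal hh hf w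
  have h1 : Tendsto (fun z : ℍ => G (z : ℂ)) atImInfty (𝓝 0) := by
    refine hGc.zero.comp ?_
    rw [tendsto_comap_iff]
    exact tendsto_comap
  refine h1.congr fun z => ?_
  rw [eichF_eq_eichDiag, hG _ z.2]

/-- `eichF w f = 0` forces `f = 0` (for `f ∘ ofComplex` cuspidal). -/
theorem eq_zero_of_eichF_eq_zero (w : ℕ) (f : ℍ → ℂ) (hf : IsCuspidalFun (f ∘ ofComplex))
    (h : eichF w f = 0) : f = 0 :=
  eq_zero_of_eichH_diag_eq_zero w f hf fun z => congrFun h z

end Fermat.Agent.S22.DiagCuspidal
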