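/-
S22 helper (owner: helper95).  P4c: defect decomposition.  For a cusp form `f` of weight `w + 2` on
`Γ₀(N)` and ANY `σ ∈ SL(2, ℤ)`, the weight `-w` slash of the diagonal Eichler integral
`eichF w f` by `σ` is the diagonal Eichler integral of `f ∣[k] σ` (which is `N`-periodic and zero
at `i∞`) plus a polynomial.
-/
import Mathlib
import Fermat.Agent.S22.EichlerDiag
import Fermat.Agent.S22.EichlerRules
import Fermat.Agent.S22.Invariance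
import Fermat.Agent.S22.EichlerDiagCuspidal
import Fermat.Agent.S22.Bol

set_option autoImplicit false

open Complex Filter Topology UpperHalfPlane Polynomial CongruenceSubgroup
open scoped MatrixGroups ModularForm Manifold
open Matrix.SpecialLinearGroup (mapGL)

noncomputable section

namespace Fermat.Agent.S22.Defect

open Fermat.Agent.S22

/-- `(1, -σz) · σ = (cz + d)⁻¹ • (1, -z)`. -/
theorem vmul_one_neg_smul (σ : SL(2, ℤ)) (z : ℍ) :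
    vmul (1, -((σ • z : ℍ) : ℂ)) ((mapGL ℝ σ : GL (Fin 2) ℝ) : Matrix (Fin 2) (Fin 2) ℝ)
      = ((denom σ z)⁻¹ * 1, (denom σ z)⁻¹ * (-(z : ℂ))) := by
  have hden : denom σ z ≠ 0 := denom_ne_zero σ z
  rw [vmul_mapGL]
  have hcoe : ((σ • z : ℍ) : ℂ) = num σ z / denom σ z := by
    rw [UpperHalfPlane.specialLinearGroup_apply]
    rfl
  have hdet : ((σ 0 0 : ℤ) : ℂ) * ((σ 1 1 : ℤ) : ℂ) - ((σ 0 1 : ℤ) : ℂ) * ((σ 1 0 : ℤ) : ℂ) = 1 := by
    have := σ.det_coe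
    rw [Matrix.det_fin_two] at this
    exact_mod_cast this
  have hnum : num σ z = ((σ 0 0 : ℤ) : ℂ) * (z : ℂ) + ((σ 0 1 : ℤ) : ℂ) := by
    simp [num]
  have hdn : denom σ z = ((σ 1 0 : ℤ) : ℂ) * (z : ℂ) + ((σ 1 1 : ℤ) : ℂ) := by
    simp [denom]
  have hv1 : (1 : ℂ) * ((σ 0 0 : ℤ) : ℂ) + -((σ • z : ℍ) : ℂ) * ((σ 1 0 : ℤ) : ℂ)
      = (denom σ z)⁻¹ * 1 := by
    rw [hcoe, hnum]
    field_simp
    rw [hdn]
    linear_combination hdet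
  have hv2 : (1 : ℂ) * ((σ 0 1 : ℤ) : ℂ) + -((σ • z : ℍ) : ℂ) * ((σ 1 1 : ℤ) : ℂ)
      = (denom σ z)⁻¹ * (-(z : ℂ)) := by
    rw [hcoe, hnum]
    field_simp
    rw [hdn]
    linear_combination (-(z : ℂ)) * hdet
  simp only [hv1, hv2]

/-- `(cz + d) • ((1, -σz) · σ) = (1, -z)` and `(cz+d) • (1, -σz) = (cz + d, -(az + b))`. -/
theorem denom_mul_smul (σ : SL(2, ℤ)) (z : ℍ) :
    denom σ z * -((σ • z : ℍ) : ℂ) = -(num σ z) := by
  have hden : denom σ z ≠ 0 := denom_ne_zero σ z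
  have hcoe : ((σ • z : ℍ) : ℂ) = num σ z / denom σ z := by
    rw [UpperHalfPlane.specialLinearGroup_apply]
    rfl
  rw [hcoe]
  field_simp

/-- The general transformation rule with the constant made explicit. -/
theorem eichH_smul_SL_explicit (w : ℕ) {k : ℤ} (hk : k = (w : ℤ) + 2) (f : ℍ → ℂ) (σ : SL(2, ℤ))
    (hf : IsCuspidalFun (f ∘ ofComplex))
    (hfσ : IsCuspidalFun ((f ∣[k] (mapGL ℝ σ : GL (Fin 2) ℝ)) ∘ ofComplex)) (v : ℂ × ℂ) (z : ℍ) :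
    eichH w f v (σ • z) =
      (eichH w f v (σ • UpperHalfPlane.I)
        - eichH w (f ∣[k] (mapGL ℝ σ : GL (Fin 2) ℝ))
            (vmul v ((mapGL ℝ σ : GL (Fin 2) ℝ) : Matrix (Fin 2) (Fin 2) ℝ)) UpperHalfPlane.I)
      + eichH w (f ∣[k] (mapGL ℝ σ : GL (Fin 2) ℝ))
          (vmul v ((mapGL ℝ σ : GL (Fin 2) ℝ) : Matrix (Fin 2) (Fin 2) ℝ)) z := by
  obtain ⟨C, hC⟩ := eichH_smul_SL w hk f σ hf hfσ v
  rw [hC z, hC UpperHalfPlane.I]
  ring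

/-- The polynomial defect. -/
def defectPoly (w : ℕ) (A B : ℕ → ℂ) (a b c d : ℂ) : ℂ[X] :=
  ∑ j ∈ Finset.range (w + 1),
      C ((w.choose j : ℂ) * A j) * ((C c * X + C d) ^ j * (-(C a * X + C b)) ^ (w - j))
    - ∑ j ∈ Finset.range (w + 1), C ((w.choose j : ℂ) * B j) * (-X) ^ (w - j)

theorem defectPoly_eval (w : ℕ) (A B : ℕ → ℂ) (a b c d z : ℂ) :
    (defectPoly w A B a b c d).eval z =
      ∑ j ∈ Finset.range (w + 1),
          ((w.choose j : ℂ) * A j) * ((c * z + d) ^ j * (-(a * z + b)) ^ (w - j))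
        - ∑ j ∈ Finset.range (w + 1), ((w.choose j : ℂ) * B j) * (-z) ^ (w - j) := by
  simp [defectPoly, eval_finsetSum]

/-- **P4c (pointwise form).** -/
theorem eichF_smul_eq_add_defect (w : ℕ) {k : ℤ} (hk : k = (w : ℤ) + 2) (f : ℍ → ℂ) (σ : SL(2, ℤ))
    (hf : IsCuspidalFun (f ∘ ofComplex))
    (hfσ : IsCuspidalFun ((f ∣[k] (mapGL ℝ σ : GL (Fin 2) ℝ)) ∘ ofComplex)) :
    ∃ r : ℂ[X], ∀ z : ℍ, denom σ z ^ w * eichF w f (σ • z) =
      eichF w (f ∣[k] (mapGL ℝ σ : GL (Fin 2) ℝ)) z + r.eval (z : ℂ) := by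
  set f' := f ∣[k] (mapGL ℝ σ : GL (Fin 2) ℝ) with hf'
  set A : ℕ → ℂ := fun j => eichP (f ∘ ofComplex) (X ^ j) ((σ • UpperHalfPlane.I : ℍ) : ℂ) with hA
  set B : ℕ → ℂ := fun j => eichP (f' ∘ ofComplex) (X ^ j) ((UpperHalfPlane.I : ℍ) : ℂ) with hB
  refine ⟨defectPoly w A B ((σ 0 0 : ℤ) : ℂ) ((σ 0 1 : ℤ) : ℂ) ((σ 1 0 : ℤ) : ℂ) ((σ 1 1 : ℤ) : ℂ),
    fun z => ?_⟩
  have hden : denom σ z ≠ 0 := denom_ne_zero σ z
  have hnum : num σ z = ((σ 0 0 : ℤ) : ℂ) * (z : ℂ) + ((σ 0 1 : ℤ) : ℂ) := by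
    simp [num]
  have hdn : denom σ z = ((σ 1 0 : ℤ) : ℂ) * (z : ℂ) + ((σ 1 1 : ℤ) : ℂ) := by
    simp [denom]
  -- step 1: the explicit rule at `v = (1, -σz)`
  have h1 := eichH_smul_SL_explicit w hk f σ hf hfσ (1, -((σ • z : ℍ) : ℂ)) z
  rw [vmul_one_neg_smul] at h1
  -- homogeneity
  have hs1 := Invariance.eichH_smul_vec w hfσ (denom σ z)⁻¹ (1, -(z : ℂ)) z
  have hs2 := Invariance.eichH_smul_vec w hfσ (denom σ z)⁻¹ (1, -(z : ℂ)) UpperHalfPlane.I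
  simp only at hs1 hs2
  rw [hs1, hs2] at h1
  -- homogeneity for the first constant term
  have hs3 := Invariance.eichH_smul_vec w hf (denom σ z) (1, -((σ • z : ℍ) : ℂ))
    (σ • UpperHalfPlane.I)
  simp only at hs3
  rw [mul_one, denom_mul_smul] at hs3
  -- expansions
  have he1 := Invariance.eichH_expand w hf (denom σ z, -(num σ z)) (σ • UpperHalfPlane.I)
  have he2 := Invariance.eichH_expand w hfσ (1, -(z : ℂ)) UpperHalfPlane.I
  simp only at he1 he2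
  rw [defectPoly_eval]
  have hF : eichF w f (σ • z) = eichH w f (1, -((σ • z : ℍ) : ℂ)) (σ • z) := rfl
  have hF' : eichF w f' z = eichH w f' (1, -(z : ℂ)) z := rfl
  rw [hF, h1, hF']
  have hpw : denom σ z ^ w * ((denom σ z)⁻¹) ^ w = 1 := by
    rw [← mul_pow, mul_inv_cancel₀ hden, one_pow]
  have key : denom σ z ^ w * eichH w f (1, -((σ • z : ℍ) : ℂ)) (σ • UpperHalfPlane.I)
      = ∑ j ∈ Finset.range (w + 1), ((w.choose j : ℂ) * A j) *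
          ((((σ 1 0 : ℤ) : ℂ) * (z : ℂ) + ((σ 1 1 : ℤ) : ℂ)) ^ j *
            (-(((σ 0 0 : ℤ) : ℂ) * (z : ℂ) + ((σ 0 1 : ℤ) : ℂ))) ^ (w - j)) := by
    rw [← hs3, he1, hnum, hdn]
    refine Finset.sum_congr rfl fun j _ => ?_
    simp only [hA]
    ring
  have key2 : eichH w f' (1, -(z : ℂ)) UpperHalfPlane.I
      = ∑ j ∈ Finset.range (w + 1), ((w.choose j : ℂ) * B j) * (-(z : ℂ)) ^ (w - j) := by
    rw [he2]
    refine Finset.sum_congr rfl fun j _ => ?_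
    simp only [hB, one_pow]
    ring
  rw [← key, ← key2]
  linear_combination (eichH w f' (1, -(z : ℂ)) z - eichH w f' (1, -(z : ℂ)) UpperHalfPlane.I) * hpw

/-- **P4c (lemmas row 33).** -/
theorem eichF_defect {N : ℕ} [NeZero N] (w : ℕ) (f : CuspForm (Gamma0 N) ((w : ℤ) + 2))
    (σ : SL(2, ℤ)) :
    ∃ (G : ℍ → ℂ) (r : Polynomial ℂ), IsZeroAtImInfty G ∧ (∀ z : ℍ, G ((N : ℝ) +ᵥ z) = G z) ∧
      ∀ z : ℍ, (eichF w ⇑f ∣[-(w : ℤ)] σ) z = G z + r.eval (z : ℂ) := by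
  have hf : IsCuspidalFun (⇑f ∘ ofComplex) := cuspForm_class f
  have hfσ : IsCuspidalFun ((⇑f ∣[((w : ℤ) + 2)] (mapGL ℝ σ : GL (Fin 2) ℝ)) ∘ ofComplex) :=
    cuspForm_slash_mapGL_class f σ
  have hcusp : Prim.Cuspidal (N : ℝ)
      ((⇑f ∣[((w : ℤ) + 2)] (mapGL ℝ σ : GL (Fin 2) ℝ)) ∘ ofComplex) := cuspidal_slash N f σ
  have hN : (0 : ℝ) < N := by exact_mod_cast Nat.pos_of_ne_zero (NeZero.ne N)
  obtain ⟨r, hr⟩ := eichF_smul_eq_add_defect w rfl ⇑f σ hf hfσ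
  refine ⟨eichF w (⇑f ∣[((w : ℤ) + 2)] (mapGL ℝ σ : GL (Fin 2) ℝ)), r,
    DiagCuspidal.eichF_isZeroAtImInfty hN w _ hcusp,
    fun z => DiagCuspidal.eichF_periodic hN w _ hcusp z, fun z => ?_⟩
  rw [ModularForm.SL_slash_apply, neg_neg, zpow_natCast, mul_comm]
  exact hr z

/-- MDifferentiability of `eichF` for cusp forms (lemmas row 33, first statement). -/
theorem eichF_mdifferentiable {N : ℕ} [NeZero N] (w : ℕ)
    (f : CuspForm (Gamma0 N) ((w : ℤ) + 2)) : MDifferentiable 𝓘(ℂ) 𝓘(ℂ) (eichF w ⇑f) :=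
  DiagCuspidal.eichF_mdifferentiable w ⇑f (cuspForm_class f)

end Fermat.Agent.S22.Defect
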