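-- S22 / P4c: the diagonal Eichler integral `eichF w f`, slashed in weight `-w` by any
-- `σ ∈ SL(2, ℤ)`, is the sum of an `N`-periodic function vanishing at `i∞` and a polynomial.
-- Owner: helper16.
import Fermat.Agent.S22.EichlerDiag
import Fermat.Agent.S22.EichlerRules
import Fermat.Agent.S22.NegWeight

set_option autoImplicit false

open Complex Filter UpperHalfPlane Polynomial CongruenceSubgroup
open scoped Topology MatrixGroups ModularForm Manifold

namespace Fermat.Agent.S22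

namespace EichlerDefect

/-! ### Binomial expansions -/

/-- Binomial expansion of the weight `(s X + t)^w`. -/
theorem linW_expand (w : ℕ) (v : ℂ × ℂ) :
    linW w v = ∑ j ∈ Finset.range (w + 1),
      ((w.choose j : ℂ) * v.1 ^ j * v.2 ^ (w - j)) • (X : ℂ[X]) ^ j := by
  unfold linW
  rw [add_pow]
  refine Finset.sum_congr rfl fun j _ => ?_
  rw [mul_pow, ← C_pow, ← C_pow, smul_eq_C_mul, C_mul, C_mul, ← C_eq_natCast]
  ring

theorem eichP_linW {g : ℂ → ℂ} (hg : IsCuspidalFun g) (w : ℕ) (v : ℂ × ℂ) {u : ℂ}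
    (hu : 0 < u.im) :
    eichP g (linW w v) u = ∑ j ∈ Finset.range (w + 1),
      (w.choose j : ℂ) * v.1 ^ j * v.2 ^ (w - j) * eichP g (X ^ j) u := by
  rw [linW_expand, eichP_sum_weight hg _ _ hu]
  refine Finset.sum_congr rfl fun j _ => ?_
  rw [eichP_smul_weight hg _ _ hu]

theorem eichH_expand (w : ℕ) (f : ℍ → ℂ) (hf : IsCuspidalFun (f ∘ ofComplex)) (v : ℂ × ℂ)
    (z : ℍ) :
    eichH w f v z = ∑ j ∈ Finset.range (w + 1),
      (w.choose j : ℂ) * v.1 ^ j * v.2 ^ (w - j) * eichP (f ∘ ofComplex) (X ^ j) (z : ℂ) :=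
  eichP_linW hf w v z.im_pos

theorem linW_one_neg' (w : ℕ) (t : ℂ) : linW w ((1 : ℂ), -t) = (X - C t) ^ w := by
  simp [linW, sub_eq_add_neg]

/-- The explicit sum (defined on all of `ℂ`) agreeing with `eichD` on the upper half plane. -/
noncomputable def dsum (g : ℂ → ℂ) (m : ℕ) (z : ℂ) : ℂ :=
  ∑ j ∈ Finset.range (m + 1), (m.choose j : ℂ) * (-z) ^ (m - j) * eichP g (X ^ j) z

theorem eichD_eq_dsum {g : ℂ → ℂ} (hg : IsCuspidalFun g) (m : ℕ) {z : ℂ} (hz : 0 < z.im) :
    eichD g m z = dsum g m z := by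
  unfold eichD dsum
  rw [← linW_one_neg', eichP_linW hg m _ hz]
  refine Finset.sum_congr rfl fun j _ => ?_
  simp

theorem eichF_eq_eichD (w : ℕ) (f : ℍ → ℂ) (z : ℍ) :
    eichF w f z = eichD (f ∘ ofComplex) w (z : ℂ) := by
  unfold eichF eichH eichD
  rw [linW_one_neg']

theorem eichF_eq_dsum (w : ℕ) (f : ℍ → ℂ) (hf : IsCuspidalFun (f ∘ ofComplex)) (z : ℍ) :
    eichF w f z = dsum (f ∘ ofComplex) w (z : ℂ) := by
  rw [eichF_eq_eichD, eichD_eq_dsum hf w z.im_pos]

/-! ### Holomorphy -/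

theorem dsum_differentiableOn {g : ℂ → ℂ} (hg : IsCuspidalFun g) (m : ℕ) :
    DifferentiableOn ℂ (dsum g m) {z : ℂ | 0 < z.im} := by
  intro z hz
  refine DifferentiableAt.differentiableWithinAt ?_
  unfold dsum
  refine DifferentiableAt.fun_sum fun j _ => ?_
  exact ((differentiableAt_const _).mul ((differentiableAt_id.neg).pow _)).mul
    (eichP_hasDerivAt hg _ hz).differentiableAt

theorem eichF_mdifferentiable_of_cuspidal (w : ℕ) (f : ℍ → ℂ)
    (hf : IsCuspidalFun (f ∘ ofComplex)) : MDifferentiable 𝓘(ℂ) 𝓘(ℂ) (eichF w f) := by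
  rw [UpperHalfPlane.mdifferentiable_iff]
  refine (dsum_differentiableOn hf w).congr fun z hz => ?_
  rw [Function.comp_apply, eichF_eq_dsum w f hf, ofComplex_apply_of_im_pos hz]

/-! ### Decay -/

theorem dsum_stripDecay {g : ℂ → ℂ} (hg : IsCuspidalFun g) (m : ℕ) :
    Prim.StripDecay (dsum g m) := by
  unfold dsum
  refine Prim.StripDecay.sum _ fun j _ => ?_
  have h := (eichP_stripDecay hg (X ^ j)).polynomial_mul (C (m.choose j : ℂ) * (-X) ^ (m - j))
  refine h.congr_upper fun z _ => ?_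
  simp

/-- A function decaying in vertical strips which is periodic on the upper half plane tends to
zero as `Im z → ∞`, uniformly in `Re z`. -/
theorem tendsto_zero_of_stripDecay_of_periodic {E : ℂ → ℂ} (hE : Prim.StripDecay E) {T : ℝ}
    (hT : 0 < T) (hper : ∀ z : ℂ, 0 < z.im → E (z + T) = E z) :
    Tendsto E (comap Complex.im atTop) (𝓝 0) := by
  -- integer periodicity on the upper half plane
  have hperZ : ∀ n : ℤ, ∀ z : ℂ, 0 < z.im → E (z + n * T) = E z := by
    intro n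
    induction n using Int.induction_on with
    | zero => intro z _; simp
    | succ n ih =>
      intro z hz
      have him : 0 < (z + ((n : ℤ) : ℂ) * T).im := by simpa using hz
      calc E (z + (((n : ℤ) + 1 : ℤ) : ℂ) * T)
          = E (z + ((n : ℤ) : ℂ) * T + T) := by congr 1; push_cast; ring
        _ = E (z + ((n : ℤ) : ℂ) * T) := hper _ him
        _ = E z := ih z hz
    | pred n ih =>
      intro z hz
      have him : 0 < (z + ((-(n : ℤ) - 1 : ℤ) : ℂ) * T).im := by simpa using hz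
      calc E (z + ((-(n : ℤ) - 1 : ℤ) : ℂ) * T)
          = E (z + ((-(n : ℤ) - 1 : ℤ) : ℂ) * T + T) := (hper _ him).symm
        _ = E (z + ((-(n : ℤ) : ℤ) : ℂ) * T) := by congr 1; push_cast; ring
        _ = E z := ih z hz
  have h := hE.tendsto T
  rw [tendsto_def] at h ⊢
  intro U hU
  have h1 := h U hU
  rw [Prim.stripFilter, Filter.mem_inf_principal, mem_comap] at h1
  obtain ⟨W, hW, hsub⟩ := h1
  rw [mem_comap]
  refine ⟨W ∩ Set.Ioi 0, inter_mem hW (Ioi_mem_atTop 0), fun z hz => ?_⟩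
  obtain ⟨hzW, hz0⟩ := hz
  have hz0' : 0 < z.im := hz0
  -- translate `z` into the strip `|re| ≤ T`
  obtain ⟨n, hn⟩ : ∃ n : ℤ, |(z + (n : ℂ) * T).re| ≤ T := by
    refine ⟨-⌊z.re / T⌋, ?_⟩
    have h1 : (z + ((-⌊z.re / T⌋ : ℤ) : ℂ) * T).re = z.re - ⌊z.re / T⌋ * T := by
      simp; ring
    rw [h1]
    have h2 := Int.floor_le (z.re / T)
    have h3 := Int.lt_floor_add_one (z.re / T)
    rw [le_div_iff₀ hT] at h2
    rw [div_lt_iff₀ hT] at h3
    rw [abs_le]
    constructor <;> nlinarith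
  have him : (z + (n : ℂ) * T).im = z.im := by simp
  have hmem : z + (n : ℂ) * T ∈ Complex.im ⁻¹' W := by
    rw [Set.mem_preimage, him]
    exact hzW
  have := hsub hmem hn
  rw [Set.mem_preimage, hperZ n z hz0'] at this
  exact this

/-! ### Periodicity -/

theorem eichD_add_period {g : ℂ → ℂ} (hg : IsCuspidalFun g) {T : ℝ}
    (hper : ∀ u : ℂ, 0 < u.im → g (u + T) = g u) (m : ℕ) {z : ℂ} (hz : 0 < z.im) :
    eichD g m (z + T) = eichD g m z := by
  unfold eichD
  set P' : ℂ[X] := (X - C (z + (T : ℂ))) ^ m with hP'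
  have key := eichP_unique hg ((X - C z) ^ m) (E := fun u => eichP g P' (u + T)) (fun u hu => ?_) ?_
    z hz
  · exact key
  · have hu' : 0 < (u + (T : ℂ)).im := by simpa using hu
    have h1 := (eichP_hasDerivAt hg P' hu').comp_add_const u (T : ℂ)
    refine h1.congr_deriv ?_
    rw [hper u hu, hP']
    simp
  · have := stripDecay_tendsto_affine (eichP_stripDecay hg P') (a := 1) (d := 1) T one_pos one_pos
    simpa using this

/-- `ofComplex (u + T) = T +ᵥ ofComplex u` on the upper half plane. -/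
theorem ofComplex_add_real {u : ℂ} (hu : 0 < u.im) (T : ℝ) :
    ofComplex (u + (T : ℂ)) = T +ᵥ ofComplex u := by
  have hu' : 0 < (u + (T : ℂ)).im := by simpa using hu
  ext
  rw [ofComplex_apply_of_im_pos hu', UpperHalfPlane.coe_vadd, ofComplex_apply_of_im_pos hu]
  simp [add_comm]

/-- Periodicity of the diagonal Eichler integral of a periodic cuspidal function. -/
theorem eichF_vadd_period (w : ℕ) (g : ℍ → ℂ) (hg : IsCuspidalFun (g ∘ ofComplex)) {T : ℝ}
    (hper : ∀ τ : ℍ, g (T +ᵥ τ) = g τ) (z : ℍ) : eichF w g (T +ᵥ z) = eichF w g z := by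
  rw [eichF_eq_eichD, eichF_eq_eichD, UpperHalfPlane.coe_vadd, add_comm]
  refine eichD_add_period hg (fun u hu => ?_) w z.im_pos
  rw [Function.comp_apply, Function.comp_apply, ofComplex_add_real hu, hper]

/-- Zero at `i∞` of the diagonal Eichler integral of a periodic cuspidal function. -/
theorem eichF_isZeroAtImInfty (w : ℕ) (g : ℍ → ℂ) (hg : IsCuspidalFun (g ∘ ofComplex)) {T : ℝ}
    (hT : 0 < T) (hper : ∀ τ : ℍ, g (T +ᵥ τ) = g τ) : IsZeroAtImInfty (eichF w g) := by
  have hperD : ∀ z : ℂ, 0 < z.im → dsum (g ∘ ofComplex) w (z + T) = dsum (g ∘ ofComplex) w z := by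
    intro z hz
    have hz' : 0 < (z + (T : ℂ)).im := by simpa using hz
    rw [← eichD_eq_dsum hg w hz', ← eichD_eq_dsum hg w hz]
    refine eichD_add_period hg (fun u hu => ?_) w hz
    rw [Function.comp_apply, Function.comp_apply, ofComplex_add_real hu, hper]
  have h1 := tendsto_zero_of_stripDecay_of_periodic (dsum_stripDecay hg w) hT hperD
  have h2 : Tendsto (fun z : ℍ => (z : ℂ)) atImInfty (comap Complex.im atTop) := by
    rw [tendsto_comap_iff]
    exact tendsto_comap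
  have h3 := h1.comp h2
  refine h3.congr fun z => ?_
  rw [Function.comp_apply, eichF_eq_dsum w g hg]

/-- Pointwise algebra behind the defect formula. -/
theorem defect_algebra (w : ℕ) (a b c d z : ℂ) (hdet : a * d - b * c = 1) (hD : c * z + d ≠ 0)
    (B p e E : ℕ → ℂ) :
    ((∑ j ∈ Finset.range (w + 1),
          B j * (1 : ℂ) ^ j * (-((a * z + b) / (c * z + d))) ^ (w - j) * p j)
        - (∑ j ∈ Finset.range (w + 1),
          B j * (1 * a + -((a * z + b) / (c * z + d)) * c) ^ j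
            * (1 * b + -((a * z + b) / (c * z + d)) * d) ^ (w - j) * e j)
        + (∑ j ∈ Finset.range (w + 1),
          B j * (1 * a + -((a * z + b) / (c * z + d)) * c) ^ j
            * (1 * b + -((a * z + b) / (c * z + d)) * d) ^ (w - j) * E j)) * (c * z + d) ^ w
      = (∑ j ∈ Finset.range (w + 1), B j * (1 : ℂ) ^ j * (-z) ^ (w - j) * E j)
        + ((∑ j ∈ Finset.range (w + 1),
            B j * p j * (c * z + d) ^ j * (-(a * z + b)) ^ (w - j))
          - ∑ j ∈ Finset.range (w + 1), B j * e j * (-z) ^ (w - j)) := by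
  set D := c * z + d with hDdef
  have hx : 1 * a + -((a * z + b) / D) * c = D⁻¹ := by
    field_simp
    rw [hDdef]
    linear_combination hdet
  have hy : 1 * b + -((a * z + b) / D) * d = -z * D⁻¹ := by
    field_simp
    rw [hDdef]
    linear_combination (-z) * hdet
  rw [hx, hy]
  have hsplit : ∀ j ∈ Finset.range (w + 1), D ^ w = D ^ j * D ^ (w - j) := by
    intro j hj
    rw [← pow_add]
    congr 1
    have := Finset.mem_range.mp hj
    omega
  rw [add_mul, sub_mul, Finset.sum_mul, Finset.sum_mul, Finset.sum_mul]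
  have t1 : ∀ j ∈ Finset.range (w + 1),
      B j * (1 : ℂ) ^ j * (-((a * z + b) / D)) ^ (w - j) * p j * D ^ w
        = B j * p j * D ^ j * (-(a * z + b)) ^ (w - j) := by
    intro j hj
    have h1 : (-((a * z + b) / D)) ^ (w - j) * D ^ (w - j) = (-(a * z + b)) ^ (w - j) := by
      rw [← mul_pow]
      congr 1
      field_simp
    rw [hsplit j hj, one_pow]
    linear_combination (B j * p j * D ^ j) * h1
  have t2 : ∀ (F : ℕ → ℂ), ∀ j ∈ Finset.range (w + 1),
      B j * D⁻¹ ^ j * (-z * D⁻¹) ^ (w - j) * F j * D ^ w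
        = B j * F j * (-z) ^ (w - j) := by
    intro F j hj
    rw [hsplit j hj, mul_pow, inv_pow, inv_pow]
    have hne : D ^ (w - j) ≠ 0 := pow_ne_zero _ hD
    have hne' : D ^ j ≠ 0 := pow_ne_zero _ hD
    field_simp
  rw [Finset.sum_congr rfl t1, Finset.sum_congr rfl (t2 e), Finset.sum_congr rfl (t2 E)]
  have t3 : ∀ j ∈ Finset.range (w + 1),
      B j * E j * (-z) ^ (w - j) = B j * (1 : ℂ) ^ j * (-z) ^ (w - j) * E j := by
    intro j _
    rw [one_pow]
    ring
  rw [Finset.sum_congr rfl t3]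
  ring

end EichlerDefect

open EichlerDefect

/-- **P4c (holomorphy).** The diagonal Eichler integral of a cusp form is holomorphic. -/
theorem eichF_mdifferentiable {N : ℕ} [NeZero N] (w : ℕ)
    (f : CuspForm (Gamma0 N) ((w : ℤ) + 2)) : MDifferentiable 𝓘(ℂ) 𝓘(ℂ) (eichF w ⇑f) :=
  eichF_mdifferentiable_of_cuspidal w ⇑f (cuspForm_class f)

open Matrix.SpecialLinearGroup in
/-- **P4c (defect).** For every `σ ∈ SL(2, ℤ)` the weight `-w` slash of the diagonal Eichler
integral is the sum of an `N`-periodic function vanishing at `i∞` and a polynomial. -/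
theorem eichF_defect {N : ℕ} [NeZero N] (w : ℕ) (f : CuspForm (Gamma0 N) ((w : ℤ) + 2))
    (σ : SL(2, ℤ)) :
    ∃ (G : ℍ → ℂ) (r : Polynomial ℂ), IsZeroAtImInfty G ∧
      (∀ z : ℍ, G ((N : ℝ) +ᵥ z) = G z) ∧
      ∀ z : ℍ, (eichF w ⇑f ∣[-(w : ℤ)] σ) z = G z + r.eval (z : ℂ) := by
  set g : ℍ → ℂ := ⇑f ∣[(w : ℤ) + 2] (mapGL ℝ σ : GL (Fin 2) ℝ) with hgdef
  have hf : IsCuspidalFun (⇑f ∘ ofComplex) := cuspForm_class f
  have hg : IsCuspidalFun (g ∘ ofComplex) := cuspForm_slash_mapGL_class f σ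
  have hinv : ∀ γ ∈ Gamma0 N, (⇑f) ∣[(w : ℤ) + 2] (γ : SL(2, ℤ)) = ⇑f := by
    intro γ hγ
    rw [ModularForm.SL_slash]
    exact SlashInvariantFormClass.slash_action_eq f _ ⟨γ, hγ, rfl⟩
  have hper : ∀ τ : ℍ, g ((N : ℝ) +ᵥ τ) = g τ := fun τ =>
    slash_vadd_periodic N ((w : ℤ) + 2) ⇑f hinv σ τ
  have hNpos : (0 : ℝ) < (N : ℝ) := by exact_mod_cast Nat.pos_of_ne_zero (NeZero.ne N)
  -- the four entries of `σ`
  set a : ℂ := ((σ 0 0 : ℤ) : ℂ) with ha
  set b : ℂ := ((σ 0 1 : ℤ) : ℂ) with hb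
  set c : ℂ := ((σ 1 0 : ℤ) : ℂ) with hc
  set d : ℂ := ((σ 1 1 : ℤ) : ℂ) with hd
  have hdet : a * d - b * c = 1 := by
    have h1 : (σ 0 0 : ℤ) * σ 1 1 - σ 0 1 * σ 1 0 = 1 := by
      have := σ.det_coe
      rwa [Matrix.det_fin_two] at this
    have h2 := congrArg (Int.cast : ℤ → ℂ) h1
    push_cast at h2
    exact h2
  set B : ℕ → ℂ := fun j => (w.choose j : ℂ) with hB
  set p : ℕ → ℂ := fun j =>
    eichP (⇑f ∘ ofComplex) (X ^ j) ((σ • UpperHalfPlane.I : ℍ) : ℂ) with hp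
  set e : ℕ → ℂ := fun j => eichP (g ∘ ofComplex) (X ^ j) ((UpperHalfPlane.I : ℍ) : ℂ) with he
  refine ⟨eichF w g,
    (∑ j ∈ Finset.range (w + 1),
        C (B j * p j) * (C c * X + C d) ^ j * (-(C a * X + C b)) ^ (w - j))
      - ∑ j ∈ Finset.range (w + 1), C (B j * e j) * (-X) ^ (w - j),
    eichF_isZeroAtImInfty w g hg hNpos hper, fun z => eichF_vadd_period w g hg hper z,
    fun z => ?_⟩
  have hcoe : ((σ • z : ℍ) : ℂ) = (a * z + b) / (c * z + d) := by
    rw [UpperHalfPlane.coe_specialLinearGroup_apply]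
    simp [ha, hb, hc, hd]
  have hden : denom σ z = c * z + d := by
    rw [ModularGroup.denom_apply]
  have hD : c * (z : ℂ) + d ≠ 0 := by
    rw [← hden]
    exact denom_ne_zero _ z
  rw [ModularForm.SL_slash_apply, neg_neg, zpow_natCast, hden]
  -- the transformation rule with the constant evaluated at `I`
  obtain ⟨C0, hC0⟩ := eichH_smul_SL w (k := (w : ℤ) + 2) rfl ⇑f σ hf hg ((1 : ℂ), -((σ • z : ℍ) : ℂ))
  have h1 := hC0 z
  have h2 := hC0 UpperHalfPlane.I
  have hF : eichF w ⇑f (σ • z)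
      = eichH w ⇑f ((1 : ℂ), -((σ • z : ℍ) : ℂ)) (σ • UpperHalfPlane.I)
        - eichH w g (vmul ((1 : ℂ), -((σ • z : ℍ) : ℂ))
            ((mapGL ℝ σ : GL (Fin 2) ℝ) : Matrix (Fin 2) (Fin 2) ℝ)) UpperHalfPlane.I
        + eichH w g (vmul ((1 : ℂ), -((σ • z : ℍ) : ℂ))
            ((mapGL ℝ σ : GL (Fin 2) ℝ) : Matrix (Fin 2) (Fin 2) ℝ)) z := by
    unfold eichF
    rw [h1, h2]
    ring
  have hvm : vmul ((1 : ℂ), -((σ • z : ℍ) : ℂ))
      ((mapGL ℝ σ : GL (Fin 2) ℝ) : Matrix (Fin 2) (Fin 2) ℝ)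
      = (1 * a + -((a * z + b) / (c * z + d)) * c, 1 * b + -((a * z + b) / (c * z + d)) * d) := by
    rw [hcoe]
    simp [vmul, ha, hb, hc, hd]
  rw [hF, hvm, eichH_expand w ⇑f hf, eichH_expand w g hg, eichH_expand w g hg, hcoe]
  have hG : eichF w g z = ∑ j ∈ Finset.range (w + 1),
      B j * (1 : ℂ) ^ j * (-(z : ℂ)) ^ (w - j) * eichP (g ∘ ofComplex) (X ^ j) (z : ℂ) := by
    unfold eichF
    rw [eichH_expand w g hg]
  rw [hG]
  have hr : Polynomial.eval (z : ℂ)
      ((∑ j ∈ Finset.range (w + 1),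
          C (B j * p j) * (C c * X + C d) ^ j * (-(C a * X + C b)) ^ (w - j))
        - ∑ j ∈ Finset.range (w + 1), C (B j * e j) * (-X) ^ (w - j))
      = (∑ j ∈ Finset.range (w + 1),
            B j * p j * (c * z + d) ^ j * (-(a * z + b)) ^ (w - j))
          - ∑ j ∈ Finset.range (w + 1), B j * e j * (-(z : ℂ)) ^ (w - j) := by
    simp [Polynomial.eval_finsetSum]
  rw [hr]
  exact defect_algebra w a b c d (z : ℂ) hdet hD B p e
    (fun j => eichP (g ∘ ofComplex) (X ^ j) (z : ℂ))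

end Fermat.Agent.S22
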