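-- S22 (P4a, bridge): the statements of `EichlerDeriv.lean` restated for helper22's canonical
-- definitions `eichD` / `eichF` of `EichlerDiag.lean` (`eichD = eichDiag` definitionally), with the
-- exact names requested in lemma-queue row 31.
import Fermat.Agent.S22.EichlerDeriv
import Fermat.Agent.S22.EichlerDiag

set_option autoImplicit false

open Complex Filter UpperHalfPlane Polynomial
open scoped Topology

namespace Fermat.Agent.S22

theorem eichD_eq_eichDiag : eichD = eichDiag := rfl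

theorem eichD_eq_sum {g : ℂ → ℂ} (hg : IsCuspidalFun g) (m : ℕ) {z : ℂ} (hz : 0 < z.im) :
    eichD g m z
      = ∑ j ∈ Finset.range (m + 1), (m.choose j : ℂ) * (-z) ^ (m - j) * eichP g (X ^ j) z :=
  eichDiag_eq_sum hg m hz

theorem eichD_zero_hasDerivAt {g : ℂ → ℂ} (hg : IsCuspidalFun g) {z : ℂ} (hz : 0 < z.im) :
    HasDerivAt (eichD g 0) (g z) z :=
  eichDiag_zero_hasDerivAt hg hz

theorem eichD_succ_hasDerivAt {g : ℂ → ℂ} (hg : IsCuspidalFun g) (m : ℕ) {z : ℂ}
    (hz : 0 < z.im) : HasDerivAt (eichD g (m + 1)) (-((m : ℂ) + 1) * eichD g m z) z :=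
  eichDiag_succ_hasDerivAt hg m hz

theorem eichD_differentiableOn {g : ℂ → ℂ} (hg : IsCuspidalFun g) (m : ℕ) :
    DifferentiableOn ℂ (eichD g m) {z : ℂ | 0 < z.im} :=
  eichDiag_differentiableOn hg m

theorem eq_zero_of_eichD_eq_zero {g : ℂ → ℂ} (hg : IsCuspidalFun g) (m : ℕ)
    (h : ∀ z : ℂ, 0 < z.im → eichD g m z = 0) : ∀ z : ℂ, 0 < z.im → g z = 0 :=
  eq_zero_of_eichDiag_eq_zero hg m h

/-- If `eichD g 0` is constant on the upper half plane then `g` vanishes there. -/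
theorem eq_zero_of_eichD_zero_eq_const {g : ℂ → ℂ} (hg : IsCuspidalFun g) (c : ℂ)
    (h : ∀ z : ℂ, 0 < z.im → eichD g 0 z = c) : ∀ z : ℂ, 0 < z.im → g z = 0 := by
  intro z hz
  have hd : HasDerivAt (fun u => eichD g 0 u - c) (g z) z := by
    simpa using (eichD_zero_hasDerivAt hg hz).sub_const c
  exact deriv_eq_zero_of_forall_eq_zero hz hd fun u hu => by rw [h u hu, sub_self]

theorem eichH_diag_eq_eichD (w : ℕ) (f : ℍ → ℂ) (z : ℍ) :
    eichH w f ((1 : ℂ), -(z : ℂ)) z = eichD (f ∘ ofComplex) w (z : ℂ) :=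
  eichH_one_neg_eq_eichDiag w f z

theorem eichF_eq_eichD (w : ℕ) (f : ℍ → ℂ) (z : ℍ) :
    eichF w f z = eichD (f ∘ ofComplex) w (z : ℂ) :=
  eichH_one_neg_eq_eichDiag w f z

end Fermat.Agent.S22
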