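import Mathlib

/-!
# S22 helper: homogeneous polynomials in two variables vanishing on `ℤ²`

If `ψ (s, t) = ∑_{j ≤ w} c j * s ^ j * t ^ (w - j)` vanishes for all integers `s, t`, then all
`c j` (`j ≤ w`) vanish, hence `ψ` vanishes on all of `ℂ²`.
-/

set_option autoImplicit false

open Polynomial

namespace Fermat.Agent.S22.HomPoly

/-- Coefficients of a homogeneous form of degree `w` in two variables vanishing on `ℤ × {1}`
are zero. -/
theorem coeff_eq_zero_of_forall_int {w : ℕ} {c : ℕ → ℂ}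
    (h : ∀ s : ℤ, ∑ j ∈ Finset.range (w + 1), c j * (s : ℂ) ^ j = 0) :
    ∀ j ∈ Finset.range (w + 1), c j = 0 := by
  classical
  set P : ℂ[X] := ∑ j ∈ Finset.range (w + 1), C (c j) * X ^ j with hP
  have hroot : ∀ s : ℤ, P.IsRoot (s : ℂ) := by
    intro s
    rw [IsRoot.def, hP, eval_finsetSum]
    simpa using h s
  have hinf : {x : ℂ | P.IsRoot x}.Infinite := by
    refine Set.Infinite.mono ?_ (Set.infinite_range_of_injective (Int.cast_injective (α := ℂ)))
    rintro _ ⟨s, rfl⟩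
    exact hroot s
  have hP0 : P = 0 := Polynomial.eq_zero_of_infinite_isRoot P hinf
  intro j hj
  have hcoeff : P.coeff j = c j := by
    rw [hP, finsetSum_coeff]
    simp only [coeff_C_mul_X_pow]
    rw [Finset.sum_eq_single j]
    · simp
    · intro b _ hb
      simp [hb.symm]
    · intro hj'
      exact absurd hj hj'
  rw [← hcoeff, hP0, coeff_zero]

/-- A homogeneous form of degree `w` in `(s, t)` vanishing on `ℤ²` has zero coefficients. -/
theorem coeff_eq_zero_of_forall_int_pair {w : ℕ} {c : ℕ → ℂ}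
    (h : ∀ s t : ℤ, ∑ j ∈ Finset.range (w + 1), c j * (s : ℂ) ^ j * (t : ℂ) ^ (w - j) = 0) :
    ∀ j ∈ Finset.range (w + 1), c j = 0 := by
  apply coeff_eq_zero_of_forall_int
  intro s
  have := h s 1
  simpa using this

/-- A homogeneous form of degree `w` in `(s, t)` vanishing on `ℤ²` vanishes on `ℂ²`. -/
theorem eq_zero_of_forall_int_pair {w : ℕ} {c : ℕ → ℂ}
    (h : ∀ s t : ℤ, ∑ j ∈ Finset.range (w + 1), c j * (s : ℂ) ^ j * (t : ℂ) ^ (w - j) = 0)
    (s t : ℂ) : ∑ j ∈ Finset.range (w + 1), c j * s ^ j * t ^ (w - j) = 0 := by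
  apply Finset.sum_eq_zero
  intro j hj
  rw [coeff_eq_zero_of_forall_int_pair h j hj, zero_mul, zero_mul]

/-- Function form: if `ψ : ℂ × ℂ → ℂ` is given by a homogeneous form of degree `w` and vanishes on
integer vectors then `ψ = 0`. -/
theorem fun_eq_zero_of_forall_int_pair {w : ℕ} {c : ℕ → ℂ} {ψ : ℂ × ℂ → ℂ}
    (hψ : ∀ v : ℂ × ℂ, ψ v = ∑ j ∈ Finset.range (w + 1), c j * v.1 ^ j * v.2 ^ (w - j))
    (h : ∀ s t : ℤ, ψ ((s : ℂ), (t : ℂ)) = 0) (v : ℂ × ℂ) : ψ v = 0 := by
  rw [hψ]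
  apply eq_zero_of_forall_int_pair
  intro s t
  rw [← h s t, hψ]

/-- Binomial expansion of `(s * u + t) ^ w` in the shape used above:
`(s u + t)^w = ∑_j (w.choose j * u^j) * s^j * t^(w-j)`. -/
theorem linear_pow_expand (w : ℕ) (s t u : ℂ) :
    (s * u + t) ^ w = ∑ j ∈ Finset.range (w + 1), ((w.choose j : ℂ) * u ^ j) * s ^ j * t ^ (w - j) := by
  rw [add_pow]
  apply Finset.sum_congr rfl
  intro j _
  rw [mul_pow]
  ring

end Fermat.Agent.S22.HomPoly
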