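-- S22 / P4b: vanishing of the integral periods forces the weight `-w` invariance of the diagonal
-- Eichler integral `eichF` under `Gamma0 N`.
import Fermat.Agent.S22.EichlerDiag
import Fermat.Agent.S22.EichlerRules
import Fermat.Agent.S22.HomPoly

set_option autoImplicit false

open Complex Filter UpperHalfPlane Polynomial CongruenceSubgroup
open scoped Topology MatrixGroups ModularForm Manifold

namespace Fermat.Agent.S22

namespace EichlerInvariant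

/-- Binomial expansion of `(C s * A + C t * B)^w` in the shape needed for `HomPoly`. -/
theorem linComb_pow_expand (w : ℕ) (A B : ℂ[X]) (s t : ℂ) :
    (C s * A + C t * B) ^ w
      = ∑ j ∈ Finset.range (w + 1),
          ((w.choose j : ℂ) * s ^ j * t ^ (w - j)) • (A ^ j * B ^ (w - j)) := by
  rw [add_pow]
  apply Finset.sum_congr rfl
  intro j _
  rw [smul_eq_C_mul, C_mul, C_mul, C_pow, C_pow, ← C_eq_natCast, mul_pow, mul_pow]
  ring

/-- `eichP g ((C s * A + C t * B)^w)` is a homogeneous form of degree `w` in `(s, t)`. -/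
theorem eichP_linComb_pow {g : ℂ → ℂ} (hg : IsCuspidalFun g) (w : ℕ) (A B : ℂ[X]) (s t : ℂ)
    {z : ℂ} (hz : 0 < z.im) :
    eichP g ((C s * A + C t * B) ^ w) z
      = ∑ j ∈ Finset.range (w + 1),
          ((w.choose j : ℂ) * eichP g (A ^ j * B ^ (w - j)) z) * s ^ j * t ^ (w - j) := by
  rw [linComb_pow_expand, eichP_sum_weight hg _ _ hz]
  apply Finset.sum_congr rfl
  intro j _
  rw [eichP_smul_weight hg _ _ hz]
  ring

theorem linW_eq_linComb (w : ℕ) (v : ℂ × ℂ) :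
    linW w v = (C v.1 * X + C v.2 * 1) ^ w := by
  simp [linW]

theorem linW_vmul_eq_linComb (w : ℕ) (v : ℂ × ℂ) (G : Matrix (Fin 2) (Fin 2) ℝ) :
    linW w (vmul v G)
      = (C v.1 * (C ((G 0 0 : ℝ) : ℂ) * X + C ((G 0 1 : ℝ) : ℂ))
          + C v.2 * (C ((G 1 0 : ℝ) : ℂ) * X + C ((G 1 1 : ℝ) : ℂ))) ^ w := by
  unfold linW vmul
  congr 1
  simp only [C_add, C_mul]
  ring

/-- `v ↦ periodConst w f g v` is a homogeneous form of degree `w` in `v`. -/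
theorem periodConst_eq_homPoly (w : ℕ) (f : ℍ → ℂ) (hf : IsCuspidalFun (f ∘ ofComplex))
    (g : SL(2, ℤ)) :
    ∃ c : ℕ → ℂ, ∀ v : ℂ × ℂ,
      periodConst w f g v = ∑ j ∈ Finset.range (w + 1), c j * v.1 ^ j * v.2 ^ (w - j) := by
  set G : Matrix (Fin 2) (Fin 2) ℝ :=
    ((Matrix.SpecialLinearGroup.mapGL ℝ g : GL (Fin 2) ℝ) : Matrix (Fin 2) (Fin 2) ℝ) with hG
  set A : ℂ[X] := C ((G 0 0 : ℝ) : ℂ) * X + C ((G 0 1 : ℝ) : ℂ) with hA
  set B : ℂ[X] := C ((G 1 0 : ℝ) : ℂ) * X + C ((G 1 1 : ℝ) : ℂ) with hB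
  refine ⟨fun j => (w.choose j : ℂ) * eichP (f ∘ ofComplex) (X ^ j * 1 ^ (w - j))
      ((g • UpperHalfPlane.I : ℍ) : ℂ)
    - (w.choose j : ℂ) * eichP (f ∘ ofComplex) (A ^ j * B ^ (w - j))
      ((UpperHalfPlane.I : ℍ) : ℂ), fun v => ?_⟩
  unfold periodConst eichH
  rw [linW_eq_linComb, linW_vmul_eq_linComb,
    eichP_linComb_pow hf w X 1 v.1 v.2 (g • UpperHalfPlane.I : ℍ).im_pos,
    eichP_linComb_pow hf w _ _ v.1 v.2 (UpperHalfPlane.I : ℍ).im_pos,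
    ← Finset.sum_sub_distrib]
  apply Finset.sum_congr rfl
  intro j _
  ring

end EichlerInvariant

set_option linter.unusedVariables false in
open EichlerInvariant in
theorem periodConst_eq_zero_of_int {N : ℕ} [NeZero N] (w : ℕ)
    (f : CuspForm (Gamma0 N) ((w : ℤ) + 2)) (g : SL(2, ℤ)) (hg : g ∈ Gamma0 N)
    (h : ∀ v, IsIntVec v → periodConst w ⇑f g v = 0) (v : ℂ × ℂ) :
    periodConst w ⇑f g v = 0 := by
  obtain ⟨c, hc⟩ := periodConst_eq_homPoly w (⇑f) (cuspForm_class f) g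
  exact HomPoly.fun_eq_zero_of_forall_int_pair (ψ := periodConst w ⇑f g) hc
    (fun s t => h _ ⟨s, t, rfl⟩) v

namespace EichlerInvariant

/-- Homogeneity of `eichH` in the weight vector. -/
theorem eichH_smul_vec (w : ℕ) (f : ℍ → ℂ) (hf : IsCuspidalFun (f ∘ ofComplex)) (c : ℂ)
    (v : ℂ × ℂ) (z : ℍ) :
    eichH w f (c * v.1, c * v.2) z = c ^ w * eichH w f v z := by
  unfold eichH
  have : linW w (c * v.1, c * v.2) = (c ^ w) • linW w v := by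
    unfold linW
    rw [smul_eq_C_mul, C_pow, ← mul_pow]
    congr 1
    simp only [C_mul]
    ring
  rw [this, eichP_smul_weight hf _ _ z.im_pos]

end EichlerInvariant

open EichlerInvariant in
theorem eichF_slash_eq {N : ℕ} [NeZero N] (w : ℕ) (f : CuspForm (Gamma0 N) ((w : ℤ) + 2))
    (h : ∀ g ∈ Gamma0 N, ∀ v, IsIntVec v → periodConst w ⇑f g v = 0) (γ : SL(2, ℤ))
    (hγ : γ ∈ Gamma0 N) : eichF w ⇑f ∣[-(w : ℤ)] γ = eichF w ⇑f := by
  have hf : IsCuspidalFun (⇑f ∘ ofComplex) := cuspForm_class f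
  have hinv : (⇑f : ℍ → ℂ) ∣[(w : ℤ) + 2]
      (Matrix.SpecialLinearGroup.mapGL ℝ γ : GL (Fin 2) ℝ) = ⇑f :=
    SlashInvariantFormClass.slash_action_eq f (Matrix.SpecialLinearGroup.mapGL ℝ γ)
      (Subgroup.mem_map_of_mem _ hγ)
  funext z
  rw [ModularForm.SL_slash_apply, neg_neg, zpow_natCast]
  unfold eichF
  set v : ℂ × ℂ := ((1 : ℂ), -((γ • z : ℍ) : ℂ)) with hv
  have hper := eichH_period w rfl (⇑f) γ hf hinv v z
  rw [periodConst_eq_zero_of_int w f γ hγ (h γ hγ) v, zero_add] at hper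
  rw [hper]
  -- compute `vmul v γ`
  have hden : denom γ z ≠ 0 := denom_ne_zero γ z
  have hdet : ((γ 0 0 : ℤ) : ℂ) * ((γ 1 1 : ℤ) : ℂ) - ((γ 0 1 : ℤ) : ℂ) * ((γ 1 0 : ℤ) : ℂ) = 1 := by
    have := Matrix.SpecialLinearGroup.det_coe γ
    rw [Matrix.det_fin_two] at this
    exact_mod_cast this
  have hsmul : ((γ • z : ℍ) : ℂ) = (((γ 0 0 : ℤ) : ℂ) * z + ((γ 0 1 : ℤ) : ℂ)) /
      (((γ 1 0 : ℤ) : ℂ) * z + ((γ 1 1 : ℤ) : ℂ)) := by
    rw [UpperHalfPlane.specialLinearGroup_apply]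
    simp
  have hdenom : denom γ z = ((γ 1 0 : ℤ) : ℂ) * z + ((γ 1 1 : ℤ) : ℂ) := by
    simp [denom]
  rw [hdenom] at hden ⊢
  have hvm : vmul v ((Matrix.SpecialLinearGroup.mapGL ℝ γ : GL (Fin 2) ℝ) :
        Matrix (Fin 2) (Fin 2) ℝ)
      = ((((γ 1 0 : ℤ) : ℂ) * z + ((γ 1 1 : ℤ) : ℂ))⁻¹ * (1 : ℂ),
         (((γ 1 0 : ℤ) : ℂ) * z + ((γ 1 1 : ℤ) : ℂ))⁻¹ * (-(z : ℂ))) := by
    rw [vmul_mapGL, hv]
    simp only
    rw [hsmul, div_eq_mul_inv]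
    have hDinv : (((γ 1 0 : ℤ) : ℂ) * z + ((γ 1 1 : ℤ) : ℂ))
        * (((γ 1 0 : ℤ) : ℂ) * z + ((γ 1 1 : ℤ) : ℂ))⁻¹ = 1 := mul_inv_cancel₀ hden
    ext
    · simp only
      linear_combination (((γ 1 0 : ℤ) : ℂ) * z + ((γ 1 1 : ℤ) : ℂ))⁻¹ * hdet
        - ((γ 0 0 : ℤ) : ℂ) * hDinv
    · simp only
      linear_combination (-(z : ℂ)) * (((γ 1 0 : ℤ) : ℂ) * z + ((γ 1 1 : ℤ) : ℂ))⁻¹ * hdet
        - ((γ 0 1 : ℤ) : ℂ) * hDinv
  rw [hvm, eichH_smul_vec w (⇑f) hf _ ((1 : ℂ), -(z : ℂ)) z, inv_pow]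
  field_simp

end Fermat.Agent.S22
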