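/-
S22 helper (owner: helper95).  P4b: from the vanishing of the period constants on integer vectors
to the modular invariance (weight `-w`) of the Eichler integral `eichF w f z = eichH w f (1, -z) z`.
-/
import Mathlib
import Fermat.Agent.S22.EichlerDefs
import Fermat.Agent.S22.EichlerRules

set_option autoImplicit false

open Complex Filter Topology UpperHalfPlane Polynomial
open scoped MatrixGroups ModularForm Manifold
open Matrix.SpecialLinearGroup (mapGL)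

noncomputable section

namespace Fermat.Agent.S22.Invariance

open Fermat.Agent.S22

/-- Binomial expansion of the weight polynomial `(s X + t)^w`. -/
theorem linW_expand (w : ℕ) (v : ℂ × ℂ) :
    linW w v = ∑ j ∈ Finset.range (w + 1),
      ((w.choose j : ℂ) * v.1 ^ j * v.2 ^ (w - j)) • (X : ℂ[X]) ^ j := by
  rw [linW, add_pow]
  refine Finset.sum_congr rfl fun j _ => ?_
  rw [mul_pow, ← C_pow, ← C_pow, smul_eq_C_mul]
  simp only [map_mul, map_natCast]
  ring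

/-- Expansion of `eichH` in the monomial Eichler integrals. -/
theorem eichH_expand (w : ℕ) {f : ℍ → ℂ} (hf : IsCuspidalFun (f ∘ ofComplex)) (v : ℂ × ℂ)
    (z : ℍ) :
    eichH w f v z = ∑ j ∈ Finset.range (w + 1),
      ((w.choose j : ℂ) * v.1 ^ j * v.2 ^ (w - j)) * eichP (f ∘ ofComplex) (X ^ j) (z : ℂ) := by
  rw [eichH, linW_expand, eichP_sum_weight hf _ _ z.im_pos]
  refine Finset.sum_congr rfl fun j _ => ?_
  rw [eichP_smul_weight hf _ _ z.im_pos]

/-- Homogeneity of `eichH` in the weight vector. -/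
theorem eichH_smul_vec (w : ℕ) {f : ℍ → ℂ} (hf : IsCuspidalFun (f ∘ ofComplex)) (c : ℂ)
    (v : ℂ × ℂ) (z : ℍ) :
    eichH w f (c * v.1, c * v.2) z = c ^ w * eichH w f v z := by
  rw [eichH_expand w hf, eichH_expand w hf, Finset.mul_sum]
  refine Finset.sum_congr rfl fun j hj => ?_
  have hj' : j ≤ w := Nat.lt_succ_iff.mp (Finset.mem_range.mp hj)
  have : c ^ w = c ^ j * c ^ (w - j) := by rw [← pow_add]; congr 1; omega
  simp only [mul_pow]
  rw [this]
  ring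

/-- A polynomial function of two variables vanishing on `ℤ²` vanishes on `ℂ²`. -/
theorem mvPolynomial_eval_eq_zero_of_int (p : MvPolynomial (Fin 2) ℂ)
    (h : ∀ s t : ℤ, MvPolynomial.eval ![(s : ℂ), (t : ℂ)] p = 0) (s t : ℂ) :
    MvPolynomial.eval ![s, t] p = 0 := by
  have hp : p = 0 := by
    refine MvPolynomial.funext_set (fun _ => Set.range (Int.cast : ℤ → ℂ))
      (fun _ => Set.infinite_range_of_injective Int.cast_injective) fun x hx => ?_
    obtain ⟨s, hs⟩ := hx 0 (Set.mem_univ _)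
    obtain ⟨t, ht⟩ := hx 1 (Set.mem_univ _)
    have hx' : x = ![(s : ℂ), (t : ℂ)] := by
      funext i
      fin_cases i
      · exact hs.symm
      · exact ht.symm
    rw [hx', h s t, map_zero]
  rw [hp, map_zero]

/-- The period constant as a polynomial function of the weight vector. -/
theorem exists_mvPolynomial_periodConst (w : ℕ) {f : ℍ → ℂ} (hf : IsCuspidalFun (f ∘ ofComplex))
    (g : SL(2, ℤ)) :
    ∃ p : MvPolynomial (Fin 2) ℂ, ∀ v : ℂ × ℂ,
      periodConst w f g v = MvPolynomial.eval ![v.1, v.2] p := by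
  set A : ℕ → ℂ := fun j => eichP (f ∘ ofComplex) (X ^ j) ((g • UpperHalfPlane.I : ℍ) : ℂ)
  set B : ℕ → ℂ := fun j => eichP (f ∘ ofComplex) (X ^ j) ((UpperHalfPlane.I : ℍ) : ℂ)
  refine ⟨∑ j ∈ Finset.range (w + 1),
      MvPolynomial.C ((w.choose j : ℂ) * A j) * MvPolynomial.X 0 ^ j * MvPolynomial.X 1 ^ (w - j)
    - ∑ j ∈ Finset.range (w + 1),
      MvPolynomial.C ((w.choose j : ℂ) * B j) *
        (MvPolynomial.X 0 * MvPolynomial.C ((g 0 0 : ℤ) : ℂ)
          + MvPolynomial.X 1 * MvPolynomial.C ((g 1 0 : ℤ) : ℂ)) ^ j *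
        (MvPolynomial.X 0 * MvPolynomial.C ((g 0 1 : ℤ) : ℂ)
          + MvPolynomial.X 1 * MvPolynomial.C ((g 1 1 : ℤ) : ℂ)) ^ (w - j), fun v => ?_⟩
  rw [periodConst, eichH_expand w hf, eichH_expand w hf, vmul_mapGL]
  simp only [map_sub, map_sum, map_mul, map_pow, map_add, MvPolynomial.eval_C, MvPolynomial.eval_X,
    Matrix.cons_val_zero, Matrix.cons_val_one]
  congr 1 <;> refine Finset.sum_congr rfl fun j _ => ?_ <;> ring

/-- **P4b, step 1.** Vanishing of the period constant on integer vectors implies vanishing on all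
complex vectors. -/
theorem periodConst_eq_zero_of_isIntVec (w : ℕ) {f : ℍ → ℂ}
    (hf : IsCuspidalFun (f ∘ ofComplex)) (g : SL(2, ℤ))
    (h : ∀ v, IsIntVec v → periodConst w f g v = 0) (v : ℂ × ℂ) : periodConst w f g v = 0 := by
  obtain ⟨p, hp⟩ := exists_mvPolynomial_periodConst w hf g
  rw [hp v]
  refine mvPolynomial_eval_eq_zero_of_int p (fun s t => ?_) v.1 v.2
  have := hp ((s : ℂ), (t : ℂ))
  rw [← this]
  exact h _ ⟨s, t, rfl⟩

/-- The Eichler integral `F(z) = ∫_{i∞}^z f(u) (u - z)^w du`. -/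
def eichF (w : ℕ) (f : ℍ → ℂ) (z : ℍ) : ℂ := eichH w f (1, -(z : ℂ)) z

/-- **P4b, step 2.** If all period constants of `f` at `σ` vanish (and `f ∣[k] σ = f`), then
`F(σ z) = (c z + d)^(-w) F(z)`. -/
theorem eichF_smul_of_periodConst_eq_zero (w : ℕ) {k : ℤ} (hk : k = (w : ℤ) + 2) {f : ℍ → ℂ}
    (hf : IsCuspidalFun (f ∘ ofComplex)) (σ : SL(2, ℤ))
    (hinv : f ∣[k] (mapGL ℝ σ : GL (Fin 2) ℝ) = f)
    (h : ∀ v : ℂ × ℂ, periodConst w f σ v = 0) (z : ℍ) :
    denom σ z ^ w * eichF w f (σ • z) = eichF w f z := by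
  have hden : denom σ z ≠ 0 := denom_ne_zero σ z
  have hper := eichH_period w hk f σ hf hinv (1, -((σ • z : ℍ) : ℂ)) z
  rw [h, zero_add, vmul_mapGL] at hper
  -- the transformed vector is `(1, -z) / denom σ z`
  have hcoe : ((σ • z : ℍ) : ℂ) = num σ z / denom σ z := by
    rw [UpperHalfPlane.specialLinearGroup_apply]
    rfl
  have hdet : ((σ 0 0 : ℤ) : ℂ) * ((σ 1 1 : ℤ) : ℂ) - ((σ 0 1 : ℤ) : ℂ) * ((σ 1 0 : ℤ) : ℂ) = 1 := by
    have := σ.det_coe
    rw [Matrix.det_fin_two] at this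
    exact_mod_cast this
  have hnum : num σ z = ((σ 0 0 : ℤ) : ℂ) * (z : ℂ) + ((σ 0 1 : ℤ) : ℂ) := by
    simp [num]
  have hdn : denom σ z = ((σ 1 0 : ℤ) : ℂ) * (z : ℂ) + ((σ 1 1 : ℤ) : ℂ) := by
    simp [denom]
  have hv1 : (1 : ℂ) * ((σ 0 0 : ℤ) : ℂ) + -((σ • z : ℍ) : ℂ) * ((σ 1 0 : ℤ) : ℂ)
      = (denom σ z)⁻¹ * 1 := by
    rw [hcoe, hnum]
    field_simp
    rw [hdn]
    linear_combination hdet
  have hv2 : (1 : ℂ) * ((σ 0 1 : ℤ) : ℂ) + -((σ • z : ℍ) : ℂ) * ((σ 1 1 : ℤ) : ℂ)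
      = (denom σ z)⁻¹ * (-(z : ℂ)) := by
    rw [hcoe, hnum]
    field_simp
    rw [hdn]
    linear_combination (-(z : ℂ)) * hdet
  have hsm := eichH_smul_vec w hf (denom σ z)⁻¹ (1, -(z : ℂ)) z
  simp only at hsm
  rw [hv1, hv2, hsm] at hper
  rw [eichF, eichF, hper, inv_pow]
  field_simp

/-- Slash form of the previous statement: `F ∣[-w] σ = F`. -/
theorem eichF_slash_of_periodConst_eq_zero (w : ℕ) {k : ℤ} (hk : k = (w : ℤ) + 2) {f : ℍ → ℂ}
    (hf : IsCuspidalFun (f ∘ ofComplex)) (σ : SL(2, ℤ))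
    (hinv : f ∣[k] (mapGL ℝ σ : GL (Fin 2) ℝ) = f)
    (h : ∀ v : ℂ × ℂ, periodConst w f σ v = 0) :
    (eichF w f) ∣[(-(w : ℤ))] σ = eichF w f := by
  funext z
  rw [ModularForm.SL_slash_apply, neg_neg, zpow_natCast, mul_comm]
  exact eichF_smul_of_periodConst_eq_zero w hk hf σ hinv h z

/-- **P4b for cusp forms on `Γ₀(N)`.** -/
theorem eichF_slash_eq_of_forall_isIntVec (N : ℕ) [NeZero N] (w : ℕ)
    (f : CuspForm (CongruenceSubgroup.Gamma0 N) ((w : ℤ) + 2))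
    (h : ∀ g ∈ CongruenceSubgroup.Gamma0 N, ∀ v, IsIntVec v → periodConst w ⇑f g v = 0) :
    ∀ γ ∈ CongruenceSubgroup.Gamma0 N, (eichF w ⇑f) ∣[(-(w : ℤ))] (γ : SL(2, ℤ)) = eichF w ⇑f := by
  intro γ hγ
  have hf : IsCuspidalFun (⇑f ∘ ofComplex) := cuspForm_class f
  have hinv : (⇑f) ∣[((w : ℤ) + 2)] (mapGL ℝ γ : GL (Fin 2) ℝ) = ⇑f :=
    SlashInvariantFormClass.slash_action_eq f _ (Subgroup.mem_map_of_mem (mapGL ℝ) hγ)
  exact eichF_slash_of_periodConst_eq_zero w rfl hf γ hinv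
    (periodConst_eq_zero_of_isIntVec w hf γ (h γ hγ))

end Fermat.Agent.S22.Invariance
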