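import Mathlib

/-!
# Primitives of holomorphic functions on the upper half plane (S22, piece P1)

* `exists_primitive_upperHalfPlane`: a function holomorphic on `{z | 0 < z.im}` has a primitive there.
-/

set_option autoImplicit false

open Complex Metric Set Filter Topology MeasureTheory

noncomputable section

namespace Fermat.Agent.S22

/-- The open upper half plane as a subset of `ℂ`. -/
def uhpSet : Set ℂ := {z : ℂ | 0 < z.im}

theorem uhpSet_isOpen : IsOpen uhpSet := isOpen_lt continuous_const Complex.continuous_im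

theorem uhpSet_convex : Convex ℝ uhpSet := by
  have : uhpSet = Complex.imCLM ⁻¹' (Ioi (0 : ℝ)) := by
    ext z; simp [uhpSet]
  rw [this]
  exact (convex_Ioi (0 : ℝ)).is_linear_preimage Complex.imCLM.toLinearMap.isLinear

theorem mem_uhpSet {z : ℂ} : z ∈ uhpSet ↔ 0 < z.im := Iff.rfl

/-- `z` lies in the ball of center `R * I` and radius `R` iff `‖z‖ ^ 2 < 2 * R * z.im`. -/
theorem mem_ball_mul_I_iff {z : ℂ} {R : ℝ} (hR : 0 < R) :
    z ∈ ball ((R : ℂ) * I) R ↔ ‖z‖ ^ 2 < 2 * R * z.im := by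
  have h1 : ‖z - (R : ℂ) * I‖ ^ 2 = z.re ^ 2 + (z.im - R) ^ 2 := by
    rw [← Complex.normSq_eq_norm_sq, Complex.normSq_apply]
    simp
    ring
  have h2 : ‖z‖ ^ 2 = z.re ^ 2 + z.im ^ 2 := by
    rw [← Complex.normSq_eq_norm_sq, Complex.normSq_apply]
    ring
  rw [mem_ball, dist_eq, h2]
  constructor
  · intro h
    have h3 : ‖z - (R : ℂ) * I‖ ^ 2 < R ^ 2 := by
      have := norm_nonneg (z - (R : ℂ) * I)
      nlinarith
    rw [h1] at h3
    nlinarith
  · intro h
    have h3 : ‖z - (R : ℂ) * I‖ ^ 2 < R ^ 2 := by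
      rw [h1]; nlinarith
    have := norm_nonneg (z - (R : ℂ) * I)
    nlinarith

theorem ball_mul_I_subset_uhpSet {R : ℝ} (hR : 0 < R) : ball ((R : ℂ) * I) R ⊆ uhpSet := by
  intro z hz
  rw [mem_ball_mul_I_iff hR] at hz
  have : 0 ≤ ‖z‖ ^ 2 := sq_nonneg _
  rw [mem_uhpSet]
  by_contra h
  push Not at h
  nlinarith

theorem ball_mul_I_mono {R R' : ℝ} (hR : 0 < R) (h : R ≤ R') :
    ball ((R : ℂ) * I) R ⊆ ball ((R' : ℂ) * I) R' := by
  intro z hz
  have hz' := ball_mul_I_subset_uhpSet hR hz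
  rw [mem_uhpSet] at hz'
  rw [mem_ball_mul_I_iff hR] at hz
  rw [mem_ball_mul_I_iff (hR.trans_le h)]
  nlinarith

/-- A function holomorphic on the upper half plane has a primitive there. -/
theorem exists_primitive_upperHalfPlane {g : ℂ → ℂ} (hg : DifferentiableOn ℂ g uhpSet) :
    ∃ G : ℂ → ℂ, ∀ z, 0 < z.im → HasDerivAt G (g z) z := by
  classical
  -- primitives on the balls `B_R = ball (R * I) R`, normalised at `I`
  have key : ∀ R : ℝ, ∃ G : ℂ → ℂ, 1 ≤ R → (G I = 0 ∧ ∀ z ∈ ball ((R : ℂ) * I) R, HasDerivAt G (g z) z) := by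
    intro R
    by_cases hR : 1 ≤ R
    · have hR0 : 0 < R := lt_of_lt_of_le one_pos hR
      obtain ⟨G, hG0, hG⟩ := ((hg.mono (ball_mul_I_subset_uhpSet hR0)).isExactOn_ball).with_val_at I 0
      exact ⟨G, fun _ => ⟨hG0, hG⟩⟩
    · exact ⟨0, fun h => absurd h hR⟩
  choose Gf hGf using key
  have hI : ∀ R : ℝ, 1 ≤ R → I ∈ ball ((R : ℂ) * I) R := by
    intro R hR
    rw [mem_ball_mul_I_iff (lt_of_lt_of_le one_pos hR)]
    simp; linarith
  -- compatibility
  have compat : ∀ R R' : ℝ, 1 ≤ R → R ≤ R' → EqOn (Gf R) (Gf R') (ball ((R : ℂ) * I) R) := by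
    intro R R' hR hRR'
    have hR0 : 0 < R := lt_of_lt_of_le one_pos hR
    have hR' : 1 ≤ R' := hR.trans hRR'
    have hsub := ball_mul_I_mono hR0 hRR'
    have h1 := (hGf R hR).2
    have h2 := (hGf R' hR').2
    refine isOpen_ball.eqOn_of_deriv_eq (convex_ball _ _).isPreconnected
      (fun z hz => (h1 z hz).differentiableAt.differentiableWithinAt)
      (fun z hz => (h2 z (hsub hz)).differentiableAt.differentiableWithinAt)
      (fun z hz => ?_) (hI R hR) ?_
    · rw [(h1 z hz).deriv, (h2 z (hsub hz)).deriv]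
    · rw [(hGf R hR).1, (hGf R' hR').1]
  -- radius function
  let rad : ℂ → ℝ := fun z => max 1 (‖z‖ ^ 2 / z.im)
  have hrad : ∀ z : ℂ, 0 < z.im → ∀ R, rad z < R → z ∈ ball ((R : ℂ) * I) R := by
    intro z hz R hR
    have h1 : (1 : ℝ) < R := lt_of_le_of_lt (le_max_left _ _) hR
    have h2 : ‖z‖ ^ 2 / z.im < R := lt_of_le_of_lt (le_max_right _ _) hR
    rw [mem_ball_mul_I_iff (by linarith)]
    rw [div_lt_iff₀ hz] at h2
    nlinarith [sq_nonneg ‖z‖]
  refine ⟨fun z => Gf (rad z + 1) z, fun z hz => ?_⟩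
  set R₀ := rad z + 1 with hR₀
  have hR₀1 : 1 ≤ R₀ := by
    have : (1 : ℝ) ≤ rad z := le_max_left _ _
    linarith
  have hz₀ : z ∈ ball ((R₀ : ℂ) * I) R₀ := hrad z hz R₀ (by linarith)
  have hd := (hGf R₀ hR₀1).2 z hz₀
  refine hd.congr_of_eventuallyEq ?_
  have hnhds : ball ((R₀ : ℂ) * I) R₀ ∈ 𝓝 z := isOpen_ball.mem_nhds hz₀
  filter_upwards [hnhds] with w hw
  have hwim : 0 < w.im := ball_mul_I_subset_uhpSet (lt_of_lt_of_le one_pos hR₀1) hw
  have hw1 : 1 ≤ rad w + 1 := by
    have : (1 : ℝ) ≤ rad w := le_max_left _ _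
    linarith
  have hww : w ∈ ball (((rad w + 1 : ℝ) : ℂ) * I) (rad w + 1) := hrad w hwim _ (by linarith)
  show Gf (rad w + 1) w = Gf R₀ w
  rcases le_total (rad w + 1) R₀ with h | h
  · exact compat _ _ hw1 h hww
  · exact (compat _ _ hR₀1 h hw).symm

/-! ### Exponential decay on vertical strips -/

/-- `g` decays exponentially (as `z.im → ∞`) on every vertical strip `|z.re| ≤ B`. -/
def StripDecay (g : ℂ → ℂ) : Prop :=
  ∀ B : ℝ, ∃ c : ℝ, 0 < c ∧ ∃ C A : ℝ, ∀ z : ℂ, |z.re| ≤ B → A ≤ z.im →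
    ‖g z‖ ≤ C * Real.exp (-c * z.im)

/-- Convenient form: the constants can be taken with `0 ≤ C` and `1 ≤ A`. -/
theorem StripDecay.exists_nonneg {g : ℂ → ℂ} (hg : StripDecay g) (B : ℝ) :
    ∃ c : ℝ, 0 < c ∧ ∃ C A : ℝ, 0 ≤ C ∧ 1 ≤ A ∧ ∀ z : ℂ, |z.re| ≤ B → A ≤ z.im →
      ‖g z‖ ≤ C * Real.exp (-c * z.im) := by
  obtain ⟨c, hc, C, A, h⟩ := hg B
  refine ⟨c, hc, max C 0, max A 1, le_max_right _ _, le_max_right _ _, fun z hz hA => ?_⟩
  refine (h z hz ((le_max_left _ _).trans hA)).trans ?_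
  exact mul_le_mul_of_nonneg_right (le_max_left _ _) (Real.exp_pos _).le

/-- The primitive of `g` vanishing at `i∞`: `∫_{i∞}^z g`, computed along the vertical ray. -/
def normPrim (g : ℂ → ℂ) (z : ℂ) : ℂ := -(I * ∫ t in Ioi (0 : ℝ), g (z + t * I))

section core

variable {g : ℂ → ℂ}

theorem add_mul_I_mem_uhpSet {z : ℂ} (hz : 0 < z.im) {t : ℝ} (ht : 0 ≤ t) :
    z + t * I ∈ uhpSet := by
  rw [mem_uhpSet]; simp; linarith

theorem continuousOn_vertical (hg : DifferentiableOn ℂ g uhpSet) {z : ℂ} (hz : 0 < z.im) :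
    ContinuousOn (fun t : ℝ => g (z + t * I)) (Ici 0) := by
  have h1 : ContinuousOn g uhpSet := hg.continuousOn
  refine h1.comp (by fun_prop) ?_
  intro t ht
  exact add_mul_I_mem_uhpSet hz ht

theorem integrableOn_vertical (hg : DifferentiableOn ℂ g uhpSet) (hd : StripDecay g)
    {z : ℂ} (hz : 0 < z.im) :
    IntegrableOn (fun t : ℝ => g (z + t * I)) (Ioi 0) := by
  obtain ⟨c, hc, C, A, hC, hA, h⟩ := hd.exists_nonneg |z.re|
  have hcont := continuousOn_vertical hg hz
  have hmeas : AEStronglyMeasurable (fun t : ℝ => g (z + t * I)) (volume.restrict (Ioi 0)) :=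
    (hcont.mono Ioi_subset_Ici_self).aestronglyMeasurable measurableSet_Ioi
  rw [IntegrableOn, ← integrable_norm_iff hmeas]
  refine integrable_of_isBigO_exp_neg hc hcont.norm ?_
  refine Asymptotics.IsBigO.of_bound (C * Real.exp (-c * z.im)) ?_
  filter_upwards [eventually_ge_atTop A, eventually_ge_atTop 0] with t ht ht0
  have hre : |(z + t * I).re| ≤ |z.re| := by simp
  have him : A ≤ (z + t * I).im := by simp; linarith
  have := h _ hre him
  rw [norm_norm, Real.norm_of_nonneg (Real.exp_pos _).le]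
  refine this.trans (le_of_eq ?_)
  rw [mul_assoc, ← Real.exp_add]
  congr 2
  simp; ring

/-- Bound for `normPrim g` in a strip. -/
theorem norm_normPrim_le {B c C A : ℝ} (hc : 0 < c)
    (hA : 0 < A)
    (h : ∀ z : ℂ, |z.re| ≤ B → A ≤ z.im → ‖g z‖ ≤ C * Real.exp (-c * z.im))
    {z : ℂ} (hzB : |z.re| ≤ B) (hzA : A ≤ z.im) :
    ‖normPrim g z‖ ≤ (C / c) * Real.exp (-c * z.im) := by
  have hz : 0 < z.im := hA.trans_le hzA
  rw [normPrim, norm_neg, norm_mul, norm_I, one_mul]
  have hint : IntegrableOn (fun t : ℝ => C * Real.exp (-c * z.im) * Real.exp (-c * t)) (Ioi 0) :=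
    (exp_neg_integrableOn_Ioi 0 hc).const_mul _
  refine (norm_integral_le_of_norm_le hint ?_).trans (le_of_eq ?_)
  · refine (ae_restrict_iff' measurableSet_Ioi).mpr (Eventually.of_forall fun t ht => ?_)
    have ht0 : (0 : ℝ) < t := ht
    have hre : |(z + t * I).re| ≤ B := by simpa using hzB
    have him : A ≤ (z + t * I).im := by simp; linarith
    refine (h _ hre him).trans (le_of_eq ?_)
    rw [mul_assoc, ← Real.exp_add]
    congr 2
    simp; ring
  · rw [integral_const_mul]
    have : ∫ t in Ioi (0 : ℝ), Real.exp (-c * t) = 1 / c := by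
      rw [integral_exp_mul_Ioi (by linarith : -c < 0) 0]
      simp
    rw [this]; ring

/-- `normPrim g` decays exponentially on vertical strips if `g` does. -/
theorem StripDecay.normPrim (hd : StripDecay g) : StripDecay (normPrim g) := by
  intro B
  obtain ⟨c, hc, C, A, _, hA, h⟩ := hd.exists_nonneg B
  exact ⟨c, hc, C / c, A, fun z hzB hzA =>
    norm_normPrim_le hc (lt_of_lt_of_le one_pos hA) h hzB hzA⟩

/-- A function decaying on strips tends to `0` along every vertical line. -/
theorem StripDecay.tendsto_vertical (hd : StripDecay g) (z : ℂ) :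
    Tendsto (fun t : ℝ => g (z + t * I)) atTop (𝓝 0) := by
  obtain ⟨c, hc, C, A, hC, hA, h⟩ := hd.exists_nonneg |z.re|
  rw [tendsto_zero_iff_norm_tendsto_zero]
  have hlim : Tendsto (fun t : ℝ => C * Real.exp (-c * (z.im + t))) atTop (𝓝 0) := by
    have h1 : Tendsto (fun t : ℝ => -c * (z.im + t)) atTop atBot := by
      have : Tendsto (fun t : ℝ => z.im + t) atTop atTop := tendsto_atTop_add_const_left _ _ tendsto_id
      exact (tendsto_const_mul_atBot_of_neg (by linarith : -c < 0)).mpr this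
    have h2 := Real.tendsto_exp_atBot.comp h1
    simpa using h2.const_mul C
  refine squeeze_zero' (Eventually.of_forall fun t => norm_nonneg _) ?_ hlim
  filter_upwards [eventually_ge_atTop (A - z.im)] with t ht
  have hre : |(z + t * I).re| ≤ |z.re| := by simp
  have him : A ≤ (z + t * I).im := by simp; linarith
  refine (h _ hre him).trans (le_of_eq ?_)
  congr 2
  simp

/-- Key step: if `G` is any primitive of `g` on the upper half plane then `G - normPrim g` is
constant there. -/
theorem exists_const_of_primitive (hg : DifferentiableOn ℂ g uhpSet) (hd : StripDecay g)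
    {G : ℂ → ℂ} (hG : ∀ z, 0 < z.im → HasDerivAt G (g z) z) :
    ∃ L : ℂ, ∀ z, 0 < z.im → G z - L = normPrim g z := by
  -- the limit of `G` along the vertical ray through `z`
  have hderiv : ∀ z : ℂ, 0 < z.im → ∀ t : ℝ, t ∈ Ioi (0 : ℝ) →
      HasDerivAt (fun s : ℝ => G (z + s * I)) (g (z + t * I) * I) t := by
    intro z hz t ht
    have ht0 : (0 : ℝ) ≤ t := le_of_lt ht
    have h1 : HasDerivAt G (g (z + t * I)) (z + t * I) :=
      hG _ (add_mul_I_mem_uhpSet hz ht0)
    have h2 : HasDerivAt (fun s : ℂ => z + s * I) I (t : ℂ) := by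
      simpa using ((hasDerivAt_id (t : ℂ)).mul_const I).const_add z
    have h3 := (h1.comp (t : ℂ) h2).comp_ofReal
    simpa using h3
  have hint : ∀ z : ℂ, 0 < z.im → IntegrableOn (fun t : ℝ => g (z + t * I) * I) (Ioi 0) :=
    fun z hz => (integrableOn_vertical hg hd hz).mul_const I
  have hlim : ∀ z : ℂ, 0 < z.im →
      Tendsto (fun s : ℝ => G (z + s * I)) atTop (𝓝 (limUnder atTop fun s : ℝ => G (z + s * I))) :=
    fun z hz => tendsto_limUnder_of_hasDerivAt_of_integrableOn_Ioi (hderiv z hz) (hint z hz)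
  set Lf : ℂ → ℂ := fun z => limUnder atTop fun s : ℝ => G (z + s * I) with hLf
  -- the integral formula
  have hformula : ∀ z : ℂ, 0 < z.im → G z - Lf z = normPrim g z := by
    intro z hz
    have hcw : ContinuousWithinAt (fun s : ℝ => G (z + s * I)) (Ici 0) 0 := by
      have h1 : HasDerivAt G (g z) z := hG z hz
      have h2 : ContinuousAt G (z + ((0 : ℝ) : ℂ) * I) := by simpa using h1.continuousAt
      have h3 : ContinuousAt (fun s : ℝ => z + (s : ℂ) * I) 0 := by fun_prop
      exact (ContinuousAt.comp (f := fun s : ℝ => z + (s : ℂ) * I) h2 h3).continuousWithinAt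
    have := integral_Ioi_of_hasDerivAt_of_tendsto hcw (hderiv z hz) (hint z hz) (hlim z hz)
    rw [normPrim]
    have h4 : ∫ t in Ioi (0 : ℝ), g (z + t * I) * I = (∫ t in Ioi (0 : ℝ), g (z + t * I)) * I :=
      integral_mul_const _ _
    rw [h4] at this
    simp only [ofReal_zero, zero_mul, add_zero] at this
    rw [mul_comm I, this]; ring
  -- `Lf` is constant
  have hconst : ∀ z w : ℂ, 0 < z.im → 0 < w.im → Lf z = Lf w := by
    intro z w hz hw
    have hzw : Tendsto (fun s : ℝ => G (z + s * I) - G (w + s * I)) atTop (𝓝 (Lf z - Lf w)) :=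
      (hlim z hz).sub (hlim w hw)
    have h0 : Tendsto (fun s : ℝ => G (z + s * I) - G (w + s * I)) atTop (𝓝 0) := by
      obtain ⟨B, hzB, hwB⟩ : ∃ B : ℝ, |z.re| ≤ B ∧ |w.re| ≤ B :=
        ⟨max |z.re| |w.re|, le_max_left _ _, le_max_right _ _⟩
      obtain ⟨c, hc, C, A, hC, hA, h⟩ := hd.exists_nonneg B
      rw [tendsto_zero_iff_norm_tendsto_zero]
      have hlim' : Tendsto (fun t : ℝ => C * Real.exp (-c * t) * ‖z - w‖) atTop (𝓝 0) := by
        have h1 : Tendsto (fun t : ℝ => -c * t) atTop atBot :=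
          (tendsto_const_mul_atBot_of_neg (by linarith : -c < 0)).mpr tendsto_id
        have h2 := Real.tendsto_exp_atBot.comp h1
        simpa using (h2.const_mul C).mul_const ‖z - w‖
      refine squeeze_zero' (Eventually.of_forall fun t => norm_nonneg _) ?_ hlim'
      filter_upwards [eventually_ge_atTop A] with t ht
      -- mean value inequality on the convex set `{|re| ≤ B, t ≤ im}`
      set S : Set ℂ := {u : ℂ | |u.re| ≤ B ∧ t ≤ u.im} with hS
      have hSconv : Convex ℝ S := by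
        have h1 : Convex ℝ {u : ℂ | |u.re| ≤ B} := by
          have : {u : ℂ | |u.re| ≤ B} = Complex.reCLM ⁻¹' (Icc (-B) B) := by
            ext u; simp [abs_le]
          rw [this]
          exact (convex_Icc _ _).is_linear_preimage Complex.reCLM.toLinearMap.isLinear
        have h2 : Convex ℝ {u : ℂ | t ≤ u.im} := by
          have : {u : ℂ | t ≤ u.im} = Complex.imCLM ⁻¹' (Ici t) := by
            ext u; simp
          rw [this]
          exact (convex_Ici _).is_linear_preimage Complex.imCLM.toLinearMap.isLinear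
        exact h1.inter h2
      have ht0 : 0 < t := lt_of_lt_of_le one_pos (hA.trans ht)
      have hSsub : ∀ u ∈ S, 0 < u.im := fun u hu => lt_of_lt_of_le ht0 hu.2
      have hderivS : ∀ u ∈ S, HasDerivWithinAt G (g u) S u :=
        fun u hu => (hG u (hSsub u hu)).hasDerivWithinAt
      have hboundS : ∀ u ∈ S, ‖g u‖ ≤ C * Real.exp (-c * t) := by
        intro u hu
        refine (h u hu.1 (ht.trans hu.2)).trans ?_
        refine mul_le_mul_of_nonneg_left ?_ hC
        rw [Real.exp_le_exp]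
        have := hu.2
        nlinarith
      have hzS : z + t * I ∈ S := by
        refine ⟨by simpa using hzB, by simp; linarith⟩
      have hwS : w + t * I ∈ S := by
        refine ⟨by simpa using hwB, by simp; linarith⟩
      have := hSconv.norm_image_sub_le_of_norm_hasDerivWithin_le hderivS hboundS hwS hzS
      refine this.trans (le_of_eq ?_)
      congr 2
      ring
    exact sub_eq_zero.mp (tendsto_nhds_unique hzw h0)
  refine ⟨Lf I, fun z hz => ?_⟩
  rw [← hformula z hz, hconst z I hz (by simp)]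

/-- `normPrim g` is a primitive of `g` on the upper half plane. -/
theorem normPrim_hasDerivAt (hg : DifferentiableOn ℂ g uhpSet) (hd : StripDecay g)
    {z : ℂ} (hz : 0 < z.im) : HasDerivAt (normPrim g) (g z) z := by
  obtain ⟨G, hG⟩ := exists_primitive_upperHalfPlane hg
  obtain ⟨L, hL⟩ := exists_const_of_primitive hg hd hG
  have h1 : HasDerivAt (fun u => G u - L) (g z) z := (hG z hz).sub_const L
  refine h1.congr_of_eventuallyEq ?_
  filter_upwards [uhpSet_isOpen.mem_nhds hz] with u hu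
  exact (hL u hu).symm

/-- Uniqueness: a primitive of `g` tending to zero along one vertical line is `normPrim g`. -/
theorem eq_normPrim_of_hasDerivAt (hg : DifferentiableOn ℂ g uhpSet) (hd : StripDecay g)
    {G : ℂ → ℂ} (hG : ∀ z, 0 < z.im → HasDerivAt G (g z) z) {x : ℂ} (hx : 0 < x.im)
    (h0 : Tendsto (fun t : ℝ => G (x + t * I)) atTop (𝓝 0)) :
    ∀ z, 0 < z.im → G z = normPrim g z := by
  obtain ⟨L, hL⟩ := exists_const_of_primitive hg hd hG
  have h1 : Tendsto (fun t : ℝ => normPrim g (x + t * I)) atTop (𝓝 0) :=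
    hd.normPrim.tendsto_vertical x
  have h2 : Tendsto (fun t : ℝ => G (x + t * I) - L) atTop (𝓝 0) := by
    refine h1.congr' ?_
    filter_upwards [eventually_ge_atTop 0] with t ht
    exact (hL _ (add_mul_I_mem_uhpSet hx ht)).symm
  have h3 : Tendsto (fun t : ℝ => G (x + t * I) - L) atTop (𝓝 (0 - L)) := h0.sub_const L
  have hL0 : L = 0 := by
    have := tendsto_nhds_unique h2 h3
    simpa using this.symm
  intro z hz
  rw [← hL z hz, hL0, sub_zero]

end core

end Fermat.Agent.S22
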