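/-
S22 helper (owner: helper95).  Chain rule for Eichler-type primitives under Möbius maps.

For `f : ℍ → ℂ`, `w : ℕ`, `v = (s, t) : ℂ × ℂ` put
`wt w v f u = (s * u + t) ^ w * f (ofComplex u)` (a function `ℂ → ℂ`), and let
`normPrim (wt w v f)` be helper20's primitive vanishing at `i∞`.  For `g : GL (Fin 2) ℝ` of
positive determinant and `k = w + 2` we prove

* `wt_smul_mul_deriv`: the weight identity
  `wt w v f (g • z) * (det g / denom g z ^ 2) = (det g) ^ (-w) * wt w (vmul v g) (f ∣[k] g) z`;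
* `exists_period_const`: `normPrim (wt w v f) (g • z) = c + (det g)^(-w) * normPrim (wt w (v·g) (f∣[k]g)) z`
  for a constant `c` independent of `z`;
* `normPrim_smul_of_upperTriangular`: `c = 0` if `g 1 0 = 0`;
* `normPrim_slash_upperTriangular`: the "htri" form
  `normPrim (wt w v (f ∣[k] δ)) z = normPrim (wt w (v · adj δ) f) (δ • z)`.
-/
import Mathlib
import Fermat.Agent.S22.Primitive
import Fermat.Agent.S22.HeckePeriodAbstract

set_option autoImplicit false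

open Complex Filter Topology UpperHalfPlane
open scoped MatrixGroups ModularForm Manifold

noncomputable section

namespace Fermat.Agent.S22

/-- The weighted integrand `u ↦ (s u + t)^w f(u)` on `ℂ` (junk outside the upper half plane). -/
def wt (w : ℕ) (v : ℂ × ℂ) (f : ℍ → ℂ) : ℂ → ℂ :=
  fun u => (v.1 * u + v.2) ^ w * f (ofComplex u)

theorem wt_apply_coe (w : ℕ) (v : ℂ × ℂ) (f : ℍ → ℂ) (z : ℍ) :
    wt w v f (z : ℂ) = (v.1 * (z : ℂ) + v.2) ^ w * f z := by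
  simp [wt, ofComplex_apply]

theorem wt_differentiableOn (w : ℕ) (v : ℂ × ℂ) {f : ℍ → ℂ} (hf : MDiff f) :
    DifferentiableOn ℂ (wt w v f) uhpSet := by
  have h1 : DifferentiableOn ℂ (f ∘ ofComplex) {z : ℂ | 0 < z.im} :=
    UpperHalfPlane.mdifferentiable_iff.mp hf
  have h2 : DifferentiableOn ℂ (fun u : ℂ => (v.1 * u + v.2) ^ w) uhpSet := by
    apply Differentiable.differentiableOn
    fun_prop
  exact h2.mul h1

theorem wt_smul_vec (w : ℕ) (c : ℂ) (v : ℂ × ℂ) (f : ℍ → ℂ) :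
    wt w (c * v.1, c * v.2) f = fun u => c ^ w * wt w v f u := by
  funext u
  simp only [wt]
  rw [show c * v.1 * u + c * v.2 = c * (v.1 * u + v.2) by ring, mul_pow]
  ring

/-- Chain rule along `u ↦ g • u`. -/
theorem hasDerivAt_comp_smul {g : GL (Fin 2) ℝ} (hg : 0 < g.val.det) (z : ℍ) {G : ℂ → ℂ} {d : ℂ}
    (hG : HasDerivAt G d ((g • z : ℍ) : ℂ)) :
    HasDerivAt (fun u : ℂ => G ((g • ofComplex u : ℍ) : ℂ))
      (d * ((g.val.det : ℂ) / denom g z ^ 2)) (z : ℂ) := by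
  have h1 : HasDerivAt (fun u : ℂ => ((g • ofComplex u : ℍ) : ℂ))
      ((g.val.det : ℂ) / denom g z ^ 2) (z : ℂ) := (hasStrictDerivAt_smul hg z).hasDerivAt
  have hz : ((g • ofComplex (z : ℂ) : ℍ) : ℂ) = ((g • z : ℍ) : ℂ) := by rw [ofComplex_apply]
  have hG' : HasDerivAt G d ((g • ofComplex (z : ℂ) : ℍ) : ℂ) := by rw [hz]; exact hG
  exact hG'.comp (z : ℂ) h1

/-- The weight identity behind all period relations (`k = w + 2`). -/
theorem wt_smul_mul_deriv {g : GL (Fin 2) ℝ} (hg : 0 < g.val.det) (w : ℕ) (v : ℂ × ℂ)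
    (f : ℍ → ℂ) (z : ℍ) :
    wt w v f ((g • z : ℍ) : ℂ) * ((g.val.det : ℂ) / denom g z ^ 2) =
      ((g.val.det : ℂ) ^ w)⁻¹ *
        wt w (vmul v (g : Matrix (Fin 2) (Fin 2) ℝ)) (f ∣[((w : ℤ) + 2)] g) (z : ℂ) := by
  have hdet : (0 : ℝ) < g.det.val := by
    rw [Matrix.GeneralLinearGroup.val_det_apply]; exact hg
  have hdetC : (g.val.det : ℂ) ≠ 0 := by exact_mod_cast hg.ne'
  have hden : denom g z ≠ 0 := denom_ne_zero g z
  rw [wt_apply_coe, wt_apply_coe, ModularForm.slash_apply]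
  have hσ : σ g (f (g • z)) = f (g • z) := by
    rw [σ, if_pos hdet]; rfl
  rw [hσ, coe_smul_of_det_pos hdet]
  have habs : |g.det.val| = g.val.det := by
    rw [abs_of_pos hdet, Matrix.GeneralLinearGroup.val_det_apply]
  rw [habs]
  have hlin : (vmul v (g : Matrix (Fin 2) (Fin 2) ℝ)).1 * (z : ℂ)
      + (vmul v (g : Matrix (Fin 2) (Fin 2) ℝ)).2 = v.1 * num g z + v.2 * denom g z := by
    simp only [vmul, num, denom]
    ring
  rw [hlin]
  have h1 : v.1 * (num g z / denom g z) + v.2 = (v.1 * num g z + v.2 * denom g z) / denom g z := by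
    field_simp
  rw [h1, div_pow]
  have hk1 : ((g.val.det : ℝ) : ℂ) ^ ((w : ℤ) + 2 - 1) = (g.val.det : ℂ) ^ w * (g.val.det : ℂ) := by
    rw [show (w : ℤ) + 2 - 1 = (w : ℤ) + 1 by ring, zpow_add₀ hdetC, zpow_natCast, zpow_one]
  have hk2 : denom g z ^ (-((w : ℤ) + 2)) = (denom g z ^ w * denom g z ^ 2)⁻¹ := by
    rw [zpow_neg, show (w : ℤ) + 2 = ((w + 2 : ℕ) : ℤ) by push_cast; ring, zpow_natCast, pow_add]
  rw [hk1, hk2]
  field_simp

/-- Derivative of `u ↦ normPrim (wt w v f) (g • u)` at `z`. -/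
theorem hasDerivAt_normPrim_smul {g : GL (Fin 2) ℝ} (hg : 0 < g.val.det) (w : ℕ) (v : ℂ × ℂ)
    {f : ℍ → ℂ} (hf : MDiff f) (hd : StripDecay (wt w v f)) (z : ℍ) :
    HasDerivAt (fun u : ℂ => normPrim (wt w v f) ((g • ofComplex u : ℍ) : ℂ))
      (((g.val.det : ℂ) ^ w)⁻¹ *
        wt w (vmul v (g : Matrix (Fin 2) (Fin 2) ℝ)) (f ∣[((w : ℤ) + 2)] g) (z : ℂ)) (z : ℂ) := by
  have h1 : HasDerivAt (normPrim (wt w v f)) (wt w v f ((g • z : ℍ) : ℂ)) ((g • z : ℍ) : ℂ) :=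
    normPrim_hasDerivAt (wt_differentiableOn w v hf) hd (g • z).im_pos
  have h2 := hasDerivAt_comp_smul hg z h1
  rwa [wt_smul_mul_deriv hg w v f z] at h2

/-- **Period rule.** `normPrim (wt w v f) (g • z)` and `(det g)^(-w) normPrim (wt w (v·g) (f∣g)) z`
differ by a constant. -/
theorem exists_period_const {g : GL (Fin 2) ℝ} (hg : 0 < g.val.det) (w : ℕ) (v : ℂ × ℂ)
    {f : ℍ → ℂ} (hf : MDiff f) (hd : StripDecay (wt w v f))
    (hd' : StripDecay (wt w (vmul v (g : Matrix (Fin 2) (Fin 2) ℝ)) (f ∣[((w : ℤ) + 2)] g))) :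
    ∃ c : ℂ, ∀ z : ℍ, normPrim (wt w v f) ((g • z : ℍ) : ℂ) =
      c + ((g.val.det : ℂ) ^ w)⁻¹ *
        normPrim (wt w (vmul v (g : Matrix (Fin 2) (Fin 2) ℝ)) (f ∣[((w : ℤ) + 2)] g)) (z : ℂ) := by
  set v' := vmul v (g : Matrix (Fin 2) (Fin 2) ℝ) with hv'
  set f' := f ∣[((w : ℤ) + 2)] g with hf'
  have hf'd : MDiff f' := hf.slash _ g
  set A : ℂ → ℂ := fun u => normPrim (wt w v f) ((g • ofComplex u : ℍ) : ℂ) with hA
  set B : ℂ → ℂ := fun u => ((g.val.det : ℂ) ^ w)⁻¹ * normPrim (wt w v' f') u with hB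
  have hAd : ∀ z : ℂ, 0 < z.im → HasDerivAt A (((g.val.det : ℂ) ^ w)⁻¹ * wt w v' f' z) z := by
    intro z hz
    have := hasDerivAt_normPrim_smul hg w v hf hd ⟨z, hz⟩
    simpa using this
  have hBd : ∀ z : ℂ, 0 < z.im → HasDerivAt B (((g.val.det : ℂ) ^ w)⁻¹ * wt w v' f' z) z := by
    intro z hz
    exact (normPrim_hasDerivAt (wt_differentiableOn w v' hf'd) hd' hz).const_mul _
  have hD : ∀ z : ℂ, 0 < z.im → HasDerivAt (fun u => A u - B u) 0 z := by
    intro z hz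
    have := (hAd z hz).sub (hBd z hz)
    rwa [sub_self] at this
  have hdiff : DifferentiableOn ℂ (fun u => A u - B u) uhpSet :=
    fun z hz => (hD z hz).differentiableAt.differentiableWithinAt
  have hderiv : Set.EqOn (deriv (fun u => A u - B u)) 0 uhpSet := fun z hz => (hD z hz).deriv
  refine ⟨A Complex.I - B Complex.I, fun z => ?_⟩
  have hconst : A (z : ℂ) - B (z : ℂ) = A Complex.I - B Complex.I :=
    uhpSet_isOpen.is_const_of_deriv_eq_zero uhpSet_convex.isPreconnected hdiff hderiv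
      z.im_pos (by simp [uhpSet])
  have hAz : A (z : ℂ) = normPrim (wt w v f) ((g • z : ℍ) : ℂ) := by
    simp only [hA, ofComplex_apply]
  have hBz : B (z : ℂ) = ((g.val.det : ℂ) ^ w)⁻¹ * normPrim (wt w v' f') (z : ℂ) := rfl
  rw [← hAz, ← hBz]
  linear_combination hconst

theorem normPrim_const_mul (c : ℂ) (φ : ℂ → ℂ) (z : ℂ) :
    normPrim (fun u => c * φ u) z = c * normPrim φ z := by
  simp only [normPrim]
  rw [MeasureTheory.integral_const_mul]
  ring

/-- For upper triangular `g` the constant in the period rule vanishes. -/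
theorem normPrim_smul_of_upperTriangular {g : GL (Fin 2) ℝ} (hg : 0 < g.val.det)
    (hg10 : g 1 0 = 0) (w : ℕ) (v : ℂ × ℂ)
    {f : ℍ → ℂ} (hf : MDiff f) (hd : StripDecay (wt w v f))
    (hd' : StripDecay (wt w (vmul v (g : Matrix (Fin 2) (Fin 2) ℝ)) (f ∣[((w : ℤ) + 2)] g)))
    (z : ℍ) :
    normPrim (wt w v f) ((g • z : ℍ) : ℂ) =
      ((g.val.det : ℂ) ^ w)⁻¹ *
        normPrim (wt w (vmul v (g : Matrix (Fin 2) (Fin 2) ℝ)) (f ∣[((w : ℤ) + 2)] g)) (z : ℂ) := by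
  set v' := vmul v (g : Matrix (Fin 2) (Fin 2) ℝ) with hv'
  set f' := f ∣[((w : ℤ) + 2)] g with hf'
  have hf'd : MDiff f' := hf.slash _ g
  have hdetC : (g.val.det : ℂ) ≠ 0 := by exact_mod_cast hg.ne'
  have hdetpos : (0 : ℝ) < g.det.val := by
    rw [Matrix.GeneralLinearGroup.val_det_apply]; exact hg
  -- entries
  have hdet' : g.val.det = g 0 0 * g 1 1 := by
    rw [Matrix.det_fin_two]
    have : (g : Matrix (Fin 2) (Fin 2) ℝ) 1 0 = 0 := hg10
    rw [this]; ring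
  have had : 0 < g 0 0 * g 1 1 := hdet' ▸ hg
  have hd0 : g 1 1 ≠ 0 := fun h => by simp [h] at had
  have hratio : 0 < g 0 0 / g 1 1 := by
    have : g 0 0 / g 1 1 = (g 0 0 * g 1 1) / (g 1 1) ^ 2 := by field_simp
    rw [this]
    exact div_pos had (by positivity)
  set G : ℂ → ℂ := fun u => (g.val.det : ℂ) ^ w *
    normPrim (wt w v f) ((g • ofComplex u : ℍ) : ℂ) with hG
  have hGd : ∀ u : ℂ, 0 < u.im → HasDerivAt G (wt w v' f' u) u := by
    intro u hu
    have h1 := (hasDerivAt_normPrim_smul hg w v hf hd ⟨u, hu⟩).const_mul ((g.val.det : ℂ) ^ w)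
    have h2 : (g.val.det : ℂ) ^ w * (((g.val.det : ℂ) ^ w)⁻¹ * wt w v' f' u) = wt w v' f' u := by
      field_simp
    simp only at h1
    rw [h2] at h1
    exact h1
  -- the explicit formula for `g • (I + t I)`
  have hform : ∀ t : ℝ, 0 ≤ t →
      ((g • ofComplex (Complex.I + t * Complex.I) : ℍ) : ℂ) =
        ((g 0 0 : ℂ) * Complex.I + g 0 1) / g 1 1 + ((g 0 0 / g 1 1 * t : ℝ) : ℂ) * Complex.I := by
    intro t ht
    have him : 0 < (Complex.I + t * Complex.I).im := by simp; linarith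
    rw [coe_smul_of_det_pos hdetpos, ofComplex_apply_of_im_pos him]
    simp only [num, denom]
    have h10 : ((g 1 0 : ℝ) : ℂ) = 0 := by rw [hg10]; simp
    rw [h10]
    have hd0C : ((g 1 1 : ℝ) : ℂ) ≠ 0 := by exact_mod_cast hd0
    push_cast
    generalize ((g 0 0 : ℝ) : ℂ) = a at *
    generalize ((g 0 1 : ℝ) : ℂ) = b at *
    generalize ((g 1 1 : ℝ) : ℂ) = d at *
    rw [zero_mul, zero_add]
    field_simp
    ring
  have h0 : Tendsto (fun t : ℝ => G (Complex.I + t * Complex.I)) atTop (𝓝 0) := by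
    have hv := hd.normPrim.tendsto_vertical (((g 0 0 : ℂ) * Complex.I + g 0 1) / g 1 1)
    have hlin : Tendsto (fun t : ℝ => g 0 0 / g 1 1 * t) atTop atTop :=
      tendsto_id.const_mul_atTop hratio
    have h1 := (hv.comp hlin).const_mul ((g.val.det : ℂ) ^ w)
    rw [mul_zero] at h1
    refine h1.congr' ?_
    filter_upwards [eventually_ge_atTop 0] with t ht
    simp only [hG, Function.comp_apply]
    rw [hform t ht]
  have huniq := eq_normPrim_of_hasDerivAt (wt_differentiableOn w v' hf'd) hd' hGd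
    (x := Complex.I) (by simp) h0 (z : ℂ) z.im_pos
  simp only [hG, ofComplex_apply] at huniq
  rw [← huniq]
  field_simp

/-- **Upper triangular substitution rule** (the `htri` hypothesis of `period_heckeT_abstract`). -/
theorem normPrim_slash_upperTriangular {δ : GL (Fin 2) ℝ} (hδ : 0 < δ.val.det)
    (hδ10 : δ 1 0 = 0) (w : ℕ) (v : ℂ × ℂ)
    {f : ℍ → ℂ} (hf : MDiff f)
    (hd : StripDecay (wt w (vmul v (δ : Matrix (Fin 2) (Fin 2) ℝ).adjugate) f))
    (hd' : StripDecay (wt w v (f ∣[((w : ℤ) + 2)] δ)))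
    (z : ℍ) :
    normPrim (wt w v (f ∣[((w : ℤ) + 2)] δ)) (z : ℂ) =
      normPrim (wt w (vmul v (δ : Matrix (Fin 2) (Fin 2) ℝ).adjugate) f) ((δ • z : ℍ) : ℂ) := by
  set v₀ := vmul v (δ : Matrix (Fin 2) (Fin 2) ℝ).adjugate with hv₀
  have hdetC : (δ.val.det : ℂ) ≠ 0 := by exact_mod_cast hδ.ne'
  have hvv : vmul v₀ (δ : Matrix (Fin 2) (Fin 2) ℝ) = ((δ.val.det : ℂ) * v.1, (δ.val.det : ℂ) * v.2) := by
    rw [hv₀, vmul_mul, Matrix.adjugate_mul]
    simp only [vmul, Matrix.smul_apply, Matrix.one_apply_eq, smul_eq_mul, mul_one]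
    simp
    constructor <;> ring
  have hwt : wt w (vmul v₀ (δ : Matrix (Fin 2) (Fin 2) ℝ)) (f ∣[((w : ℤ) + 2)] δ)
      = fun u => (δ.val.det : ℂ) ^ w * wt w v (f ∣[((w : ℤ) + 2)] δ) u := by
    rw [hvv, wt_smul_vec]
  have hd'' : StripDecay (wt w (vmul v₀ (δ : Matrix (Fin 2) (Fin 2) ℝ)) (f ∣[((w : ℤ) + 2)] δ)) := by
    rw [hwt]
    intro B
    obtain ⟨c, hc, C, A, h⟩ := hd' B
    refine ⟨c, hc, ‖(δ.val.det : ℂ) ^ w‖ * C, A, fun z hz hA => ?_⟩
    rw [norm_mul, mul_assoc]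
    exact mul_le_mul_of_nonneg_left (h z hz hA) (norm_nonneg _)
  have key := normPrim_smul_of_upperTriangular hδ hδ10 w v₀ hf hd hd'' z
  rw [key, hwt, normPrim_const_mul]
  field_simp

end Fermat.Agent.S22
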