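/-
S22 helper library: the weight-`w` right action of `2 × 2` matrices on polynomials of degree `≤ w`,
`(P | M)(X) = (cX + d)^w · P((aX + b)/(cX + d))`, defined purely algebraically over any commutative ring.
Owner: helper84.
-/
import Mathlib

set_option autoImplicit false

open Polynomial

namespace Fermat.Agent.S22

section HomEval

variable {R : Type*} [CommRing R] {A : Type*} [CommRing A] [Algebra R A]

/-- "Homogeneous evaluation": `homEval w P U V = ∑_{m ≤ w} p_m U^m V^(w-m)`. -/
noncomputable def homEval (w : ℕ) (U V : A) : R[X] →ₗ[R] A where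
  toFun P := ∑ m ∈ Finset.range (w + 1), algebraMap R A (P.coeff m) * (U ^ m * V ^ (w - m))
  map_add' P Q := by
    simp only [coeff_add, map_add, add_mul, Finset.sum_add_distrib]
  map_smul' r P := by
    simp only [RingHom.id_apply]
    rw [Finset.smul_sum]
    refine Finset.sum_congr rfl fun m _ => ?_
    rw [coeff_smul, smul_eq_mul, map_mul, Algebra.smul_def, mul_assoc]

theorem homEval_apply (w : ℕ) (U V : A) (P : R[X]) :
    homEval w U V P = ∑ m ∈ Finset.range (w + 1), algebraMap R A (P.coeff m) * (U ^ m * V ^ (w - m)) :=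
  rfl

theorem homEval_C_mul_X_pow (w : ℕ) (U V : A) (a : R) {n : ℕ} (hn : n ≤ w) :
    homEval w U V (C a * X ^ n : R[X]) = algebraMap R A a * (U ^ n * V ^ (w - n)) := by
  rw [homEval_apply, Finset.sum_eq_single n]
  · simp
  · intro m _ hmn
    simp [hmn]
  · intro h
    exact absurd (Finset.mem_range.mpr (Nat.lt_succ_of_le hn)) h

theorem homEval_mul {i j : ℕ} (U V : A) {P Q : R[X]} (hP : P.natDegree ≤ i) (hQ : Q.natDegree ≤ j) :
    homEval (i + j) U V (P * Q) = homEval i U V P * homEval j U V Q := by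
  have hP' : P = ∑ r ∈ Finset.range (i + 1), C (P.coeff r) * X ^ r :=
    P.as_sum_range_C_mul_X_pow' (Nat.lt_succ_of_le hP)
  have hQ' : Q = ∑ s ∈ Finset.range (j + 1), C (Q.coeff s) * X ^ s :=
    Q.as_sum_range_C_mul_X_pow' (Nat.lt_succ_of_le hQ)
  have key : ∀ r ∈ Finset.range (i + 1), ∀ s ∈ Finset.range (j + 1),
      homEval (i + j) U V ((C (P.coeff r) * X ^ r) * (C (Q.coeff s) * X ^ s) : R[X]) =
        (algebraMap R A (P.coeff r) * (U ^ r * V ^ (i - r))) *
          (algebraMap R A (Q.coeff s) * (U ^ s * V ^ (j - s))) := by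
    intro r hr s hs
    have hr' : r ≤ i := Nat.lt_succ_iff.mp (Finset.mem_range.mp hr)
    have hs' : s ≤ j := Nat.lt_succ_iff.mp (Finset.mem_range.mp hs)
    have : (C (P.coeff r) * X ^ r) * (C (Q.coeff s) * X ^ s) =
        (C (P.coeff r * Q.coeff s) * X ^ (r + s) : R[X]) := by
      rw [C_mul, pow_add]; ring
    rw [this, homEval_C_mul_X_pow _ _ _ _ (Nat.add_le_add hr' hs'), map_mul]
    have hexp : i + j - (r + s) = (i - r) + (j - s) := by omega
    rw [hexp, pow_add, pow_add]
    ring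
  conv_lhs => rw [hP', hQ', Finset.sum_mul_sum]
  rw [map_sum]
  simp_rw [map_sum]
  rw [Finset.sum_congr rfl fun r hr => Finset.sum_congr rfl fun s hs => key r hr s hs]
  rw [← Finset.sum_mul_sum]
  rfl

theorem homEval_zero_left (U V : A) (P : R[X]) :
    homEval 0 U V P = algebraMap R A (P.coeff 0) := by
  simp [homEval_apply]

theorem homEval_pow (U V : A) {P : R[X]} (hP : P.natDegree ≤ 1) (n : ℕ) :
    homEval n U V (P ^ n) = (homEval 1 U V P) ^ n := by
  induction n with
  | zero => simp [homEval_zero_left]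
  | succ n ih =>
    rw [pow_succ, homEval_mul U V _ hP, ih, pow_succ]
    exact (natDegree_pow_le).trans (by simpa using Nat.mul_le_mul_left n hP)

theorem homEval_linear (U V : A) (a b : R) :
    homEval 1 U V (C a * X + C b : R[X]) = algebraMap R A a * U + algebraMap R A b * V := by
  simp [homEval_apply, Finset.sum_range_succ, coeff_X, coeff_C, add_comm]

end HomEval

section PolyAct

variable {R : Type*} [CommRing R]

/-- The numerator linear form `aX + b` of a matrix `!![a, b; c, d]`. -/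
noncomputable def linNum (M : Matrix (Fin 2) (Fin 2) R) : R[X] := C (M 0 0) * X + C (M 0 1)

/-- The denominator linear form `cX + d` of a matrix `!![a, b; c, d]`. -/
noncomputable def linDen (M : Matrix (Fin 2) (Fin 2) R) : R[X] := C (M 1 0) * X + C (M 1 1)

/-- The weight-`w` right action of a `2 × 2` matrix on polynomials (of degree `≤ w`):
`P ↦ ∑_{m ≤ w} p_m (aX+b)^m (cX+d)^(w-m)`, i.e. `(cX+d)^w P((aX+b)/(cX+d))`. -/
noncomputable def polyAct (w : ℕ) (M : Matrix (Fin 2) (Fin 2) R) : R[X] →ₗ[R] R[X] :=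
  homEval w (linNum M) (linDen M)

theorem polyAct_apply (w : ℕ) (M : Matrix (Fin 2) (Fin 2) R) (P : R[X]) :
    polyAct w M P =
      ∑ m ∈ Finset.range (w + 1), C (P.coeff m) * (linNum M ^ m * linDen M ^ (w - m)) := rfl

theorem natDegree_linNum_le (M : Matrix (Fin 2) (Fin 2) R) : (linNum M).natDegree ≤ 1 :=
  natDegree_linear_le

theorem natDegree_linDen_le (M : Matrix (Fin 2) (Fin 2) R) : (linDen M).natDegree ≤ 1 :=
  natDegree_linear_le

theorem polyAct_natDegree_le (w : ℕ) (M : Matrix (Fin 2) (Fin 2) R) (P : R[X]) :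
    (polyAct w M P).natDegree ≤ w := by
  rw [polyAct_apply]
  refine natDegree_sum_le_of_forall_le _ _ fun m hm => ?_
  have hm' : m ≤ w := Nat.lt_succ_iff.mp (Finset.mem_range.mp hm)
  refine (natDegree_C_mul_le _ _).trans ((natDegree_mul_le).trans ?_)
  have h1 : (linNum M ^ m).natDegree ≤ m :=
    natDegree_pow_le.trans (by simpa using Nat.mul_le_mul_left m (natDegree_linNum_le M))
  have h2 : (linDen M ^ (w - m)).natDegree ≤ w - m :=
    natDegree_pow_le.trans (by simpa using Nat.mul_le_mul_left (w - m) (natDegree_linDen_le M))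
  omega

theorem linNum_mul (M M' : Matrix (Fin 2) (Fin 2) R) :
    linNum (M * M') = C (M 0 0) * linNum M' + C (M 0 1) * linDen M' := by
  simp only [linNum, linDen, Matrix.mul_apply, Fin.sum_univ_two, C_add, C_mul]
  ring

theorem linDen_mul (M M' : Matrix (Fin 2) (Fin 2) R) :
    linDen (M * M') = C (M 1 0) * linNum M' + C (M 1 1) * linDen M' := by
  simp only [linNum, linDen, Matrix.mul_apply, Fin.sum_univ_two, C_add, C_mul]
  ring

/-- `polyAct` is a right action: `P | (M M') = (P | M) | M'`. No hypothesis on `P`, `M`, `M'`. -/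
theorem polyAct_mul (w : ℕ) (M M' : Matrix (Fin 2) (Fin 2) R) (P : R[X]) :
    polyAct w (M * M') P = polyAct w M' (polyAct w M P) := by
  conv_rhs => rw [polyAct_apply w M P, map_sum]
  rw [polyAct_apply]
  refine Finset.sum_congr rfl fun m hm => ?_
  have hm' : m ≤ w := Nat.lt_succ_iff.mp (Finset.mem_range.mp hm)
  have hlin : polyAct w M' (C (P.coeff m) * (linNum M ^ m * linDen M ^ (w - m))) =
      C (P.coeff m) * polyAct w M' (linNum M ^ m * linDen M ^ (w - m)) := by
    rw [← smul_eq_C_mul, map_smul, smul_eq_C_mul]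
  rw [hlin]
  congr 1
  have h1 : (linNum M ^ m).natDegree ≤ m :=
    natDegree_pow_le.trans (by simpa using Nat.mul_le_mul_left m (natDegree_linNum_le M))
  have h2 : (linDen M ^ (w - m)).natDegree ≤ w - m :=
    natDegree_pow_le.trans (by simpa using Nat.mul_le_mul_left (w - m) (natDegree_linDen_le M))
  have hw : w = m + (w - m) := by omega
  have : polyAct w M' (linNum M ^ m * linDen M ^ (w - m)) =
      homEval (m + (w - m)) (linNum M') (linDen M') (linNum M ^ m * linDen M ^ (w - m)) := by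
    rw [← hw]; rfl
  rw [this, homEval_mul _ _ h1 h2, homEval_pow _ _ (natDegree_linNum_le M),
    homEval_pow _ _ (natDegree_linDen_le M)]
  have e1 : homEval 1 (linNum M') (linDen M') (linNum M) = linNum (M * M') := by
    show homEval 1 (linNum M') (linDen M') (C (M 0 0) * X + C (M 0 1)) = _
    rw [homEval_linear, linNum_mul]
    rfl
  have e2 : homEval 1 (linNum M') (linDen M') (linDen M) = linDen (M * M') := by
    show homEval 1 (linNum M') (linDen M') (C (M 1 0) * X + C (M 1 1)) = _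
    rw [homEval_linear, linDen_mul]
    rfl
  rw [e1, e2]

theorem polyAct_one (w : ℕ) {P : R[X]} (hP : P.natDegree ≤ w) :
    polyAct w (1 : Matrix (Fin 2) (Fin 2) R) P = P := by
  rw [polyAct_apply]
  conv_rhs => rw [P.as_sum_range_C_mul_X_pow' (Nat.lt_succ_of_le hP)]
  refine Finset.sum_congr rfl fun m _ => ?_
  simp [linNum, linDen]

theorem polyAct_smul_one (w : ℕ) (ℓ : R) {P : R[X]} (hP : P.natDegree ≤ w) :
    polyAct w (ℓ • (1 : Matrix (Fin 2) (Fin 2) R)) P = ℓ ^ w • P := by
  rw [polyAct_apply]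
  conv_rhs => rw [P.as_sum_range_C_mul_X_pow' (Nat.lt_succ_of_le hP), Finset.smul_sum]
  refine Finset.sum_congr rfl fun m hm => ?_
  have hm' : m ≤ w := Nat.lt_succ_iff.mp (Finset.mem_range.mp hm)
  have hw : ℓ ^ w = ℓ ^ m * ℓ ^ (w - m) := by rw [← pow_add]; congr 1; omega
  simp only [linNum, linDen, Matrix.smul_apply, Matrix.one_apply_eq, smul_eq_mul, mul_one, ne_eq,
    zero_ne_one, not_false_eq_true, Matrix.one_apply_ne, mul_zero, map_zero, add_zero, one_ne_zero,
    zero_mul, zero_add]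
  rw [smul_eq_C_mul, hw, mul_pow, ← C_pow, ← C_pow, C_mul]
  ring

theorem polyAct_adjugate (w : ℕ) (M : Matrix (Fin 2) (Fin 2) R) {P : R[X]} (hP : P.natDegree ≤ w) :
    polyAct w M.adjugate (polyAct w M P) = M.det ^ w • P := by
  rw [← polyAct_mul, Matrix.mul_adjugate, polyAct_smul_one w _ hP]

theorem polyAct_adjugate' (w : ℕ) (M : Matrix (Fin 2) (Fin 2) R) {P : R[X]} (hP : P.natDegree ≤ w) :
    polyAct w M (polyAct w M.adjugate P) = M.det ^ w • P := by
  rw [← polyAct_mul, Matrix.adjugate_mul, polyAct_smul_one w _ hP]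

theorem polyAct_map {S : Type*} [CommRing S] (φ : R →+* S) (w : ℕ) (M : Matrix (Fin 2) (Fin 2) R)
    (P : R[X]) : (polyAct w M P).map φ = polyAct w (M.map φ) (P.map φ) := by
  simp only [polyAct_apply, linNum, linDen, Polynomial.map_sum, Polynomial.map_mul,
    Polynomial.map_pow, Polynomial.map_add, map_C, map_X, coeff_map, Matrix.map_apply]

/-- `(t - X)^w | M = (t (cX+d) - (aX+b))^w`. -/
theorem polyAct_C_sub_X_pow (w : ℕ) (M : Matrix (Fin 2) (Fin 2) R) (t : R) :
    polyAct w M ((C t - X) ^ w) = (C t * linDen M - linNum M) ^ w := by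
  have h1 : (C t - X : R[X]) = C (-1) * X + C t := by simp; ring
  have hdeg : (C t - X : R[X]).natDegree ≤ 1 := by rw [h1]; exact natDegree_linear_le
  show homEval w (linNum M) (linDen M) ((C t - X) ^ w) = _
  rw [homEval_pow _ _ hdeg, h1, homEval_linear]
  congr 1
  simp
  ring

end PolyAct

section Eval

variable {K : Type*} [Field K]

/-- Evaluation of `P | M` at a point where the denominator does not vanish. -/
theorem polyAct_eval (w : ℕ) (M : Matrix (Fin 2) (Fin 2) K) {P : K[X]} (hP : P.natDegree ≤ w)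
    (x : K) (hx : M 1 0 * x + M 1 1 ≠ 0) :
    (polyAct w M P).eval x =
      (M 1 0 * x + M 1 1) ^ w * P.eval ((M 0 0 * x + M 0 1) / (M 1 0 * x + M 1 1)) := by
  rw [polyAct_apply, eval_finsetSum, eval_eq_sum_range' (Nat.lt_succ_of_le hP), Finset.mul_sum]
  refine Finset.sum_congr rfl fun m hm => ?_
  have hm' : m ≤ w := Nat.lt_succ_iff.mp (Finset.mem_range.mp hm)
  have hw : (M 1 0 * x + M 1 1) ^ w = (M 1 0 * x + M 1 1) ^ m * (M 1 0 * x + M 1 1) ^ (w - m) := by
    rw [← pow_add]; congr 1; omega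
  have hne : (M 1 0 * x + M 1 1) ^ m ≠ 0 := pow_ne_zero _ hx
  have hcancel : (M 0 0 * x + M 0 1) ^ m / (M 1 0 * x + M 1 1) ^ m * (M 1 0 * x + M 1 1) ^ m =
      (M 0 0 * x + M 0 1) ^ m := div_mul_cancel₀ _ hne
  simp only [linNum, linDen, eval_mul, eval_C, eval_pow, eval_add, eval_X]
  rw [hw, div_pow]
  linear_combination (-(P.coeff m * (M 1 0 * x + M 1 1) ^ (w - m))) * hcancel

/-- With `t = (aτ+b)/(cτ+d)`: `(t - X)^w | M = (det M / (cτ+d))^w • (τ - X)^w`. -/
theorem polyAct_C_moebius_sub_X_pow (w : ℕ) (M : Matrix (Fin 2) (Fin 2) K) (τ : K)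
    (hτ : M 1 0 * τ + M 1 1 ≠ 0) :
    polyAct w M ((C ((M 0 0 * τ + M 0 1) / (M 1 0 * τ + M 1 1)) - X) ^ w) =
      C ((M.det / (M 1 0 * τ + M 1 1)) ^ w) * (C τ - X) ^ w := by
  rw [polyAct_C_sub_X_pow, C_pow, ← mul_pow]
  congr 1
  set t := (M 0 0 * τ + M 0 1) / (M 1 0 * τ + M 1 1) with ht
  have h1 : C t * linDen M - linNum M = C (t * M 1 0 - M 0 0) * X + C (t * M 1 1 - M 0 1) := by
    simp only [linNum, linDen, C_sub, C_mul]; ring
  have h2 : C (M.det / (M 1 0 * τ + M 1 1)) * (C τ - X) =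
      C (-(M.det / (M 1 0 * τ + M 1 1))) * X + C (M.det / (M 1 0 * τ + M 1 1) * τ) := by
    simp only [C_neg, C_mul]; ring
  have e1 : t * M 1 0 - M 0 0 = -(M.det / (M 1 0 * τ + M 1 1)) := by
    rw [ht, Matrix.det_fin_two, div_eq_mul_inv, div_eq_mul_inv]
    linear_combination (M 0 0) * (mul_inv_cancel₀ hτ)
  have e2 : t * M 1 1 - M 0 1 = M.det / (M 1 0 * τ + M 1 1) * τ := by
    rw [ht, Matrix.det_fin_two, div_eq_mul_inv, div_eq_mul_inv]
    linear_combination (M 0 1) * (mul_inv_cancel₀ hτ)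
  rw [h1, h2, e1, e2]

end Eval

section IntComplex

/-- Evaluation at a complex point of the action of an integer matrix on an integer polynomial. -/
theorem polyAct_int_eval (w : ℕ) (M : Matrix (Fin 2) (Fin 2) ℤ) {P : ℤ[X]} (hP : P.natDegree ≤ w)
    (z : ℂ) (hz : (M 1 0 : ℂ) * z + (M 1 1 : ℂ) ≠ 0) :
    ((polyAct w M P).map (Int.castRingHom ℂ)).eval z =
      ((M 1 0 : ℂ) * z + (M 1 1 : ℂ)) ^ w *
        (P.map (Int.castRingHom ℂ)).eval
          (((M 0 0 : ℂ) * z + (M 0 1 : ℂ)) / ((M 1 0 : ℂ) * z + (M 1 1 : ℂ))) := by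
  rw [polyAct_map]
  have := polyAct_eval w (M.map (Int.castRingHom ℂ)) (P := P.map (Int.castRingHom ℂ))
    (natDegree_map_le.trans hP) z (by simpa using hz)
  simpa using this

end IntComplex

end Fermat.Agent.S22
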