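/-
S22: canonical definitions of the Eichler integral `E(f,P)`, the Möbius action of integer matrices
on `ℂ`, and the period functionals (polynomial parametrisation). Owner: helper84.
Plain definitions only; the lemmas are in `Fermat/Agent/S22/Period.lean`.
-/
import Fermat.Agent.S22.Primitive
import Fermat.Agent.S22.PolyAct

set_option autoImplicit false

open Polynomial UpperHalfPlane

open scoped MatrixGroups

noncomputable section

namespace Fermat.Agent.S22

/-- The integrand `z ↦ f(z) · P(z)` as a function on `ℂ` (junk value outside the upper half plane). -/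
def eichlerIntegrand (f : ℍ → ℂ) (P : ℂ[X]) (z : ℂ) : ℂ := f (ofComplex z) * P.eval z

/-- The Eichler integral `E(f,P)(z) = ∫_{i∞}^z f(u) P(u) du` (primitive of `f · P` vanishing at `i∞`). -/
def eichlerInt (f : ℍ → ℂ) (P : ℂ[X]) : ℂ → ℂ := normPrim (eichlerIntegrand f P)

/-- Möbius action of an integer `2 × 2` matrix on `ℂ`: `z ↦ (a z + b) / (c z + d)`. -/
def moeb (M : Matrix (Fin 2) (Fin 2) ℤ) (z : ℂ) : ℂ :=
  ((M 0 0 : ℂ) * z + (M 0 1 : ℂ)) / ((M 1 0 : ℂ) * z + (M 1 1 : ℂ))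

/-- The cast `ℤ[X] → ℂ[X]`. -/
abbrev polyC (P : ℤ[X]) : ℂ[X] := P.map (Int.castRingHom ℂ)

/-- The period `"∫_{i∞}^{γ i∞} f · P"` of weight `w + 2`, computed as
`E(f,P)(γ i) - E(f, P|γ)(i)` where `P|γ = polyAct w γ P = (cX+d)^w P((aX+b)/(cX+d))`.
For `f` a cusp form of weight `w + 2` on `Γ₀(N)`, `γ ∈ Γ₀(N)` and `deg P ≤ w` the base point `i` can be
replaced by any point of the upper half plane (`period_eq_at` in `Period.lean`). -/
def period (w : ℕ) (f : ℍ → ℂ) (γ : SL(2, ℤ)) (P : ℤ[X]) : ℂ :=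
  eichlerInt f (polyC P) (moeb (γ : Matrix (Fin 2) (Fin 2) ℤ) Complex.I) -
    eichlerInt f (polyC (polyAct w (γ : Matrix (Fin 2) (Fin 2) ℤ) P)) Complex.I

end Fermat.Agent.S22
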