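/-
S22 helper (owner: helper95).  Period rule and upper-triangular substitution rule for the
canonical Eichler integral `eichlerInt f P = normPrim (eichlerIntegrand f P)` of `PeriodDefs.lean`,
with POLYNOMIAL weights and the action `polyAct`.

General form (`MC.exists_const_of_rel`, `MC.eq_of_rel_of_upperTriangular`): if `φ, ψ` are
holomorphic + `StripDecay` and `φ (g • z) * (det g / denom g z ^ 2) = ψ z`, then
`normPrim φ (g • z) = c + normPrim ψ z`, and `c = 0` when `g` is upper triangular.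
-/
import Mathlib
import Fermat.Agent.S22.Primitive
import Fermat.Agent.S22.PeriodDefs

set_option autoImplicit false

open Complex Filter Topology UpperHalfPlane Polynomial
open scoped MatrixGroups ModularForm Manifold

noncomputable section

namespace Fermat.Agent.S22.MC

/-- The complexification of a real `2 × 2` matrix. -/
def cmat (g : GL (Fin 2) ℝ) : Matrix (Fin 2) (Fin 2) ℂ :=
  (g : Matrix (Fin 2) (Fin 2) ℝ).map (algebraMap ℝ ℂ)

@[simp] theorem cmat_apply (g : GL (Fin 2) ℝ) (i j : Fin 2) : cmat g i j = ((g i j : ℝ) : ℂ) := rfl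

theorem cmat_det (g : GL (Fin 2) ℝ) : (cmat g).det = ((g.val.det : ℝ) : ℂ) := by
  simp [cmat, Matrix.det_fin_two]

theorem cmat_adjugate (g : GL (Fin 2) ℝ) :
    (cmat g).adjugate = ((g : Matrix (Fin 2) (Fin 2) ℝ).adjugate).map (algebraMap ℝ ℂ) := by
  ext i j
  fin_cases i <;> fin_cases j <;> simp [cmat, Matrix.adjugate_fin_two]

theorem cmat_mapGL (γ : SL(2, ℤ)) :
    cmat (Matrix.SpecialLinearGroup.mapGL ℝ γ) =
      (γ : Matrix (Fin 2) (Fin 2) ℤ).map (Int.castRingHom ℂ) := by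
  ext i j
  simp [cmat]

/-- Chain rule along `u ↦ g • u`. -/
theorem hasDerivAt_comp_smul {g : GL (Fin 2) ℝ} (hg : 0 < g.val.det) (z : ℍ) {G : ℂ → ℂ} {d : ℂ}
    (hG : HasDerivAt G d ((g • z : ℍ) : ℂ)) :
    HasDerivAt (fun u : ℂ => G ((g • ofComplex u : ℍ) : ℂ))
      (d * ((g.val.det : ℂ) / denom g z ^ 2)) (z : ℂ) := by
  have h1 : HasDerivAt (fun u : ℂ => ((g • ofComplex u : ℍ) : ℂ))
      ((g.val.det : ℂ) / denom g z ^ 2) (z : ℂ) := (hasStrictDerivAt_smul hg z).hasDerivAt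
  have hz : ((g • ofComplex (z : ℂ) : ℍ) : ℂ) = ((g • z : ℍ) : ℂ) := by rw [ofComplex_apply]
  have hG' : HasDerivAt G d ((g • ofComplex (z : ℂ) : ℍ) : ℂ) := by rw [hz]; exact hG
  exact hG'.comp (z : ℂ) h1

/-- General period rule. -/
theorem exists_const_of_rel {g : GL (Fin 2) ℝ} (hg : 0 < g.val.det) {φ ψ : ℂ → ℂ}
    (hφ : DifferentiableOn ℂ φ uhpSet) (hφd : StripDecay φ)
    (hψ : DifferentiableOn ℂ ψ uhpSet) (hψd : StripDecay ψ)
    (hrel : ∀ z : ℍ, φ ((g • z : ℍ) : ℂ) * ((g.val.det : ℂ) / denom g z ^ 2) = ψ (z : ℂ)) :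
    ∃ c : ℂ, ∀ z : ℍ, normPrim φ ((g • z : ℍ) : ℂ) = c + normPrim ψ (z : ℂ) := by
  set A : ℂ → ℂ := fun u => normPrim φ ((g • ofComplex u : ℍ) : ℂ) with hA
  have hAd : ∀ z : ℂ, 0 < z.im → HasDerivAt A (ψ z) z := by
    intro z hz
    have h1 : HasDerivAt (normPrim φ) (φ ((g • (⟨z, hz⟩ : ℍ) : ℍ) : ℂ))
        ((g • (⟨z, hz⟩ : ℍ) : ℍ) : ℂ) := normPrim_hasDerivAt hφ hφd (g • (⟨z, hz⟩ : ℍ)).im_pos
    have h2 := hasDerivAt_comp_smul hg ⟨z, hz⟩ h1
    rw [hrel ⟨z, hz⟩] at h2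
    exact h2
  have hBd : ∀ z : ℂ, 0 < z.im → HasDerivAt (normPrim ψ) (ψ z) z := fun z hz =>
    normPrim_hasDerivAt hψ hψd hz
  have hD : ∀ z : ℂ, 0 < z.im → HasDerivAt (fun u => A u - normPrim ψ u) 0 z := by
    intro z hz
    have := (hAd z hz).sub (hBd z hz)
    rwa [sub_self] at this
  have hdiff : DifferentiableOn ℂ (fun u => A u - normPrim ψ u) uhpSet :=
    fun z hz => (hD z hz).differentiableAt.differentiableWithinAt
  have hderiv : Set.EqOn (deriv (fun u => A u - normPrim ψ u)) 0 uhpSet :=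
    fun z hz => (hD z hz).deriv
  refine ⟨A Complex.I - normPrim ψ Complex.I, fun z => ?_⟩
  have hconst : A (z : ℂ) - normPrim ψ (z : ℂ) = A Complex.I - normPrim ψ Complex.I :=
    uhpSet_isOpen.is_const_of_deriv_eq_zero uhpSet_convex.isPreconnected hdiff hderiv
      z.im_pos (by simp [uhpSet])
  have hAz : A (z : ℂ) = normPrim φ ((g • z : ℍ) : ℂ) := by
    simp only [hA, ofComplex_apply]
  rw [← hAz]
  linear_combination hconst

/-- General upper-triangular rule: the constant vanishes. -/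
theorem eq_of_rel_of_upperTriangular {g : GL (Fin 2) ℝ} (hg : 0 < g.val.det) (hg10 : g 1 0 = 0)
    {φ ψ : ℂ → ℂ}
    (hφ : DifferentiableOn ℂ φ uhpSet) (hφd : StripDecay φ)
    (hψ : DifferentiableOn ℂ ψ uhpSet) (hψd : StripDecay ψ)
    (hrel : ∀ z : ℍ, φ ((g • z : ℍ) : ℂ) * ((g.val.det : ℂ) / denom g z ^ 2) = ψ (z : ℂ))
    (z : ℍ) : normPrim φ ((g • z : ℍ) : ℂ) = normPrim ψ (z : ℂ) := by
  have hdetpos : (0 : ℝ) < g.det.val := by
    rw [Matrix.GeneralLinearGroup.val_det_apply]; exact hg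
  have hdet' : g.val.det = g 0 0 * g 1 1 := by
    rw [Matrix.det_fin_two]
    have : (g : Matrix (Fin 2) (Fin 2) ℝ) 1 0 = 0 := hg10
    rw [this]; ring
  have had : 0 < g 0 0 * g 1 1 := hdet' ▸ hg
  have hd0 : g 1 1 ≠ 0 := fun h => by simp [h] at had
  have hratio : 0 < g 0 0 / g 1 1 := by
    have : g 0 0 / g 1 1 = (g 0 0 * g 1 1) / (g 1 1) ^ 2 := by field_simp
    rw [this]
    exact div_pos had (by positivity)
  set G : ℂ → ℂ := fun u => normPrim φ ((g • ofComplex u : ℍ) : ℂ) with hG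
  have hGd : ∀ u : ℂ, 0 < u.im → HasDerivAt G (ψ u) u := by
    intro u hu
    have h1 : HasDerivAt (normPrim φ) (φ ((g • (⟨u, hu⟩ : ℍ) : ℍ) : ℂ))
        ((g • (⟨u, hu⟩ : ℍ) : ℍ) : ℂ) := normPrim_hasDerivAt hφ hφd (g • (⟨u, hu⟩ : ℍ)).im_pos
    have h2 := hasDerivAt_comp_smul hg ⟨u, hu⟩ h1
    rw [hrel ⟨u, hu⟩] at h2
    exact h2
  have hform : ∀ t : ℝ, 0 ≤ t →
      ((g • ofComplex (Complex.I + t * Complex.I) : ℍ) : ℂ) =
        ((g 0 0 : ℂ) * Complex.I + g 0 1) / g 1 1 + ((g 0 0 / g 1 1 * t : ℝ) : ℂ) * Complex.I := by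
    intro t ht
    have him : 0 < (Complex.I + t * Complex.I).im := by simp; linarith
    rw [coe_smul_of_det_pos hdetpos, ofComplex_apply_of_im_pos him]
    simp only [num, denom]
    have h10 : ((g 1 0 : ℝ) : ℂ) = 0 := by rw [hg10]; simp
    rw [h10]
    have hd0C : ((g 1 1 : ℝ) : ℂ) ≠ 0 := by exact_mod_cast hd0
    push_cast
    generalize ((g 0 0 : ℝ) : ℂ) = a at *
    generalize ((g 0 1 : ℝ) : ℂ) = b at *
    generalize ((g 1 1 : ℝ) : ℂ) = d at *
    rw [zero_mul, zero_add]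
    field_simp
    ring
  have h0 : Tendsto (fun t : ℝ => G (Complex.I + t * Complex.I)) atTop (𝓝 0) := by
    have hv := hφd.normPrim.tendsto_vertical (((g 0 0 : ℂ) * Complex.I + g 0 1) / g 1 1)
    have hlin : Tendsto (fun t : ℝ => g 0 0 / g 1 1 * t) atTop atTop :=
      tendsto_id.const_mul_atTop hratio
    have h1 := hv.comp hlin
    refine h1.congr' ?_
    filter_upwards [eventually_ge_atTop 0] with t ht
    simp only [hG, Function.comp_apply]
    rw [hform t ht]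
  have huniq := eq_normPrim_of_hasDerivAt hψ hψd hGd (x := Complex.I) (by simp) h0 (z : ℂ) z.im_pos
  simp only [hG, ofComplex_apply] at huniq
  exact huniq

/-! ### Polynomial weights -/

theorem eichlerIntegrand_coe (f : ℍ → ℂ) (P : ℂ[X]) (z : ℍ) :
    eichlerIntegrand f P (z : ℂ) = f z * P.eval (z : ℂ) := by
  simp [eichlerIntegrand, ofComplex_apply]

theorem eichlerIntegrand_differentiableOn {f : ℍ → ℂ} (hf : MDiff f) (P : ℂ[X]) :
    DifferentiableOn ℂ (eichlerIntegrand f P) uhpSet := by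
  have h1 : DifferentiableOn ℂ (f ∘ ofComplex) {z : ℂ | 0 < z.im} :=
    UpperHalfPlane.mdifferentiable_iff.mp hf
  have h2 : DifferentiableOn ℂ (fun u : ℂ => P.eval u) uhpSet :=
    P.differentiable.differentiableOn
  exact h1.mul h2

/-- The weight identity for polynomial weights (`k = w + 2`, `deg P ≤ w`). -/
theorem eichlerIntegrand_smul_mul_deriv {g : GL (Fin 2) ℝ} (hg : 0 < g.val.det) (w : ℕ)
    {P : ℂ[X]} (hP : P.natDegree ≤ w) (f : ℍ → ℂ) (z : ℍ) :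
    eichlerIntegrand f P ((g • z : ℍ) : ℂ) * ((g.val.det : ℂ) / denom g z ^ 2) =
      ((g.val.det : ℂ) ^ w)⁻¹ *
        eichlerIntegrand (f ∣[((w : ℤ) + 2)] g) (polyAct w (cmat g) P) (z : ℂ) := by
  have hdet : (0 : ℝ) < g.det.val := by
    rw [Matrix.GeneralLinearGroup.val_det_apply]; exact hg
  have hdetC : (g.val.det : ℂ) ≠ 0 := by exact_mod_cast hg.ne'
  have hden : denom g z ≠ 0 := denom_ne_zero g z
  have hden' : cmat g 1 0 * (z : ℂ) + cmat g 1 1 ≠ 0 := by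
    simpa [denom] using hden
  rw [eichlerIntegrand_coe, eichlerIntegrand_coe, ModularForm.slash_apply,
    polyAct_eval w (cmat g) hP (z : ℂ) hden']
  have hσ : σ g (f (g • z)) = f (g • z) := by
    rw [σ, if_pos hdet]; rfl
  rw [hσ, coe_smul_of_det_pos hdet]
  have habs : |g.det.val| = g.val.det := by
    rw [abs_of_pos hdet, Matrix.GeneralLinearGroup.val_det_apply]
  rw [habs]
  have hnum : cmat g 0 0 * (z : ℂ) + cmat g 0 1 = num g z := by simp [num]
  have hdn : cmat g 1 0 * (z : ℂ) + cmat g 1 1 = denom g z := by simp [denom]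
  rw [hnum, hdn]
  have hk1 : ((g.val.det : ℝ) : ℂ) ^ ((w : ℤ) + 2 - 1) = (g.val.det : ℂ) ^ w * (g.val.det : ℂ) := by
    rw [show (w : ℤ) + 2 - 1 = (w : ℤ) + 1 by ring, zpow_add₀ hdetC, zpow_natCast, zpow_one]
  have hk2 : denom g z ^ (-((w : ℤ) + 2)) = (denom g z ^ w * denom g z ^ 2)⁻¹ := by
    rw [zpow_neg, show (w : ℤ) + 2 = ((w + 2 : ℕ) : ℤ) by push_cast; ring, zpow_natCast, pow_add]
  rw [hk1, hk2]
  field_simp

theorem stripDecay_const_mul {φ : ℂ → ℂ} (h : StripDecay φ) (c : ℂ) :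
    StripDecay (fun u => c * φ u) := by
  intro B
  obtain ⟨e, he, C, A, hb⟩ := h B
  refine ⟨e, he, ‖c‖ * C, A, fun z hz hA => ?_⟩
  rw [norm_mul, mul_assoc]
  exact mul_le_mul_of_nonneg_left (hb z hz hA) (norm_nonneg _)

theorem normPrim_const_mul' (c : ℂ) (φ : ℂ → ℂ) (z : ℂ) :
    normPrim (fun u => c * φ u) z = c * normPrim φ z := by
  simp only [normPrim]
  rw [MeasureTheory.integral_const_mul]
  ring

/-- **Period rule, polynomial weights**, for any `g ∈ GL₂(ℝ)⁺`. -/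
theorem exists_period_const_poly {g : GL (Fin 2) ℝ} (hg : 0 < g.val.det) (w : ℕ)
    {P : ℂ[X]} (hP : P.natDegree ≤ w) {f : ℍ → ℂ} (hf : MDiff f)
    (hd : StripDecay (eichlerIntegrand f P))
    (hd' : StripDecay (eichlerIntegrand (f ∣[((w : ℤ) + 2)] g) (polyAct w (cmat g) P))) :
    ∃ c : ℂ, ∀ z : ℍ, eichlerInt f P ((g • z : ℍ) : ℂ) =
      c + ((g.val.det : ℂ) ^ w)⁻¹ *
        eichlerInt (f ∣[((w : ℤ) + 2)] g) (polyAct w (cmat g) P) (z : ℂ) := by
  have hf' : MDiff (f ∣[((w : ℤ) + 2)] g) := hf.slash _ g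
  obtain ⟨c, hc⟩ := exists_const_of_rel hg (eichlerIntegrand_differentiableOn hf P) hd
    ((eichlerIntegrand_differentiableOn hf' (polyAct w (cmat g) P)).const_mul
      (((g.val.det : ℂ) ^ w)⁻¹)) (stripDecay_const_mul hd' _)
    (fun z => eichlerIntegrand_smul_mul_deriv hg w hP f z)
  refine ⟨c, fun z => ?_⟩
  rw [eichlerInt, eichlerInt, hc z, normPrim_const_mul']

/-- **Upper triangular rule, polynomial weights**: the constant vanishes. -/
theorem eichlerInt_smul_of_upperTriangular {g : GL (Fin 2) ℝ} (hg : 0 < g.val.det)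
    (hg10 : g 1 0 = 0) (w : ℕ)
    {P : ℂ[X]} (hP : P.natDegree ≤ w) {f : ℍ → ℂ} (hf : MDiff f)
    (hd : StripDecay (eichlerIntegrand f P))
    (hd' : StripDecay (eichlerIntegrand (f ∣[((w : ℤ) + 2)] g) (polyAct w (cmat g) P)))
    (z : ℍ) :
    eichlerInt f P ((g • z : ℍ) : ℂ) =
      ((g.val.det : ℂ) ^ w)⁻¹ *
        eichlerInt (f ∣[((w : ℤ) + 2)] g) (polyAct w (cmat g) P) (z : ℂ) := by
  have hf' : MDiff (f ∣[((w : ℤ) + 2)] g) := hf.slash _ g
  have := eq_of_rel_of_upperTriangular hg hg10 (eichlerIntegrand_differentiableOn hf P) hd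
    ((eichlerIntegrand_differentiableOn hf' (polyAct w (cmat g) P)).const_mul
      (((g.val.det : ℂ) ^ w)⁻¹)) (stripDecay_const_mul hd' _)
    (fun z => eichlerIntegrand_smul_mul_deriv hg w hP f z) z
  rw [eichlerInt, eichlerInt, this, normPrim_const_mul']

theorem eichlerIntegrand_smul_poly (f : ℍ → ℂ) (c : ℂ) (P : ℂ[X]) :
    eichlerIntegrand f (c • P) = fun u => c * eichlerIntegrand f P u := by
  funext u
  simp only [eichlerIntegrand, eval_smul, smul_eq_mul]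
  ring

/-- **`htri`, polynomial weights**: for upper triangular `δ` of positive determinant,
`E(f ∣[k] δ, P)(z) = E(f, P | adj δ)(δ z)`. -/
theorem eichlerInt_slash_upperTriangular {δ : GL (Fin 2) ℝ} (hδ : 0 < δ.val.det)
    (hδ10 : δ 1 0 = 0) (w : ℕ) {P : ℂ[X]} (hP : P.natDegree ≤ w)
    {f : ℍ → ℂ} (hf : MDiff f)
    (hd : StripDecay (eichlerIntegrand f (polyAct w (cmat δ).adjugate P)))
    (hd' : StripDecay (eichlerIntegrand (f ∣[((w : ℤ) + 2)] δ) P))
    (z : ℍ) :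
    eichlerInt (f ∣[((w : ℤ) + 2)] δ) P (z : ℂ) =
      eichlerInt f (polyAct w (cmat δ).adjugate P) ((δ • z : ℍ) : ℂ) := by
  have hdetC : (δ.val.det : ℂ) ≠ 0 := by exact_mod_cast hδ.ne'
  set Q := polyAct w (cmat δ).adjugate P with hQ
  have hQdeg : Q.natDegree ≤ w := polyAct_natDegree_le w _ P
  have hback : polyAct w (cmat δ) Q = ((δ.val.det : ℝ) : ℂ) ^ w • P := by
    rw [hQ, polyAct_adjugate' w (cmat δ) hP, cmat_det]
  have hd'' : StripDecay (eichlerIntegrand (f ∣[((w : ℤ) + 2)] δ) (polyAct w (cmat δ) Q)) := by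
    rw [hback, eichlerIntegrand_smul_poly]
    exact stripDecay_const_mul hd' _
  have key := eichlerInt_smul_of_upperTriangular hδ hδ10 w hQdeg hf hd hd'' z
  rw [key, hback, eichlerInt, eichlerInt, eichlerIntegrand_smul_poly, normPrim_const_mul']
  field_simp

/-! ### Specialisation to `SL(2, ℤ)` and integral polynomials -/

theorem coe_smul_eq_moeb (γ : SL(2, ℤ)) (z : ℍ) :
    ((γ • z : ℍ) : ℂ) = moeb (γ : Matrix (Fin 2) (Fin 2) ℤ) (z : ℂ) := by
  rw [UpperHalfPlane.coe_specialLinearGroup_apply]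
  simp [moeb]

theorem polyC_polyAct (w : ℕ) (γ : SL(2, ℤ)) (P : ℤ[X]) :
    polyC (polyAct w (γ : Matrix (Fin 2) (Fin 2) ℤ) P) =
      polyAct w (cmat (Matrix.SpecialLinearGroup.mapGL ℝ γ)) (polyC P) := by
  rw [polyC, polyAct_map, cmat_mapGL]

theorem natDegree_polyC_le {P : ℤ[X]} {w : ℕ} (hP : P.natDegree ≤ w) : (polyC P).natDegree ≤ w :=
  (natDegree_map_le).trans hP

theorem det_mapGL_val (γ : SL(2, ℤ)) :
    ((Matrix.SpecialLinearGroup.mapGL ℝ γ : GL (Fin 2) ℝ) : Matrix (Fin 2) (Fin 2) ℝ).det = 1 := by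
  rw [← Matrix.GeneralLinearGroup.val_det_apply]
  simp

/-- **Period rule for `γ ∈ SL(2, ℤ)` and `P ∈ ℤ[X]`** in the notation of `PeriodDefs.lean`. -/
theorem exists_period_const_SL (γ : SL(2, ℤ)) (w : ℕ) {P : ℤ[X]} (hP : P.natDegree ≤ w)
    {f : ℍ → ℂ} (hf : MDiff f)
    (hd : StripDecay (eichlerIntegrand f (polyC P)))
    (hd' : StripDecay (eichlerIntegrand (f ∣[((w : ℤ) + 2)] γ)
      (polyC (polyAct w (γ : Matrix (Fin 2) (Fin 2) ℤ) P)))) :
    ∃ c : ℂ, ∀ z : ℍ,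
      eichlerInt f (polyC P) (moeb (γ : Matrix (Fin 2) (Fin 2) ℤ) (z : ℂ)) =
        c + eichlerInt (f ∣[((w : ℤ) + 2)] γ)
          (polyC (polyAct w (γ : Matrix (Fin 2) (Fin 2) ℤ) P)) (z : ℂ) := by
  have hdet : (0 : ℝ) <
      ((Matrix.SpecialLinearGroup.mapGL ℝ γ : GL (Fin 2) ℝ) : Matrix (Fin 2) (Fin 2) ℝ).det := by
    rw [det_mapGL_val]; exact one_pos
  have hslash : f ∣[((w : ℤ) + 2)] γ =
      f ∣[((w : ℤ) + 2)] (Matrix.SpecialLinearGroup.mapGL ℝ γ : GL (Fin 2) ℝ) := rfl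
  rw [polyC_polyAct, hslash] at hd'
  obtain ⟨c, hc⟩ := exists_period_const_poly hdet w (natDegree_polyC_le hP) hf hd hd'
  refine ⟨c, fun z => ?_⟩
  have hsmul : (γ • z : ℍ) = (Matrix.SpecialLinearGroup.mapGL ℝ γ : GL (Fin 2) ℝ) • z := rfl
  rw [← coe_smul_eq_moeb, hsmul, hc z, det_mapGL_val, polyC_polyAct, hslash]
  simp

/-- If moreover `f ∣[w+2] γ = f` the constant is `period w f γ P`, at every base point. -/
theorem period_eq_at (γ : SL(2, ℤ)) (w : ℕ) {P : ℤ[X]} (hP : P.natDegree ≤ w)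
    {f : ℍ → ℂ} (hf : MDiff f) (hinv : f ∣[((w : ℤ) + 2)] γ = f)
    (hd : StripDecay (eichlerIntegrand f (polyC P)))
    (hd' : StripDecay (eichlerIntegrand f (polyC (polyAct w (γ : Matrix (Fin 2) (Fin 2) ℤ) P))))
    (z : ℍ) :
    eichlerInt f (polyC P) (moeb (γ : Matrix (Fin 2) (Fin 2) ℤ) (z : ℂ)) =
      period w f γ P + eichlerInt f (polyC (polyAct w (γ : Matrix (Fin 2) (Fin 2) ℤ) P)) (z : ℂ) := by
  have hd'' : StripDecay (eichlerIntegrand (f ∣[((w : ℤ) + 2)] γ)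
      (polyC (polyAct w (γ : Matrix (Fin 2) (Fin 2) ℤ) P))) := by rw [hinv]; exact hd'
  obtain ⟨c, hc⟩ := exists_period_const_SL γ w hP hf hd hd''
  rw [hinv] at hc
  have hI := hc UpperHalfPlane.I
  have hIc : ((UpperHalfPlane.I : ℍ) : ℂ) = Complex.I := rfl
  rw [hIc] at hI
  have hper : period w f γ P = c := by
    rw [period, hI]; ring
  rw [hper, hc z]

end Fermat.Agent.S22.MC
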