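import Mathlib
import Fermat.Agent.S22.Primitive

/-!
# Closure properties of `StripDecay` and algebraic properties of `normPrim` (S22, piece P1)
-/

set_option autoImplicit false

open Complex Metric Set Filter Topology MeasureTheory

noncomputable section

namespace Fermat.Agent.S22

variable {g g₁ g₂ : ℂ → ℂ}

/-! ### Closure properties of `StripDecay` -/

theorem StripDecay.zero : StripDecay (fun _ => (0 : ℂ)) := by
  intro B
  refine ⟨1, one_pos, 0, 0, fun z _ _ => ?_⟩
  simp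

theorem StripDecay.congr_uhp (h : StripDecay g₁) (he : ∀ z : ℂ, 0 < z.im → g₁ z = g₂ z) :
    StripDecay g₂ := by
  intro B
  obtain ⟨c, hc, C, A, hC, hA, hb⟩ := h.exists_nonneg B
  refine ⟨c, hc, C, A, fun z hz hzA => ?_⟩
  rw [← he z (lt_of_lt_of_le one_pos (hA.trans hzA))]
  exact hb z hz hzA

theorem StripDecay.add (h₁ : StripDecay g₁) (h₂ : StripDecay g₂) :
    StripDecay (fun z => g₁ z + g₂ z) := by
  intro B
  obtain ⟨c₁, hc₁, C₁, A₁, hC₁, hA₁, hb₁⟩ := h₁.exists_nonneg B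
  obtain ⟨c₂, hc₂, C₂, A₂, hC₂, hA₂, hb₂⟩ := h₂.exists_nonneg B
  refine ⟨min c₁ c₂, lt_min hc₁ hc₂, C₁ + C₂, max A₁ A₂, fun z hz hzA => ?_⟩
  have hz1 : A₁ ≤ z.im := (le_max_left _ _).trans hzA
  have hz2 : A₂ ≤ z.im := (le_max_right _ _).trans hzA
  have hzpos : 0 ≤ z.im := by linarith
  have e1 : Real.exp (-c₁ * z.im) ≤ Real.exp (-(min c₁ c₂) * z.im) := by
    rw [Real.exp_le_exp]
    have : min c₁ c₂ ≤ c₁ := min_le_left _ _
    nlinarith
  have e2 : Real.exp (-c₂ * z.im) ≤ Real.exp (-(min c₁ c₂) * z.im) := by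
    rw [Real.exp_le_exp]
    have : min c₁ c₂ ≤ c₂ := min_le_right _ _
    nlinarith
  calc ‖g₁ z + g₂ z‖ ≤ ‖g₁ z‖ + ‖g₂ z‖ := norm_add_le _ _
    _ ≤ C₁ * Real.exp (-c₁ * z.im) + C₂ * Real.exp (-c₂ * z.im) :=
        add_le_add (hb₁ z hz hz1) (hb₂ z hz hz2)
    _ ≤ C₁ * Real.exp (-(min c₁ c₂) * z.im) + C₂ * Real.exp (-(min c₁ c₂) * z.im) :=
        add_le_add (mul_le_mul_of_nonneg_left e1 hC₁) (mul_le_mul_of_nonneg_left e2 hC₂)
    _ = (C₁ + C₂) * Real.exp (-(min c₁ c₂) * z.im) := by ring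

theorem StripDecay.const_mul (h : StripDecay g) (a : ℂ) : StripDecay (fun z => a * g z) := by
  intro B
  obtain ⟨c, hc, C, A, hC, hA, hb⟩ := h.exists_nonneg B
  refine ⟨c, hc, ‖a‖ * C, A, fun z hz hzA => ?_⟩
  rw [norm_mul, mul_assoc]
  exact mul_le_mul_of_nonneg_left (hb z hz hzA) (norm_nonneg _)

theorem StripDecay.mul_const (h : StripDecay g) (a : ℂ) : StripDecay (fun z => g z * a) := by
  simpa [mul_comm] using h.const_mul a

theorem StripDecay.neg (h : StripDecay g) : StripDecay (fun z => -g z) := by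
  simpa using h.const_mul (-1)

theorem StripDecay.sub (h₁ : StripDecay g₁) (h₂ : StripDecay g₂) :
    StripDecay (fun z => g₁ z - g₂ z) := by
  simpa [sub_eq_add_neg] using h₁.add h₂.neg

theorem StripDecay.sum {ι : Type*} (s : Finset ι) {G : ι → ℂ → ℂ}
    (h : ∀ i ∈ s, StripDecay (G i)) : StripDecay (fun z => ∑ i ∈ s, G i z) := by
  classical
  induction s using Finset.induction_on with
  | empty => simpa using StripDecay.zero
  | insert a s ha ih =>
    simp only [Finset.sum_insert ha]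
    exact (h a (Finset.mem_insert_self _ _)).add
      (ih fun i hi => h i (Finset.mem_insert_of_mem hi))

/-- Polynomial growth (in `‖z‖`) on the upper half plane. -/
def PolyGrowth (p : ℂ → ℂ) : Prop :=
  ∃ (K : ℝ) (m : ℕ), ∀ z : ℂ, 0 < z.im → ‖p z‖ ≤ K * (1 + ‖z‖) ^ m

theorem PolyGrowth.const (a : ℂ) : PolyGrowth (fun _ => a) :=
  ⟨‖a‖, 0, fun z _ => by simp⟩

theorem PolyGrowth.id : PolyGrowth (fun z => z) :=
  ⟨1, 1, fun z _ => by simp⟩

theorem PolyGrowth.exists_nonneg {p : ℂ → ℂ} (h : PolyGrowth p) :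
    ∃ (K : ℝ) (m : ℕ), 0 ≤ K ∧ ∀ z : ℂ, 0 < z.im → ‖p z‖ ≤ K * (1 + ‖z‖) ^ m := by
  obtain ⟨K, m, h⟩ := h
  refine ⟨max K 0, m, le_max_right _ _, fun z hz => (h z hz).trans ?_⟩
  exact mul_le_mul_of_nonneg_right (le_max_left _ _) (by positivity)

theorem PolyGrowth.add {p q : ℂ → ℂ} (hp : PolyGrowth p) (hq : PolyGrowth q) :
    PolyGrowth (fun z => p z + q z) := by
  obtain ⟨K, m, hK, hp⟩ := hp.exists_nonneg
  obtain ⟨L, n, hL, hq⟩ := hq.exists_nonneg
  refine ⟨K + L, max m n, fun z hz => ?_⟩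
  have h1 : (1 : ℝ) ≤ 1 + ‖z‖ := by linarith [norm_nonneg z]
  have e1 : (1 + ‖z‖) ^ m ≤ (1 + ‖z‖) ^ (max m n) := pow_le_pow_right₀ h1 (le_max_left _ _)
  have e2 : (1 + ‖z‖) ^ n ≤ (1 + ‖z‖) ^ (max m n) := pow_le_pow_right₀ h1 (le_max_right _ _)
  calc ‖p z + q z‖ ≤ ‖p z‖ + ‖q z‖ := norm_add_le _ _
    _ ≤ K * (1 + ‖z‖) ^ m + L * (1 + ‖z‖) ^ n := add_le_add (hp z hz) (hq z hz)
    _ ≤ K * (1 + ‖z‖) ^ (max m n) + L * (1 + ‖z‖) ^ (max m n) :=
        add_le_add (mul_le_mul_of_nonneg_left e1 hK) (mul_le_mul_of_nonneg_left e2 hL)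
    _ = (K + L) * (1 + ‖z‖) ^ (max m n) := by ring

theorem PolyGrowth.mul {p q : ℂ → ℂ} (hp : PolyGrowth p) (hq : PolyGrowth q) :
    PolyGrowth (fun z => p z * q z) := by
  obtain ⟨K, m, hK, hp⟩ := hp.exists_nonneg
  obtain ⟨L, n, hL, hq⟩ := hq.exists_nonneg
  refine ⟨K * L, m + n, fun z hz => ?_⟩
  calc ‖p z * q z‖ = ‖p z‖ * ‖q z‖ := norm_mul _ _
    _ ≤ (K * (1 + ‖z‖) ^ m) * (L * (1 + ‖z‖) ^ n) :=
        mul_le_mul (hp z hz) (hq z hz) (norm_nonneg _) (by positivity)
    _ = K * L * (1 + ‖z‖) ^ (m + n) := by rw [pow_add]; ring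

theorem PolyGrowth.pow {p : ℂ → ℂ} (hp : PolyGrowth p) (n : ℕ) :
    PolyGrowth (fun z => p z ^ n) := by
  induction n with
  | zero => simpa using PolyGrowth.const 1
  | succ n ih => simpa [pow_succ] using ih.mul hp

theorem PolyGrowth.sum {ι : Type*} (s : Finset ι) {P : ι → ℂ → ℂ}
    (h : ∀ i ∈ s, PolyGrowth (P i)) : PolyGrowth (fun z => ∑ i ∈ s, P i z) := by
  classical
  induction s using Finset.induction_on with
  | empty => simpa using PolyGrowth.const 0
  | insert a s ha ih =>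
    simp only [Finset.sum_insert ha]
    exact (h a (Finset.mem_insert_self _ _)).add
      (ih fun i hi => h i (Finset.mem_insert_of_mem hi))

theorem PolyGrowth.polynomial (P : Polynomial ℂ) : PolyGrowth (fun z => P.eval z) := by
  have : (fun z : ℂ => P.eval z) = fun z => ∑ i ∈ Finset.range (P.natDegree + 1), P.coeff i * z ^ i := by
    funext z
    rw [Polynomial.eval_eq_sum_range]
  rw [this]
  exact PolyGrowth.sum _ fun i _ => (PolyGrowth.const _).mul (PolyGrowth.id.pow i)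

/-- `(1 + B + y) ^ m * exp (-c y) ≤ K * exp (-(c/2) y)` for `y ≥ 0`. -/
theorem exists_pow_mul_exp_le (B : ℝ) (hB : 0 ≤ B) (m : ℕ) {c : ℝ} (hc : 0 < c) :
    ∃ K : ℝ, 0 ≤ K ∧ ∀ y : ℝ, 0 ≤ y →
      (1 + B + y) ^ m * Real.exp (-c * y) ≤ K * Real.exp (-(c / 2) * y) := by
  -- `x ^ m ≤ m! / (c/2)^m * exp ((c/2) x)`
  have hc2 : 0 < c / 2 := by linarith
  refine ⟨(m.factorial : ℝ) / (c / 2) ^ m * Real.exp ((c / 2) * (1 + B)), by positivity,
    fun y hy => ?_⟩
  have hx : 0 ≤ (c / 2) * (1 + B + y) := by positivity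
  have h1 : ((c / 2) * (1 + B + y)) ^ m / (m.factorial : ℝ) ≤ Real.exp ((c / 2) * (1 + B + y)) :=
    Real.pow_div_factorial_le_exp _ hx m
  have h2 : (1 + B + y) ^ m ≤
      (m.factorial : ℝ) / (c / 2) ^ m * Real.exp ((c / 2) * (1 + B + y)) := by
    rw [mul_pow, div_le_iff₀ (by positivity)] at h1
    rw [div_mul_eq_mul_div, le_div_iff₀ (by positivity)]
    linarith
  calc (1 + B + y) ^ m * Real.exp (-c * y)
      ≤ ((m.factorial : ℝ) / (c / 2) ^ m * Real.exp ((c / 2) * (1 + B + y))) * Real.exp (-c * y) :=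
        mul_le_mul_of_nonneg_right h2 (Real.exp_pos _).le
    _ = (m.factorial : ℝ) / (c / 2) ^ m * Real.exp ((c / 2) * (1 + B)) * Real.exp (-(c / 2) * y) := by
        rw [mul_assoc, ← Real.exp_add, mul_assoc, ← Real.exp_add]
        congr 2
        ring

/-- Multiplying by a function of polynomial growth preserves `StripDecay`. -/
theorem StripDecay.polyGrowth_mul {p : ℂ → ℂ} (hp : PolyGrowth p) (h : StripDecay g) :
    StripDecay (fun z => p z * g z) := by
  intro B
  obtain ⟨K, m, hK, hp⟩ := hp.exists_nonneg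
  obtain ⟨c, hc, C, A, hC, hA, hb⟩ := h.exists_nonneg B
  obtain ⟨K', hK', hexp⟩ := exists_pow_mul_exp_le |B| (abs_nonneg _) m hc
  refine ⟨c / 2, by linarith, K * C * K', A, fun z hz hzA => ?_⟩
  have hzim : 0 < z.im := lt_of_lt_of_le one_pos (hA.trans hzA)
  have hnorm : ‖z‖ ≤ |B| + z.im := by
    calc ‖z‖ ≤ |z.re| + |z.im| := Complex.norm_le_abs_re_add_abs_im z
      _ ≤ |B| + z.im := by
        rw [abs_of_pos hzim]
        have : |z.re| ≤ |B| := hz.trans (le_abs_self B)
        linarith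
  have h1 : (1 + ‖z‖) ^ m ≤ (1 + |B| + z.im) ^ m :=
    pow_le_pow_left₀ (by positivity) (by linarith) m
  calc ‖p z * g z‖ = ‖p z‖ * ‖g z‖ := norm_mul _ _
    _ ≤ (K * (1 + ‖z‖) ^ m) * (C * Real.exp (-c * z.im)) :=
        mul_le_mul (hp z hzim) (hb z hz hzA) (norm_nonneg _) (by positivity)
    _ ≤ (K * (1 + |B| + z.im) ^ m) * (C * Real.exp (-c * z.im)) := by
        refine mul_le_mul_of_nonneg_right ?_ (by positivity)
        exact mul_le_mul_of_nonneg_left h1 hK
    _ = K * C * ((1 + |B| + z.im) ^ m * Real.exp (-c * z.im)) := by ring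
    _ ≤ K * C * (K' * Real.exp (-(c / 2) * z.im)) :=
        mul_le_mul_of_nonneg_left (hexp z.im hzim.le) (by positivity)
    _ = K * C * K' * Real.exp (-(c / 2) * z.im) := by ring

theorem StripDecay.mul_polyGrowth {p : ℂ → ℂ} (h : StripDecay g) (hp : PolyGrowth p) :
    StripDecay (fun z => g z * p z) := by
  simpa [mul_comm] using h.polyGrowth_mul hp

theorem StripDecay.polynomial_mul (h : StripDecay g) (P : Polynomial ℂ) :
    StripDecay (fun z => P.eval z * g z) :=
  h.polyGrowth_mul (PolyGrowth.polynomial P)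

theorem StripDecay.mul_polynomial (h : StripDecay g) (P : Polynomial ℂ) :
    StripDecay (fun z => g z * P.eval z) :=
  h.mul_polyGrowth (PolyGrowth.polynomial P)

/-- Affine substitution `z ↦ a z + b` with `a > 0`, `b` real preserves `StripDecay`. -/
theorem StripDecay.comp_affine (h : StripDecay g) {a : ℝ} (ha : 0 < a) (b : ℝ) :
    StripDecay (fun z => g ((a : ℂ) * z + b)) := by
  intro B
  obtain ⟨c, hc, C, A, hC, hA, hb⟩ := h.exists_nonneg (a * |B| + |b|)
  refine ⟨c * a, by positivity, C, A / a, fun z hz hzA => ?_⟩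
  have hre : ((a : ℂ) * z + b).re = a * z.re + b := by simp
  have him : ((a : ℂ) * z + b).im = a * z.im := by simp
  have h1 : |((a : ℂ) * z + b).re| ≤ a * |B| + |b| := by
    rw [hre]
    calc |a * z.re + b| ≤ |a * z.re| + |b| := abs_add_le _ _
      _ = a * |z.re| + |b| := by rw [abs_mul, abs_of_pos ha]
      _ ≤ a * |B| + |b| := by
        have : |z.re| ≤ |B| := hz.trans (le_abs_self B)
        nlinarith
  have h2 : A ≤ ((a : ℂ) * z + b).im := by
    rw [him]
    rw [div_le_iff₀ ha] at hzA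
    linarith
  refine (hb _ h1 h2).trans (le_of_eq ?_)
  rw [him]
  congr 2
  ring

/-- A `StripDecay` function tends to zero along paths staying in a vertical strip whose
imaginary part tends to infinity. -/
theorem StripDecay.tendsto_comp (h : StripDecay g) {α : Type*} {l : Filter α}
    {γ : α → ℂ} (B : ℝ) (hre : ∀ᶠ t in l, |(γ t).re| ≤ B)
    (him : Tendsto (fun t => (γ t).im) l atTop) : Tendsto (fun t => g (γ t)) l (𝓝 0) := by
  obtain ⟨c, hc, C, A, hC, hA, hb⟩ := h.exists_nonneg B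
  rw [tendsto_zero_iff_norm_tendsto_zero]
  have hlim : Tendsto (fun t => C * Real.exp (-c * (γ t).im)) l (𝓝 0) := by
    have h1 : Tendsto (fun t => -c * (γ t).im) l atBot :=
      (tendsto_const_mul_atBot_of_neg (by linarith : -c < 0)).mpr him
    simpa using (Real.tendsto_exp_atBot.comp h1).const_mul C
  refine squeeze_zero' (Eventually.of_forall fun t => norm_nonneg _) ?_ hlim
  filter_upwards [hre, him.eventually_ge_atTop A] with t ht1 ht2
  exact hb _ ht1 ht2

/-! ### Constancy on the upper half plane -/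

/-- Two functions on the upper half plane with the same derivative differ by a constant. -/
theorem exists_const_of_hasDerivAt_eq {G₁ G₂ φ : ℂ → ℂ}
    (h₁ : ∀ z : ℂ, 0 < z.im → HasDerivAt G₁ (φ z) z)
    (h₂ : ∀ z : ℂ, 0 < z.im → HasDerivAt G₂ (φ z) z) :
    ∃ L : ℂ, ∀ z : ℂ, 0 < z.im → G₁ z - G₂ z = L := by
  have hD : ∀ z : ℂ, 0 < z.im → HasDerivAt (fun z => G₁ z - G₂ z) 0 z := fun z hz => by
    have := (h₁ z hz).sub (h₂ z hz)
    rw [sub_self] at this
    exact this
  have hdiff : DifferentiableOn ℂ (fun z => G₁ z - G₂ z) uhpSet :=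
    fun z hz => (hD z hz).differentiableAt.differentiableWithinAt
  have hderiv : Set.EqOn (deriv (fun z => G₁ z - G₂ z)) 0 uhpSet :=
    fun z hz => (hD z hz).deriv
  refine ⟨G₁ I - G₂ I, fun z hz => ?_⟩
  exact uhpSet_isOpen.is_const_of_deriv_eq_zero uhpSet_convex.isPreconnected hdiff hderiv hz
    (show I ∈ uhpSet by simp [uhpSet])

/-- A function on the upper half plane with zero derivative is constant. -/
theorem exists_const_of_hasDerivAt_zero {G : ℂ → ℂ}
    (h : ∀ z : ℂ, 0 < z.im → HasDerivAt G 0 z) :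
    ∃ L : ℂ, ∀ z : ℂ, 0 < z.im → G z = L := by
  obtain ⟨L, hL⟩ := exists_const_of_hasDerivAt_eq (G₁ := G) (G₂ := fun _ => 0) (φ := fun _ => 0) h
    (fun z _ => hasDerivAt_const z 0)
  exact ⟨L, fun z hz => by simpa using hL z hz⟩

/-! ### Algebraic properties of `normPrim` -/

theorem normPrim_mul_left (a : ℂ) (g : ℂ → ℂ) (z : ℂ) :
    normPrim (fun w => a * g w) z = a * normPrim g z := by
  simp only [normPrim]
  rw [integral_const_mul]
  ring

theorem normPrim_neg (g : ℂ → ℂ) (z : ℂ) : normPrim (fun w => -g w) z = -normPrim g z := by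
  simp only [normPrim]
  rw [integral_neg]
  ring

theorem normPrim_zero (z : ℂ) : normPrim (fun _ => 0) z = 0 := by
  simp [normPrim]

theorem normPrim_add (hg₁ : DifferentiableOn ℂ g₁ uhpSet) (hd₁ : StripDecay g₁)
    (hg₂ : DifferentiableOn ℂ g₂ uhpSet) (hd₂ : StripDecay g₂) {z : ℂ} (hz : 0 < z.im) :
    normPrim (fun w => g₁ w + g₂ w) z = normPrim g₁ z + normPrim g₂ z := by
  simp only [normPrim]
  rw [integral_add (integrableOn_vertical hg₁ hd₁ hz) (integrableOn_vertical hg₂ hd₂ hz)]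
  ring

theorem normPrim_sub (hg₁ : DifferentiableOn ℂ g₁ uhpSet) (hd₁ : StripDecay g₁)
    (hg₂ : DifferentiableOn ℂ g₂ uhpSet) (hd₂ : StripDecay g₂) {z : ℂ} (hz : 0 < z.im) :
    normPrim (fun w => g₁ w - g₂ w) z = normPrim g₁ z - normPrim g₂ z := by
  simp only [normPrim]
  rw [integral_sub (integrableOn_vertical hg₁ hd₁ hz) (integrableOn_vertical hg₂ hd₂ hz)]
  ring

theorem normPrim_sum {ι : Type*} (s : Finset ι) {G : ι → ℂ → ℂ}
    (hG : ∀ i ∈ s, DifferentiableOn ℂ (G i) uhpSet) (hd : ∀ i ∈ s, StripDecay (G i))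
    {z : ℂ} (hz : 0 < z.im) :
    normPrim (fun w => ∑ i ∈ s, G i w) z = ∑ i ∈ s, normPrim (G i) z := by
  simp only [normPrim]
  rw [integral_finsetSum s fun i hi => integrableOn_vertical (hG i hi) (hd i hi) hz,
    Finset.mul_sum, ← Finset.sum_neg_distrib]

theorem normPrim_congr (he : ∀ z : ℂ, 0 < z.im → g₁ z = g₂ z) {z : ℂ} (hz : 0 < z.im) :
    normPrim g₁ z = normPrim g₂ z := by
  simp only [normPrim]
  congr 2
  refine setIntegral_congr_fun measurableSet_Ioi fun t ht => ?_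
  exact he _ (add_mul_I_mem_uhpSet hz (le_of_lt ht))

theorem affine_mem_uhpSet {a : ℝ} (ha : 0 < a) (b : ℝ) {z : ℂ} (hz : 0 < z.im) :
    0 < ((a : ℂ) * z + b).im := by
  simp; positivity

/-- Change of variables `z ↦ a z + b` (`a > 0`, `b` real) in `normPrim`. -/
theorem normPrim_comp_affine (hg : DifferentiableOn ℂ g uhpSet) (hd : StripDecay g)
    {a : ℝ} (ha : 0 < a) (b : ℝ) {z : ℂ} (hz : 0 < z.im) :
    normPrim (fun w => (a : ℂ) * g ((a : ℂ) * w + b)) z = normPrim g ((a : ℂ) * z + b) := by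
  have hmap : ∀ w : ℂ, 0 < w.im → (a : ℂ) * w + b ∈ uhpSet := fun w hw => affine_mem_uhpSet ha b hw
  have hg' : DifferentiableOn ℂ (fun w => (a : ℂ) * g ((a : ℂ) * w + b)) uhpSet := by
    refine DifferentiableOn.const_mul ?_ _
    exact hg.comp (by fun_prop) fun w hw => hmap w hw
  have hd' : StripDecay (fun w => (a : ℂ) * g ((a : ℂ) * w + b)) :=
    (hd.comp_affine ha b).const_mul _
  have hG : ∀ w : ℂ, 0 < w.im →
      HasDerivAt (fun w => normPrim g ((a : ℂ) * w + b)) ((a : ℂ) * g ((a : ℂ) * w + b)) w := by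
    intro w hw
    have h1 := normPrim_hasDerivAt hg hd (hmap w hw)
    have h2 : HasDerivAt (fun w : ℂ => (a : ℂ) * w + b) (a : ℂ) w := by
      simpa using ((hasDerivAt_id w).const_mul (a : ℂ)).add_const (b : ℂ)
    have h3 := h1.comp w h2
    rw [mul_comm] at h3
    exact h3
  have h0 : Tendsto (fun t : ℝ => normPrim g ((a : ℂ) * (I + t * I) + b)) atTop (𝓝 0) := by
    refine hd.normPrim.tendsto_comp |b| ?_ ?_
    · exact Eventually.of_forall fun t => by simp
    · have : (fun t : ℝ => ((a : ℂ) * (I + t * I) + b).im) = fun t => a * t + a := by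
        funext t; simp; ring
      rw [this]
      exact tendsto_atTop_add_const_right _ _ (tendsto_id.const_mul_atTop ha)
  exact (eq_normPrim_of_hasDerivAt hg' hd' hG (x := I) (by simp) h0 z hz).symm

/-! ### Interaction with periodicity and the filter `I∞` -/

open Function in
/-- Uniform exponential decay at `I∞` implies `StripDecay`. -/
theorem stripDecay_of_isBigO_exp {c : ℝ} (hc : 0 < c)
    (h : g =O[comap Complex.im atTop] fun z => Real.exp (-c * z.im)) : StripDecay g := by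
  intro B
  obtain ⟨C, hC⟩ := h.bound
  rw [eventually_comap] at hC
  obtain ⟨A, hA⟩ := eventually_atTop.mp hC
  refine ⟨c, hc, C, A, fun z _ hzA => ?_⟩
  have := hA z.im hzA z rfl
  rwa [Real.norm_of_nonneg (Real.exp_pos _).le] at this

open Function in
/-- A periodic function, holomorphic on the upper half plane and zero at `i∞`, is `StripDecay`. -/
theorem stripDecay_of_periodic {h : ℝ} (hh : 0 < h) (hg : DifferentiableOn ℂ g uhpSet)
    (hper : Periodic g h) (hzero : ZeroAtFilter (comap Complex.im atTop) g) : StripDecay g := by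
  have h_hol : ∀ᶠ z in comap Complex.im atTop, DifferentiableAt ℂ g z := by
    have : {z : ℂ | 0 < z.im} ∈ comap Complex.im atTop :=
      mem_comap.mpr ⟨Set.Ioi 0, Ioi_mem_atTop 0, fun z hz => hz⟩
    exact eventually_of_mem this fun z hz => hg.differentiableAt (uhpSet_isOpen.mem_nhds hz)
  have := hper.exp_decay_of_zero_at_inf hh h_hol hzero
  refine stripDecay_of_isBigO_exp (c := 2 * Real.pi / h) (by positivity)
    (this.congr_right fun z => ?_)
  congr 1; ring

open Function in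
/-- A periodic `StripDecay` function is zero at `i∞` (uniformly in the real part). -/
theorem StripDecay.zeroAtFilter_of_periodic (hd : StripDecay g) {h : ℝ} (hh : 0 < h)
    (hper : Periodic g h) : ZeroAtFilter (comap Complex.im atTop) g := by
  obtain ⟨c, hc, C, A, hC, hA, hb⟩ := hd.exists_nonneg h
  rw [ZeroAtFilter, tendsto_zero_iff_norm_tendsto_zero]
  have hlim : Tendsto (fun z : ℂ => C * Real.exp (-c * z.im)) (comap Complex.im atTop) (𝓝 0) := by
    have h1 : Tendsto (fun z : ℂ => -c * z.im) (comap Complex.im atTop) atBot :=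
      (tendsto_const_mul_atBot_of_neg (by linarith : -c < 0)).mpr tendsto_comap
    simpa using (Real.tendsto_exp_atBot.comp h1).const_mul C
  refine squeeze_zero' (Eventually.of_forall fun t => norm_nonneg _) ?_ hlim
  have hmem : {z : ℂ | A ≤ z.im} ∈ comap Complex.im atTop :=
    mem_comap.mpr ⟨Set.Ici A, Ici_mem_atTop A, fun z hz => hz⟩
  filter_upwards [hmem] with z hz
  -- translate `z` into the strip `0 ≤ re < h`
  obtain ⟨n, hn⟩ : ∃ n : ℤ, |(z - n * h).re| ≤ h := by
    refine ⟨⌊z.re / h⌋, ?_⟩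
    have h1 : (z - (⌊z.re / h⌋ : ℂ) * h).re = z.re - ⌊z.re / h⌋ * h := by simp
    rw [h1]
    have h2 := Int.floor_le (z.re / h)
    have h3 := Int.lt_floor_add_one (z.re / h)
    rw [le_div_iff₀ hh] at h2
    rw [div_lt_iff₀ hh] at h3
    rw [abs_le]
    constructor <;> nlinarith
  have hperz : g (z - n * h) = g z := by
    have := (hper.int_mul n).sub_eq z
    simpa using this
  have him : (z - (n : ℂ) * h).im = z.im := by simp
  have := hb (z - n * h) hn (by rw [him]; exact hz)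
  rwa [hperz, him] at this

end Fermat.Agent.S22
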