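/-
S22: basic properties of the Eichler integrals `eichlerInt f P` and of the period functionals
`period w f γ P` (polynomial parametrisation): derivative, linearity, Möbius transformation rule,
base point independence, cocycle relation, the period lattice and its finite generation.
Owner: helper84.
-/
import Fermat.Agent.S22.PeriodDefs
import Fermat.Agent.S22.StripDecay
import Fermat.Agent.S22.CuspidalClass
import Fermat.Agent.S22.Gamma0FG

set_option autoImplicit false

open Polynomial UpperHalfPlane Complex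

open scoped MatrixGroups ModularForm

noncomputable section

namespace Fermat.Agent.S22

/-! ### The analytic class of functions -/

/-- The class of functions `f : ℍ → ℂ` for which the Eichler integrals make sense:
holomorphic, and exponentially decaying on vertical strips. -/
structure IsNiceFun (f : ℍ → ℂ) : Prop where
  diff : DifferentiableOn ℂ (f ∘ ofComplex) uhpSet
  decay : StripDecay (f ∘ ofComplex)

theorem IsCuspidalFun.isNiceFun {f : ℍ → ℂ} (hf : IsCuspidalFun (f ∘ ofComplex)) : IsNiceFun f := by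
  obtain ⟨h1, ⟨h, hh, hper⟩, h3⟩ := hf
  exact ⟨h1, stripDecay_of_periodic hh h1 hper h3⟩

theorem isNiceFun_cuspForm {Γ : Subgroup (GL (Fin 2) ℝ)} [Γ.IsArithmetic] {k : ℤ}
    (f : CuspForm Γ k) : IsNiceFun ⇑f :=
  (cuspForm_class f).isNiceFun

theorem IsNiceFun.add {f g : ℍ → ℂ} (hf : IsNiceFun f) (hg : IsNiceFun g) : IsNiceFun (f + g) :=
  ⟨hf.diff.add hg.diff, hf.decay.add hg.decay⟩

theorem IsNiceFun.const_smul {f : ℍ → ℂ} (hf : IsNiceFun f) (c : ℂ) : IsNiceFun (c • f) :=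
  ⟨hf.diff.const_smul c, hf.decay.const_mul c⟩

/-! ### The integrand and the Eichler integral -/

section Basic

variable {f g : ℍ → ℂ}

theorem eichlerIntegrand_differentiableOn (hf : IsNiceFun f) (P : ℂ[X]) :
    DifferentiableOn ℂ (eichlerIntegrand f P) uhpSet :=
  hf.diff.mul (P.differentiable.differentiableOn)

theorem eichlerIntegrand_stripDecay (hf : IsNiceFun f) (P : ℂ[X]) :
    StripDecay (eichlerIntegrand f P) :=
  hf.decay.mul_polynomial P

theorem eichlerInt_hasDerivAt (hf : IsNiceFun f) (P : ℂ[X]) {z : ℂ} (hz : 0 < z.im) :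
    HasDerivAt (eichlerInt f P) (f (ofComplex z) * P.eval z) z :=
  normPrim_hasDerivAt (eichlerIntegrand_differentiableOn hf P) (eichlerIntegrand_stripDecay hf P) hz

theorem eichlerInt_stripDecay (hf : IsNiceFun f) (P : ℂ[X]) : StripDecay (eichlerInt f P) :=
  (eichlerIntegrand_stripDecay hf P).normPrim

/-- Uniqueness: a primitive of `f · P` on the upper half plane which tends to `0` along one vertical
line is the Eichler integral. -/
theorem eq_eichlerInt (hf : IsNiceFun f) (P : ℂ[X]) {G : ℂ → ℂ}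
    (hG : ∀ z : ℂ, 0 < z.im → HasDerivAt G (f (ofComplex z) * P.eval z) z) {x : ℂ} (hx : 0 < x.im)
    (h0 : Filter.Tendsto (fun t : ℝ => G (x + t * Complex.I)) Filter.atTop (nhds 0)) :
    ∀ z : ℂ, 0 < z.im → G z = eichlerInt f P z :=
  eq_normPrim_of_hasDerivAt (eichlerIntegrand_differentiableOn hf P)
    (eichlerIntegrand_stripDecay hf P) hG hx h0

theorem eichlerInt_add_poly (hf : IsNiceFun f) (P Q : ℂ[X]) {z : ℂ} (hz : 0 < z.im) :
    eichlerInt f (P + Q) z = eichlerInt f P z + eichlerInt f Q z := by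
  have : eichlerIntegrand f (P + Q) =
      fun u => eichlerIntegrand f P u + eichlerIntegrand f Q u := by
    funext u; simp only [eichlerIntegrand, eval_add]; ring
  rw [eichlerInt, this]
  exact normPrim_add (eichlerIntegrand_differentiableOn hf P) (eichlerIntegrand_stripDecay hf P)
    (eichlerIntegrand_differentiableOn hf Q) (eichlerIntegrand_stripDecay hf Q) hz

theorem eichlerInt_smul_poly (f : ℍ → ℂ) (c : ℂ) (P : ℂ[X]) (z : ℂ) :
    eichlerInt f (c • P) z = c * eichlerInt f P z := by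
  have : eichlerIntegrand f (c • P) = fun u => c * eichlerIntegrand f P u := by
    funext u; simp only [eichlerIntegrand, eval_smul, smul_eq_mul]; ring
  rw [eichlerInt, this]
  exact normPrim_mul_left c _ z

theorem eichlerInt_zero_poly (f : ℍ → ℂ) (z : ℂ) : eichlerInt f 0 z = 0 := by
  have := eichlerInt_smul_poly f 0 0 z
  simpa using this

theorem eichlerInt_neg_poly (f : ℍ → ℂ) (P : ℂ[X]) (z : ℂ) :
    eichlerInt f (-P) z = -eichlerInt f P z := by
  have := eichlerInt_smul_poly f (-1) P z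
  simpa using this

theorem eichlerInt_sub_poly (hf : IsNiceFun f) (P Q : ℂ[X]) {z : ℂ} (hz : 0 < z.im) :
    eichlerInt f (P - Q) z = eichlerInt f P z - eichlerInt f Q z := by
  rw [sub_eq_add_neg, eichlerInt_add_poly hf _ _ hz, eichlerInt_neg_poly, ← sub_eq_add_neg]

theorem eichlerInt_sum_poly (hf : IsNiceFun f) {ι : Type*} (s : Finset ι) (P : ι → ℂ[X]) {z : ℂ}
    (hz : 0 < z.im) : eichlerInt f (∑ i ∈ s, P i) z = ∑ i ∈ s, eichlerInt f (P i) z := by
  classical
  induction s using Finset.induction_on with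
  | empty => simp [eichlerInt_zero_poly]
  | insert a s ha ih => rw [Finset.sum_insert ha, Finset.sum_insert ha, eichlerInt_add_poly hf _ _ hz, ih]

theorem eichlerInt_add_fun (hf : IsNiceFun f) (hg : IsNiceFun g) (P : ℂ[X]) {z : ℂ} (hz : 0 < z.im) :
    eichlerInt (f + g) P z = eichlerInt f P z + eichlerInt g P z := by
  have : eichlerIntegrand (f + g) P =
      fun u => eichlerIntegrand f P u + eichlerIntegrand g P u := by
    funext u; simp only [eichlerIntegrand, Pi.add_apply]; ring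
  rw [eichlerInt, this]
  exact normPrim_add (eichlerIntegrand_differentiableOn hf P) (eichlerIntegrand_stripDecay hf P)
    (eichlerIntegrand_differentiableOn hg P) (eichlerIntegrand_stripDecay hg P) hz

theorem eichlerInt_smul_fun (f : ℍ → ℂ) (c : ℂ) (P : ℂ[X]) (z : ℂ) :
    eichlerInt (c • f) P z = c * eichlerInt f P z := by
  have : eichlerIntegrand (c • f) P = fun u => c * eichlerIntegrand f P u := by
    funext u; simp only [eichlerIntegrand, Pi.smul_apply, smul_eq_mul]; ring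
  rw [eichlerInt, this]
  exact normPrim_mul_left c _ z

end Basic

/-! ### Möbius action of integer matrices on `ℂ` -/

section Moeb

/-- The denominator `c z + d` of the Möbius action. -/
def moebDen (M : Matrix (Fin 2) (Fin 2) ℤ) (z : ℂ) : ℂ := (M 1 0 : ℂ) * z + (M 1 1 : ℂ)

/-- The numerator `a z + b` of the Möbius action. -/
def moebNum (M : Matrix (Fin 2) (Fin 2) ℤ) (z : ℂ) : ℂ := (M 0 0 : ℂ) * z + (M 0 1 : ℂ)

theorem moeb_eq (M : Matrix (Fin 2) (Fin 2) ℤ) (z : ℂ) : moeb M z = moebNum M z / moebDen M z := rfl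

theorem moebDen_ne_zero {M : Matrix (Fin 2) (Fin 2) ℤ} (hM : M.det ≠ 0) {z : ℂ} (hz : 0 < z.im) :
    moebDen M z ≠ 0 := by
  intro h
  have him := congrArg Complex.im h
  have hre := congrArg Complex.re h
  simp only [moebDen, add_im, mul_im, intCast_re, intCast_im, zero_mul, add_zero, zero_im,
    add_re, mul_re, sub_zero, zero_re] at him hre
  have hc : (M 1 0 : ℝ) = 0 := by
    rcases mul_eq_zero.mp him with h | h
    · exact h
    · exact absurd h hz.ne'
  have hc' : M 1 0 = 0 := by exact_mod_cast hc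
  rw [hc] at hre
  have hd : (M 1 1 : ℝ) = 0 := by simpa using hre
  have hd' : M 1 1 = 0 := by exact_mod_cast hd
  apply hM
  rw [Matrix.det_fin_two, hc', hd']
  ring

theorem moeb_im (M : Matrix (Fin 2) (Fin 2) ℤ) (z : ℂ) :
    (moeb M z).im = (M.det : ℝ) * z.im / Complex.normSq (moebDen M z) := by
  rw [moeb_eq, Complex.div_im, Matrix.det_fin_two]
  simp only [moebNum, moebDen, add_im, mul_im, intCast_re, intCast_im, zero_mul, add_zero,
    add_re, mul_re, sub_zero]
  push_cast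
  ring

theorem moeb_im_pos {M : Matrix (Fin 2) (Fin 2) ℤ} (hM : 0 < M.det) {z : ℂ} (hz : 0 < z.im) :
    0 < (moeb M z).im := by
  rw [moeb_im]
  have h1 : 0 < Complex.normSq (moebDen M z) :=
    Complex.normSq_pos.mpr (moebDen_ne_zero hM.ne' hz)
  have h2 : (0 : ℝ) < M.det := by exact_mod_cast hM
  positivity

theorem hasDerivAt_moeb (M : Matrix (Fin 2) (Fin 2) ℤ) {z : ℂ} (hden : moebDen M z ≠ 0) :
    HasDerivAt (moeb M) ((M.det : ℂ) / moebDen M z ^ 2) z := by
  have hn : HasDerivAt (moebNum M) (M 0 0 : ℂ) z := by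
    have := ((hasDerivAt_id z).const_mul (M 0 0 : ℂ)).add_const (M 0 1 : ℂ)
    rw [mul_one] at this
    exact this
  have hd : HasDerivAt (moebDen M) (M 1 0 : ℂ) z := by
    have := ((hasDerivAt_id z).const_mul (M 1 0 : ℂ)).add_const (M 1 1 : ℂ)
    rw [mul_one] at this
    exact this
  have := hn.div hd hden
  refine this.congr_deriv ?_
  rw [Matrix.det_fin_two]
  simp only [moebNum, moebDen]
  push_cast
  ring

theorem moebDen_mul (M M' : Matrix (Fin 2) (Fin 2) ℤ) {z : ℂ} (hden : moebDen M' z ≠ 0) :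
    moebDen (M * M') z = moebDen M (moeb M' z) * moebDen M' z := by
  rw [moeb_eq]
  simp only [moebDen, moebNum, Matrix.mul_apply, Fin.sum_univ_two] at hden ⊢
  push_cast
  field_simp
  ring

theorem moebNum_mul (M M' : Matrix (Fin 2) (Fin 2) ℤ) {z : ℂ} (hden : moebDen M' z ≠ 0) :
    moebNum (M * M') z = moebNum M (moeb M' z) * moebDen M' z := by
  rw [moeb_eq]
  simp only [moebDen, moebNum, Matrix.mul_apply, Fin.sum_univ_two] at hden ⊢
  push_cast
  field_simp
  ring

theorem moeb_mul (M M' : Matrix (Fin 2) (Fin 2) ℤ) {z : ℂ} (hden : moebDen M' z ≠ 0) :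
    moeb (M * M') z = moeb M (moeb M' z) := by
  rw [moeb_eq, moeb_eq M, moebNum_mul M M' hden, moebDen_mul M M' hden,
    mul_div_mul_right _ _ hden]

theorem moeb_one (z : ℂ) : moeb 1 z = z := by
  simp [moeb]

/-- Compatibility with Mathlib's action of `SL(2, ℤ)` on `ℍ`. -/
theorem moeb_coe_SL (γ : SL(2, ℤ)) (τ : ℍ) :
    moeb (γ : Matrix (Fin 2) (Fin 2) ℤ) (τ : ℂ) = ((γ • τ : ℍ) : ℂ) := by
  rw [UpperHalfPlane.coe_specialLinearGroup_apply]
  simp [moeb]

theorem moebDen_coe_SL (γ : SL(2, ℤ)) (τ : ℍ) :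
    moebDen (γ : Matrix (Fin 2) (Fin 2) ℤ) (τ : ℂ) = denom γ τ := by
  simp [moebDen, UpperHalfPlane.denom]

theorem det_coe_SL (γ : SL(2, ℤ)) : (γ : Matrix (Fin 2) (Fin 2) ℤ).det = 1 := γ.det_coe

theorem moeb_SL_im_pos (γ : SL(2, ℤ)) {z : ℂ} (hz : 0 < z.im) :
    0 < (moeb (γ : Matrix (Fin 2) (Fin 2) ℤ) z).im :=
  moeb_im_pos (by rw [det_coe_SL]; exact one_pos) hz

theorem moebDen_SL_ne_zero (γ : SL(2, ℤ)) {z : ℂ} (hz : 0 < z.im) :
    moebDen (γ : Matrix (Fin 2) (Fin 2) ℤ) z ≠ 0 :=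
  moebDen_ne_zero (by rw [det_coe_SL]; exact one_ne_zero) hz

theorem ofComplex_moeb_SL (γ : SL(2, ℤ)) {z : ℂ} (hz : 0 < z.im) :
    ofComplex (moeb (γ : Matrix (Fin 2) (Fin 2) ℤ) z) = γ • ofComplex z := by
  have h1 : z = ((ofComplex z : ℍ) : ℂ) := (ofComplex_apply_of_im_pos hz).symm ▸ rfl
  conv_lhs => rw [h1, moeb_coe_SL]
  exact ofComplex_apply _

end Moeb

/-! ### The transformation rule under `Γ₀(N)` -/

section Transform

variable {N : ℕ} [NeZero N] {w : ℕ}

/-- The complexification of an integer matrix. -/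
abbrev matC (M : Matrix (Fin 2) (Fin 2) ℤ) : Matrix (Fin 2) (Fin 2) ℂ := M.map (Int.castRingHom ℂ)

theorem polyC_polyAct (w : ℕ) (M : Matrix (Fin 2) (Fin 2) ℤ) (P : ℤ[X]) :
    polyC (polyAct w M P) = polyAct w (matC M) (polyC P) :=
  polyAct_map (Int.castRingHom ℂ) w M P

theorem natDegree_polyC_le {P : ℤ[X]} {w : ℕ} (hP : P.natDegree ≤ w) : (polyC P).natDegree ≤ w :=
  natDegree_map_le.trans hP

omit [NeZero N] in
/-- Modularity of a cusp form on `Γ₀(N)`, in terms of `moeb`. -/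
theorem cuspForm_moeb {k : ℤ} (f : CuspForm (CongruenceSubgroup.Gamma0 N) k) {γ : SL(2, ℤ)}
    (hγ : γ ∈ CongruenceSubgroup.Gamma0 N) {z : ℂ} (hz : 0 < z.im) :
    f (ofComplex (moeb (γ : Matrix (Fin 2) (Fin 2) ℤ) z)) =
      moebDen (γ : Matrix (Fin 2) (Fin 2) ℤ) z ^ k * f (ofComplex z) := by
  rw [ofComplex_moeb_SL γ hz, SlashInvariantForm.slash_action_eqn_SL'' f hγ (ofComplex z),
    ← moebDen_coe_SL, ofComplex_apply_of_im_pos hz]

/-- The derivative of `u ↦ E(f,P)(γ u)` is `f · (P|γ)`. -/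
theorem hasDerivAt_eichlerInt_comp_moeb (f : CuspForm (CongruenceSubgroup.Gamma0 N) ((w : ℤ) + 2))
    {γ : SL(2, ℤ)} (hγ : γ ∈ CongruenceSubgroup.Gamma0 N) {P : ℂ[X]} (hP : P.natDegree ≤ w)
    {z : ℂ} (hz : 0 < z.im) :
    HasDerivAt (fun u => eichlerInt ⇑f P (moeb (γ : Matrix (Fin 2) (Fin 2) ℤ) u))
      (f (ofComplex z) * (polyAct w (matC (γ : Matrix (Fin 2) (Fin 2) ℤ)) P).eval z) z := by
  set M : Matrix (Fin 2) (Fin 2) ℤ := (γ : Matrix (Fin 2) (Fin 2) ℤ) with hM
  have hden : moebDen M z ≠ 0 := moebDen_SL_ne_zero γ hz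
  have h1 := eichlerInt_hasDerivAt (isNiceFun_cuspForm f) P (moeb_SL_im_pos γ hz)
  have h2 := hasDerivAt_moeb M hden
  have h3 := h1.comp z h2
  refine h3.congr_deriv ?_
  have hden' : (matC M) 1 0 * z + (matC M) 1 1 ≠ 0 := by
    simpa [matC, moebDen] using hden
  rw [polyAct_eval w (matC M) hP z hden', cuspForm_moeb f hγ hz, det_coe_SL]
  have e1 : (matC M) 1 0 * z + (matC M) 1 1 = moebDen M z := by simp [matC, moebDen]
  have e2 : ((matC M) 0 0 * z + (matC M) 0 1) / ((matC M) 1 0 * z + (matC M) 1 1) = moeb M z := by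
    simp [matC, moeb]
  rw [e2, e1, zpow_add₀ hden, zpow_natCast]
  have : moebDen M z ^ (2 : ℤ) = moebDen M z ^ 2 := zpow_ofNat _ 2
  rw [this]
  field_simp
  push_cast
  ring

/-- The period does not depend on the base point. -/
theorem period_eq_at (f : CuspForm (CongruenceSubgroup.Gamma0 N) ((w : ℤ) + 2))
    {γ : SL(2, ℤ)} (hγ : γ ∈ CongruenceSubgroup.Gamma0 N) {P : ℤ[X]} (hP : P.natDegree ≤ w)
    {z : ℂ} (hz : 0 < z.im) :
    eichlerInt ⇑f (polyC P) (moeb (γ : Matrix (Fin 2) (Fin 2) ℤ) z) -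
      eichlerInt ⇑f (polyC (polyAct w (γ : Matrix (Fin 2) (Fin 2) ℤ) P)) z = period w ⇑f γ P := by
  obtain ⟨L, hL⟩ := exists_const_of_hasDerivAt_eq
    (G₁ := fun u => eichlerInt ⇑f (polyC P) (moeb (γ : Matrix (Fin 2) (Fin 2) ℤ) u))
    (G₂ := eichlerInt ⇑f (polyC (polyAct w (γ : Matrix (Fin 2) (Fin 2) ℤ) P)))
    (φ := fun u => f (ofComplex u) * (polyC (polyAct w (γ : Matrix (Fin 2) (Fin 2) ℤ) P)).eval u)
    (fun u hu => by
      rw [polyC_polyAct]
      exact hasDerivAt_eichlerInt_comp_moeb f hγ (natDegree_polyC_le hP) hu)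
    (fun u hu => eichlerInt_hasDerivAt (isNiceFun_cuspForm f) _ hu)
  have h1 := hL z hz
  have h2 := hL Complex.I (by simp)
  beta_reduce at h1 h2
  rw [h1, ← h2]
  rfl

/-- The cocycle relation. -/
theorem period_mul (f : CuspForm (CongruenceSubgroup.Gamma0 N) ((w : ℤ) + 2))
    {γ γ' : SL(2, ℤ)} (hγ : γ ∈ CongruenceSubgroup.Gamma0 N) (hγ' : γ' ∈ CongruenceSubgroup.Gamma0 N)
    {P : ℤ[X]} (hP : P.natDegree ≤ w) :
    period w ⇑f (γ * γ') P =
      period w ⇑f γ P + period w ⇑f γ' (polyAct w (γ : Matrix (Fin 2) (Fin 2) ℤ) P) := by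
  have hI : (0 : ℝ) < Complex.I.im := by simp
  have hz' : 0 < (moeb (γ' : Matrix (Fin 2) (Fin 2) ℤ) Complex.I).im := moeb_SL_im_pos γ' hI
  rw [← period_eq_at f (mul_mem hγ hγ') hP hI, ← period_eq_at f hγ hP hz',
    ← period_eq_at f hγ' (polyAct_natDegree_le w _ P) hI]
  have hcoe : ((γ * γ' : SL(2, ℤ)) : Matrix (Fin 2) (Fin 2) ℤ) =
      (γ : Matrix (Fin 2) (Fin 2) ℤ) * (γ' : Matrix (Fin 2) (Fin 2) ℤ) := by simp
  rw [hcoe, moeb_mul _ _ (moebDen_SL_ne_zero γ' hI), polyAct_mul]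
  ring

theorem period_one (f : ℍ → ℂ) {P : ℤ[X]} (hP : P.natDegree ≤ w) : period w f 1 P = 0 := by
  have hcoe : ((1 : SL(2, ℤ)) : Matrix (Fin 2) (Fin 2) ℤ) = 1 := by simp
  rw [period, hcoe, moeb_one, polyAct_one w hP, sub_self]

theorem period_inv (f : CuspForm (CongruenceSubgroup.Gamma0 N) ((w : ℤ) + 2))
    {γ : SL(2, ℤ)} (hγ : γ ∈ CongruenceSubgroup.Gamma0 N) {P : ℤ[X]} (hP : P.natDegree ≤ w) :
    period w ⇑f γ⁻¹ P =
      -period w ⇑f γ (polyAct w ((γ⁻¹ : SL(2, ℤ)) : Matrix (Fin 2) (Fin 2) ℤ) P) := by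
  have h := period_mul f (inv_mem hγ) hγ hP
  rw [inv_mul_cancel, period_one ⇑f hP] at h
  linear_combination (-1 : ℂ) * h

/-! ### Linearity of the period in the polynomial and in the form -/

theorem period_add_poly {f : ℍ → ℂ} (hf : IsNiceFun f) (γ : SL(2, ℤ)) (P Q : ℤ[X]) :
    period w f γ (P + Q) = period w f γ P + period w f γ Q := by
  have hI : (0 : ℝ) < Complex.I.im := by simp
  have hz' : 0 < (moeb (γ : Matrix (Fin 2) (Fin 2) ℤ) Complex.I).im := moeb_SL_im_pos γ hI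
  simp only [period, polyC, map_add, Polynomial.map_add]
  rw [eichlerInt_add_poly hf _ _ hz', eichlerInt_add_poly hf _ _ hI]
  ring

theorem period_zsmul_poly (f : ℍ → ℂ) (γ : SL(2, ℤ)) (n : ℤ) (P : ℤ[X]) :
    period w f γ (n • P) = n * period w f γ P := by
  have h1 : polyC (n • P) = (n : ℂ) • polyC P := by
    simp only [polyC, zsmul_eq_mul, Polynomial.map_mul, Polynomial.map_intCast]
    rw [← C_eq_intCast, ← smul_eq_C_mul]
  have h2 : polyC (polyAct w (γ : Matrix (Fin 2) (Fin 2) ℤ) (n • P)) =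
      (n : ℂ) • polyC (polyAct w (γ : Matrix (Fin 2) (Fin 2) ℤ) P) := by
    rw [map_zsmul]
    simp only [polyC, zsmul_eq_mul, Polynomial.map_mul, Polynomial.map_intCast]
    rw [← C_eq_intCast, ← smul_eq_C_mul]
  simp only [period, h1, h2, eichlerInt_smul_poly]
  ring

theorem period_sum_poly {f : ℍ → ℂ} (hf : IsNiceFun f) (γ : SL(2, ℤ)) {ι : Type*} (s : Finset ι)
    (P : ι → ℤ[X]) : period w f γ (∑ i ∈ s, P i) = ∑ i ∈ s, period w f γ (P i) := by
  classical
  induction s using Finset.induction_on with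
  | empty =>
    have := period_zsmul_poly (w := w) f γ 0 0
    simpa using this
  | insert a s ha ih => rw [Finset.sum_insert ha, Finset.sum_insert ha, period_add_poly hf, ih]

theorem period_add_fun {f g : ℍ → ℂ} (hf : IsNiceFun f) (hg : IsNiceFun g) (γ : SL(2, ℤ))
    (P : ℤ[X]) : period w (f + g) γ P = period w f γ P + period w g γ P := by
  have hI : (0 : ℝ) < Complex.I.im := by simp
  have hz' : 0 < (moeb (γ : Matrix (Fin 2) (Fin 2) ℤ) Complex.I).im := moeb_SL_im_pos γ hI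
  simp only [period]
  rw [eichlerInt_add_fun hf hg _ hz', eichlerInt_add_fun hf hg _ hI]
  ring

theorem period_smul_fun (f : ℍ → ℂ) (c : ℂ) (γ : SL(2, ℤ)) (P : ℤ[X]) :
    period w (c • f) γ P = c * period w f γ P := by
  simp only [period, eichlerInt_smul_fun]
  ring

/-- The period as a linear functional on the space of cusp forms. -/
def periodLin (N : ℕ) [NeZero N] (w : ℕ) (γ : SL(2, ℤ)) (P : ℤ[X]) :
    CuspForm (CongruenceSubgroup.Gamma0 N) ((w : ℤ) + 2) →ₗ[ℂ] ℂ where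
  toFun f := period w ⇑f γ P
  map_add' f g := by
    have : (⇑(f + g) : ℍ → ℂ) = ⇑f + ⇑g := by
      ext z; simp
    rw [this]
    exact period_add_fun (isNiceFun_cuspForm f) (isNiceFun_cuspForm g) γ P
  map_smul' c f := by
    have : (⇑(c • f) : ℍ → ℂ) = c • ⇑f := by
      ext z; simp
    rw [this, period_smul_fun]
    rfl

@[simp] theorem periodLin_apply (γ : SL(2, ℤ)) (P : ℤ[X])
    (f : CuspForm (CongruenceSubgroup.Gamma0 N) ((w : ℤ) + 2)) :
    periodLin N w γ P f = period w ⇑f γ P := rfl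

end Transform

end Fermat.Agent.S22
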